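/-
S55 / block COH : smooth ("continuous, discrete coefficients") cohomology of a group `G`
equipped with a directed system `𝓝` of finite-index normal subgroups.
Only definitions and the few lemmas needed to make them; the API is in the other files of
`Fermat/Agent/S55/Coh/`.
-/
import Mathlib

set_option autoImplicit false

namespace Fermat.Agent.S55

/-- A directed system of finite-index normal subgroups ("the basic neighbourhoods of 1"). -/
structure LevelSys (G : Type) [Group G] where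
  carrier : Set (Subgroup G)
  nonempty : carrier.Nonempty
  normal : ∀ N ∈ carrier, N.Normal
  finiteIndex : ∀ N ∈ carrier, N.FiniteIndex
  directed : ∀ N ∈ carrier, ∀ N' ∈ carrier, ∃ N'' ∈ carrier, N'' ≤ N ⊓ N'

namespace LevelSys

variable {G : Type} [Group G]

/-- `U` contains a member of the system. -/
def IsOpen (𝓝 : LevelSys G) (U : Subgroup G) : Prop := ∃ N ∈ 𝓝.carrier, N ≤ U

/-- `𝓝'` is finer than `𝓝`. -/
def Le (𝓝 𝓝' : LevelSys G) : Prop := ∀ N ∈ 𝓝.carrier, ∃ N' ∈ 𝓝'.carrier, N' ≤ N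

/-- Pull back a level system along a group homomorphism. -/
def comap {H : Type} [Group H] (f : H →* G) (𝓝 : LevelSys G) : LevelSys H where
  carrier := (fun N => N.comap f) '' 𝓝.carrier
  nonempty := 𝓝.nonempty.image _
  normal := by
    rintro _ ⟨N, hN, rfl⟩
    have := 𝓝.normal N hN
    exact Subgroup.Normal.comap this f
  finiteIndex := by
    rintro _ ⟨N, hN, rfl⟩
    have := 𝓝.finiteIndex N hN
    refine ⟨?_⟩
    rw [Subgroup.index_comap]
    exact fun h => this.index_ne_zero (Subgroup.index_eq_zero_of_relIndex_eq_zero h)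
  directed := by
    rintro _ ⟨N, hN, rfl⟩ _ ⟨N', hN', rfl⟩
    obtain ⟨N'', hN'', hle⟩ := 𝓝.directed N hN N' hN'
    exact ⟨_, ⟨N'', hN'', rfl⟩, by
      rw [← Subgroup.comap_inf]; exact Subgroup.comap_mono hle⟩

end LevelSys

variable {G : Type} [Group G] (𝓝 : LevelSys G)

/-- Every element of `A` is fixed by a member of the system. -/
class Smooth (A : Type) [AddCommGroup A] [DistribMulAction G A] : Prop where
  exists_fix : ∀ a : A, ∃ N ∈ 𝓝.carrier, ∀ n ∈ N, n • a = a

/-- A function of `n` group variables which factors through `(G/N)^n` for some level `N`. -/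
def IsLevel {X : Type} {n : ℕ} (f : (Fin n → G) → X) : Prop :=
  ∃ N ∈ 𝓝.carrier, ∀ g h : Fin n → G, (∀ i, (g i)⁻¹ * h i ∈ N) → f g = f h

section cochains

variable (A : Type) [AddCommGroup A] [DistribMulAction G A]

/-- The inhomogeneous differential (same formula as Mathlib's `inhomogeneousCochains.d`). -/
def dd (n : ℕ) : ((Fin n → G) → A) →+ ((Fin (n + 1) → G) → A) where
  toFun f g := g 0 • f (fun i => g i.succ) +
    ∑ j : Fin (n + 1), (-1 : ℤ) ^ ((j : ℕ) + 1) • f (Fin.contractNth j (· * ·) g)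
  map_zero' := by ext; simp
  map_add' f g := by
    ext
    simp [Finset.sum_add_distrib, add_add_add_comm]

theorem dd_apply (n : ℕ) (f : (Fin n → G) → A) (g : Fin (n + 1) → G) :
    dd A n f g = g 0 • f (fun i => g i.succ) +
      ∑ j : Fin (n + 1), (-1 : ℤ) ^ ((j : ℕ) + 1) • f (Fin.contractNth j (· * ·) g) := rfl

/-- Smooth cochains. -/
def Csm (n : ℕ) : AddSubgroup ((Fin n → G) → A) where
  carrier := {f | IsLevel 𝓝 f}
  zero_mem' := by
    obtain ⟨N, hN⟩ := 𝓝.nonempty
    exact ⟨N, hN, fun _ _ _ => rfl⟩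
  add_mem' := by
    rintro f f' ⟨N, hN, h⟩ ⟨N', hN', h'⟩
    obtain ⟨N'', hN'', hle⟩ := 𝓝.directed N hN N' hN'
    refine ⟨N'', hN'', fun g k hgk => ?_⟩
    simp only [Pi.add_apply]
    rw [h g k fun i => (hle (hgk i)).1, h' g k fun i => (hle (hgk i)).2]
  neg_mem' := by
    rintro f ⟨N, hN, h⟩
    exact ⟨N, hN, fun g k hgk => by simp only [Pi.neg_apply]; rw [h g k hgk]⟩

/-- Smooth cocycles. -/
def Zsm (n : ℕ) : AddSubgroup ((Fin n → G) → A) := Csm 𝓝 A n ⊓ (dd A n).ker

/-- Smooth coboundaries. -/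
def Bsm : (n : ℕ) → AddSubgroup ((Fin n → G) → A)
  | 0 => ⊥
  | n + 1 => (Csm 𝓝 A n).map (dd A n)

/-- Smooth cohomology `H^n(G, 𝓝; A)`. -/
def Hsm (n : ℕ) : Type := ↥(Zsm 𝓝 A n) ⧸ (Bsm 𝓝 A n).addSubgroupOf (Zsm 𝓝 A n)

instance (n : ℕ) : AddCommGroup (Hsm 𝓝 A n) :=
  inferInstanceAs (AddCommGroup (↥(Zsm 𝓝 A n) ⧸ (Bsm 𝓝 A n).addSubgroupOf (Zsm 𝓝 A n)))

/-- The class of a smooth cocycle. -/
def Hsm.mk (n : ℕ) : ↥(Zsm 𝓝 A n) →+ Hsm 𝓝 A n :=
  QuotientAddGroup.mk' _

end cochains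

end Fermat.Agent.S55
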