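/-
S55 / block COH-1 : the smooth cochains form a complex.
`dd_dd`, `dd_mem_Csm`, `Bsm_le_Zsm` and elementary API for `LevelSys`, `IsLevel`, `Csm`, `Zsm`,
`Bsm`, `Hsm`.
-/
import Fermat.Agent.S55.Coh.Defs

set_option autoImplicit false

namespace Fermat.Agent.S55

variable {G : Type} [Group G] (𝓝 : LevelSys G)

/-! ### Level systems -/

namespace LevelSys

variable {𝓝}

/-- A finite family of members of the system has a common lower bound in the system. -/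
theorem exists_le_of_finite {ι : Type*} {s : Set ι} (hs : s.Finite) (F : ι → Subgroup G)
    (hF : ∀ i ∈ s, F i ∈ 𝓝.carrier) : ∃ N ∈ 𝓝.carrier, ∀ i ∈ s, N ≤ F i := by
  induction s, hs using Set.Finite.induction_on with
  | empty =>
    obtain ⟨N, hN⟩ := 𝓝.nonempty
    exact ⟨N, hN, by simp⟩
  | @insert a s _ _ ih =>
    obtain ⟨N, hN, h⟩ := ih fun i hi => hF i (Set.mem_insert_of_mem _ hi)
    obtain ⟨N', hN', hle⟩ := 𝓝.directed N hN (F a) (hF a (Set.mem_insert _ _))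
    refine ⟨N', hN', ?_⟩
    rintro i (rfl | hi)
    · exact hle.trans inf_le_right
    · exact (hle.trans inf_le_left).trans (h i hi)

/-- A finite family of open subgroups has a common lower bound in the system. -/
theorem exists_le_of_finite_isOpen {ι : Type*} {s : Set ι} (hs : s.Finite) (F : ι → Subgroup G)
    (hF : ∀ i ∈ s, 𝓝.IsOpen (F i)) : ∃ N ∈ 𝓝.carrier, ∀ i ∈ s, N ≤ F i := by
  classical
  choose! F' hF' hle using hF
  obtain ⟨N, hN, h⟩ := exists_le_of_finite hs F' hF'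
  exact ⟨N, hN, fun i hi => (h i hi).trans (hle i hi)⟩

theorem isOpen_of_mem {N : Subgroup G} (hN : N ∈ 𝓝.carrier) : 𝓝.IsOpen N := ⟨N, hN, le_rfl⟩

theorem IsOpen.mono {U V : Subgroup G} (hU : 𝓝.IsOpen U) (h : U ≤ V) : 𝓝.IsOpen V := by
  obtain ⟨N, hN, hle⟩ := hU
  exact ⟨N, hN, hle.trans h⟩

theorem IsOpen.inf {U V : Subgroup G} (hU : 𝓝.IsOpen U) (hV : 𝓝.IsOpen V) : 𝓝.IsOpen (U ⊓ V) := by
  obtain ⟨N, hN, hle⟩ := hU
  obtain ⟨N', hN', hle'⟩ := hV
  obtain ⟨N'', hN'', h⟩ := 𝓝.directed N hN N' hN'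
  exact ⟨N'', hN'', h.trans (inf_le_inf hle hle')⟩

theorem isOpen_top : 𝓝.IsOpen ⊤ := by
  obtain ⟨N, hN⟩ := 𝓝.nonempty
  exact ⟨N, hN, le_top⟩

theorem IsOpen.finiteIndex {U : Subgroup G} (hU : 𝓝.IsOpen U) : U.FiniteIndex := by
  obtain ⟨N, hN, hle⟩ := hU
  have := 𝓝.finiteIndex N hN
  exact Subgroup.finiteIndex_of_le hle

end LevelSys

/-! ### Smooth modules -/

section smooth

variable {𝓝}
variable {A : Type} [AddCommGroup A] [DistribMulAction G A]

/-- Finitely many elements of a smooth module are fixed by a common member of the system. -/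
theorem Smooth.exists_fix_of_finite [Smooth 𝓝 A] {s : Set A} (hs : s.Finite) :
    ∃ N ∈ 𝓝.carrier, ∀ a ∈ s, ∀ n ∈ N, n • a = a := by
  classical
  choose F hF hfix using fun a : A => Smooth.exists_fix (𝓝 := 𝓝) a
  obtain ⟨N, hN, h⟩ := LevelSys.exists_le_of_finite hs F fun a _ => hF a
  exact ⟨N, hN, fun a ha n hn => hfix a n (h a ha hn)⟩

/-- The stabiliser of an element of a smooth module is open. -/
theorem Smooth.isOpen_stabilizer [Smooth 𝓝 A] (a : A) : 𝓝.IsOpen (MulAction.stabilizer G a) := by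
  obtain ⟨N, hN, h⟩ := Smooth.exists_fix (𝓝 := 𝓝) a
  exact ⟨N, hN, fun n hn => h n hn⟩

/-- A module which embeds equivariantly in a smooth module is smooth. -/
theorem Smooth.of_injective {B : Type} [AddCommGroup B] [DistribMulAction G B] [Smooth 𝓝 B]
    (φ : A →+[G] B) (hφ : Function.Injective φ) : Smooth 𝓝 A where
  exists_fix a := by
    obtain ⟨N, hN, h⟩ := Smooth.exists_fix (𝓝 := 𝓝) (φ a)
    exact ⟨N, hN, fun n hn => hφ (by rw [map_smul, h n hn])⟩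

/-- An equivariant quotient of a smooth module is smooth. -/
theorem Smooth.of_surjective {B : Type} [AddCommGroup B] [DistribMulAction G B] [Smooth 𝓝 A]
    (φ : A →+[G] B) (hφ : Function.Surjective φ) : Smooth 𝓝 B where
  exists_fix b := by
    obtain ⟨a, rfl⟩ := hφ b
    obtain ⟨N, hN, h⟩ := Smooth.exists_fix (𝓝 := 𝓝) a
    exact ⟨N, hN, fun n hn => by rw [← map_smul, h n hn]⟩

/-- Smoothness passes to a finer level system. -/
theorem Smooth.of_le {𝓝' : LevelSys G} (h : 𝓝.Le 𝓝') [Smooth 𝓝 A] : Smooth 𝓝' A where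
  exists_fix a := by
    obtain ⟨N, hN, hfix⟩ := Smooth.exists_fix (𝓝 := 𝓝) a
    obtain ⟨N', hN', hle⟩ := h N hN
    exact ⟨N', hN', fun n hn => hfix n (hle hn)⟩

end smooth

/-! ### Functions of a given level -/

/-- `f` factors through `(G/N)^n`. -/
def IsLevelAt {X : Type} {n : ℕ} (N : Subgroup G) (f : (Fin n → G) → X) : Prop :=
  ∀ g h : Fin n → G, (∀ i, (g i)⁻¹ * h i ∈ N) → f g = f h

theorem isLevel_iff {X : Type} {n : ℕ} (f : (Fin n → G) → X) :
    IsLevel 𝓝 f ↔ ∃ N ∈ 𝓝.carrier, IsLevelAt N f := Iff.rfl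

theorem IsLevelAt.mono {X : Type} {n : ℕ} {N N' : Subgroup G} {f : (Fin n → G) → X}
    (h : IsLevelAt N f) (hle : N' ≤ N) : IsLevelAt N' f :=
  fun g k hgk => h g k fun i => hle (hgk i)

theorem IsLevelAt.comp {X Y : Type} {n : ℕ} {N : Subgroup G} {f : (Fin n → G) → X}
    (h : IsLevelAt N f) (u : X → Y) : IsLevelAt N (fun g => u (f g)) :=
  fun g k hgk => congrArg u (h g k hgk)

theorem IsLevelAt.of_comp_injective {X Y : Type} {n : ℕ} {N : Subgroup G} {f : (Fin n → G) → X}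
    {u : X → Y} (hu : Function.Injective u) (h : IsLevelAt N (fun g => u (f g))) :
    IsLevelAt N f :=
  fun g k hgk => hu (h g k hgk)

/-- A function of finite-index level takes finitely many values. -/
theorem IsLevelAt.finite_range {X : Type} {n : ℕ} {N : Subgroup G} [N.FiniteIndex]
    {f : (Fin n → G) → X} (h : IsLevelAt N f) : (Set.range f).Finite := by
  classical
  have : Finite (G ⧸ N) := Subgroup.finite_quotient_of_finiteIndex
  let F : (Fin n → G ⧸ N) → X := fun q => f fun i => (q i).out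
  refine (Set.finite_range F).subset ?_
  rintro _ ⟨g, rfl⟩
  refine ⟨fun i => (g i : G ⧸ N), ?_⟩
  refine h _ _ fun i => ?_
  exact QuotientGroup.eq.1 (QuotientGroup.out_eq' _)

variable {𝓝}

theorem IsLevel.comp {X Y : Type} {n : ℕ} {f : (Fin n → G) → X} (h : IsLevel 𝓝 f) (u : X → Y) :
    IsLevel 𝓝 (fun g => u (f g)) := by
  obtain ⟨N, hN, h⟩ := h
  exact ⟨N, hN, IsLevelAt.comp h u⟩

theorem IsLevel.of_comp_injective {X Y : Type} {n : ℕ} {f : (Fin n → G) → X} {u : X → Y}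
    (hu : Function.Injective u) (h : IsLevel 𝓝 (fun g => u (f g))) : IsLevel 𝓝 f := by
  obtain ⟨N, hN, h⟩ := h
  exact ⟨N, hN, IsLevelAt.of_comp_injective hu h⟩

theorem IsLevel.finite_range {X : Type} {n : ℕ} {f : (Fin n → G) → X} (h : IsLevel 𝓝 f) :
    (Set.range f).Finite := by
  obtain ⟨N, hN, h⟩ := h
  have := 𝓝.finiteIndex N hN
  exact IsLevelAt.finite_range h

theorem IsLevel.of_le {𝓝' : LevelSys G} (hle : 𝓝.Le 𝓝') {X : Type} {n : ℕ}
    {f : (Fin n → G) → X} (h : IsLevel 𝓝 f) : IsLevel 𝓝' f := by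
  obtain ⟨N, hN, h⟩ := h
  obtain ⟨N', hN', hle⟩ := hle N hN
  exact ⟨N', hN', IsLevelAt.mono h hle⟩

/-- Two level functions have a common level. -/
theorem IsLevel.exists_common {X Y : Type} {n m : ℕ} {f : (Fin n → G) → X}
    {f' : (Fin m → G) → Y} (h : IsLevel 𝓝 f) (h' : IsLevel 𝓝 f') :
    ∃ N ∈ 𝓝.carrier, IsLevelAt N f ∧ IsLevelAt N f' := by
  obtain ⟨N, hN, h⟩ := h
  obtain ⟨N', hN', h'⟩ := h'
  obtain ⟨N'', hN'', hle⟩ := 𝓝.directed N hN N' hN'
  exact ⟨N'', hN'', IsLevelAt.mono h (hle.trans inf_le_left),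
    IsLevelAt.mono h' (hle.trans inf_le_right)⟩

/-- A level function can be lifted along a surjection to a level function. -/
theorem IsLevel.exists_lift {X Y : Type} {n : ℕ} {u : X → Y} (hu : Function.Surjective u)
    {f : (Fin n → G) → Y} (h : IsLevel 𝓝 f) :
    ∃ f' : (Fin n → G) → X, IsLevel 𝓝 f' ∧ ∀ g, u (f' g) = f g :=
  ⟨fun g => Function.surjInv hu (f g), h.comp _, fun g => Function.surjInv_eq hu (f g)⟩

/-- Contracting two neighbouring variables is compatible with congruences modulo a normal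
subgroup. -/
theorem contractNth_congr {N : Subgroup G} [N.Normal] {n : ℕ} (j : Fin (n + 1))
    {g h : Fin (n + 1) → G} (hgh : ∀ i, (g i)⁻¹ * h i ∈ N) (i : Fin n) :
    (Fin.contractNth j (· * ·) g i)⁻¹ * Fin.contractNth j (· * ·) h i ∈ N := by
  rcases lt_trichotomy (i : ℕ) j with hlt | heq | hgt
  · rw [Fin.contractNth_apply_of_lt _ _ _ _ hlt, Fin.contractNth_apply_of_lt _ _ _ _ hlt]
    exact hgh _
  · rw [Fin.contractNth_apply_of_eq _ _ _ _ heq, Fin.contractNth_apply_of_eq _ _ _ _ heq]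
    have h1 := hgh i.castSucc
    have h2 := hgh i.succ
    have h3 : (g i.succ)⁻¹ * ((g i.castSucc)⁻¹ * h i.castSucc) * (g i.succ)⁻¹⁻¹ ∈ N :=
      Subgroup.Normal.conj_mem inferInstance _ h1 _
    have h4 := N.mul_mem h3 h2
    convert h4 using 1
    group
  · rw [Fin.contractNth_apply_of_gt _ _ _ _ hgt, Fin.contractNth_apply_of_gt _ _ _ _ hgt]
    exact hgh _

/-! ### The complex -/

variable (A : Type) [AddCommGroup A] [DistribMulAction G A]

/-- Comparison with Mathlib's inhomogeneous differential. -/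
theorem dd_eq_mathlib (n : ℕ) (f : (Fin n → G) → A) :
    dd A n f = (inhomogeneousCochains.d (Rep.ofDistribMulAction ℤ G A) n).hom f := rfl

/-- `d ∘ d = 0`. -/
theorem dd_dd (n : ℕ) (f : (Fin n → G) → A) : dd A (n + 1) (dd A n f) = 0 := by
  have h := groupCohomology.inhomogeneousCochains.d_comp_d (n := n)
    (A := Rep.ofDistribMulAction ℤ G A)
  have h2 := congrArg (fun φ => φ.hom f) h
  exact h2

variable {A}

/-- Precise form of `dd_mem_Csm`: if `f` has level `N` (normal) and `N` fixes all the values of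
`f` then `dd f` has level `N`. -/
theorem IsLevelAt.dd {N : Subgroup G} [N.Normal] {n : ℕ} {f : (Fin n → G) → A}
    (h : IsLevelAt N f) (hfix : ∀ g, ∀ x ∈ N, x • f g = f g) : IsLevelAt N (dd A n f) := by
  intro g k hgk
  rw [dd_apply, dd_apply]
  congr 1
  · have h1 : f (fun i => g i.succ) = f (fun i => k i.succ) := h _ _ fun i => hgk i.succ
    rw [← h1]
    have h2 : k 0 = g 0 * ((g 0)⁻¹ * k 0) := by group
    rw [h2, mul_smul, hfix _ _ (hgk 0)]
  · refine Finset.sum_congr rfl fun j _ => ?_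
    rw [h _ _ (contractNth_congr j hgk)]

variable (𝓝 A)

omit [DistribMulAction G A] in
theorem mem_Csm {n : ℕ} {f : (Fin n → G) → A} : f ∈ Csm 𝓝 A n ↔ IsLevel 𝓝 f := Iff.rfl

theorem mem_Zsm {n : ℕ} {f : (Fin n → G) → A} :
    f ∈ Zsm 𝓝 A n ↔ IsLevel 𝓝 f ∧ dd A n f = 0 := Iff.rfl

theorem mem_Bsm_succ {n : ℕ} {f : (Fin (n + 1) → G) → A} :
    f ∈ Bsm 𝓝 A (n + 1) ↔ ∃ e ∈ Csm 𝓝 A n, dd A n e = f := Iff.rfl

theorem mem_Bsm_zero {f : (Fin 0 → G) → A} : f ∈ Bsm 𝓝 A 0 ↔ f = 0 := Iff.rfl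

variable {𝓝 A}

/-- The differential preserves smooth cochains (with values in a smooth module). -/
theorem dd_mem_Csm [Smooth 𝓝 A] {n : ℕ} {f : (Fin n → G) → A} (hf : f ∈ Csm 𝓝 A n) :
    dd A n f ∈ Csm 𝓝 A (n + 1) := by
  obtain ⟨N, hN, h⟩ := hf
  have := 𝓝.finiteIndex N hN
  obtain ⟨N', hN', hfix⟩ := Smooth.exists_fix_of_finite (𝓝 := 𝓝) (IsLevelAt.finite_range h)
  obtain ⟨N'', hN'', hle⟩ := 𝓝.directed N hN N' hN'
  have := 𝓝.normal N'' hN''
  exact ⟨N'', hN'', IsLevelAt.dd (IsLevelAt.mono h (hle.trans inf_le_left))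
    fun g x hx => hfix _ ⟨g, rfl⟩ x (hle hx).2⟩

theorem Zsm_le_Csm (n : ℕ) : Zsm 𝓝 A n ≤ Csm 𝓝 A n := inf_le_left

theorem dd_eq_zero_of_mem_Zsm {n : ℕ} {f : (Fin n → G) → A} (hf : f ∈ Zsm 𝓝 A n) :
    dd A n f = 0 := hf.2

/-- Smooth coboundaries are smooth cocycles. -/
theorem Bsm_le_Zsm [Smooth 𝓝 A] (n : ℕ) : Bsm 𝓝 A n ≤ Zsm 𝓝 A n := by
  cases n with
  | zero => exact bot_le
  | succ n =>
    rintro _ ⟨e, he, rfl⟩
    exact ⟨dd_mem_Csm he, dd_dd A n e⟩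

/-- The coboundary of a smooth cochain is a smooth cocycle. -/
theorem dd_mem_Zsm [Smooth 𝓝 A] {n : ℕ} {f : (Fin n → G) → A} (hf : f ∈ Csm 𝓝 A n) :
    dd A n f ∈ Zsm 𝓝 A (n + 1) := ⟨dd_mem_Csm hf, dd_dd A n f⟩

theorem dd_mem_Bsm {n : ℕ} {f : (Fin n → G) → A} (hf : f ∈ Csm 𝓝 A n) :
    dd A n f ∈ Bsm 𝓝 A (n + 1) := ⟨f, hf, rfl⟩

/-! ### Classes -/

theorem Hsm.mk_surjective (n : ℕ) : Function.Surjective (Hsm.mk 𝓝 A n) :=
  QuotientAddGroup.mk'_surjective _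

theorem Hsm.mk_eq_zero_iff {n : ℕ} (z : Zsm 𝓝 A n) :
    Hsm.mk 𝓝 A n z = 0 ↔ (z : (Fin n → G) → A) ∈ Bsm 𝓝 A n := by
  exact (QuotientAddGroup.eq_zero_iff (N := (Bsm 𝓝 A n).addSubgroupOf (Zsm 𝓝 A n)) z).trans
    AddSubgroup.mem_addSubgroupOf

theorem Hsm.mk_eq_mk_iff {n : ℕ} (z z' : Zsm 𝓝 A n) :
    Hsm.mk 𝓝 A n z = Hsm.mk 𝓝 A n z' ↔
      ((z : (Fin n → G) → A) - (z' : (Fin n → G) → A)) ∈ Bsm 𝓝 A n := by
  rw [← sub_eq_zero, ← map_sub, Hsm.mk_eq_zero_iff]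
  rfl

@[elab_as_elim]
theorem Hsm.induction_on {n : ℕ} {P : Hsm 𝓝 A n → Prop} (x : Hsm 𝓝 A n)
    (h : ∀ z : Zsm 𝓝 A n, P (Hsm.mk 𝓝 A n z)) : P x := by
  obtain ⟨z, rfl⟩ := Hsm.mk_surjective n x
  exact h z

/-- Additive maps out of `Hsm` are determined by their values on classes. -/
theorem Hsm.hom_ext {n : ℕ} {X : Type*} [AddZeroClass X] {u v : Hsm 𝓝 A n →+ X}
    (h : ∀ z : Zsm 𝓝 A n, u (Hsm.mk 𝓝 A n z) = v (Hsm.mk 𝓝 A n z)) : u = v := by
  ext x
  induction x using Hsm.induction_on with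
  | h z => exact h z

/-- Descend an additive map from cocycles to cohomology. -/
def Hsm.lift {n : ℕ} {X : Type*} [AddCommGroup X] (u : Zsm 𝓝 A n →+ X)
    (h : ∀ z : Zsm 𝓝 A n, (z : (Fin n → G) → A) ∈ Bsm 𝓝 A n → u z = 0) : Hsm 𝓝 A n →+ X :=
  QuotientAddGroup.lift _ u fun z hz => h z (AddSubgroup.mem_addSubgroupOf.1 hz)

@[simp]
theorem Hsm.lift_mk {n : ℕ} {X : Type*} [AddCommGroup X] (u : Zsm 𝓝 A n →+ X)
    (h : ∀ z : Zsm 𝓝 A n, (z : (Fin n → G) → A) ∈ Bsm 𝓝 A n → u z = 0) (z : Zsm 𝓝 A n) :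
    Hsm.lift u h (Hsm.mk 𝓝 A n z) = u z := rfl

end Fermat.Agent.S55
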