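/-
S55 / block COH : the coefficient modules of the "coefficient-only formalism".
`IndMod X A = Map(X, A)`, `ResMod f A` (restriction along a group homomorphism),
`HomMod N A = Hom(N, A)` (conjugation action), `GSub G A` (stable subgroups) and their quotients.
Only definitions, instances and the defining `rfl` lemmas.
-/
import Fermat.Agent.S55.Coh.Defs

set_option autoImplicit false

namespace Fermat.Agent.S55

/-! ### Equivariant additive maps -/

/-- `φ` commutes with the action of `G`. -/
def IsEquivariant (G : Type) {A B : Type} [SMul G A] [SMul G B] (φ : A → B) : Prop :=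
  ∀ (g : G) (a : A), φ (g • a) = g • φ a

/-! ### `IndMod X A` -/

/-- `Map(X, A)` with the action `(g • f) x = g • f (g⁻¹ • x)`.
A one-field structure (not a plain synonym of `X → A`): in this way `f x` is always the `FunLike`
coercion, every term is type-correct at reducible transparency (`rw`, `simp` need it), and the
pointwise `Pi` action cannot leak in.  Build elements with `IndMod.of`. -/
structure IndMod (X A : Type) : Type where
  /-- Build an element of `IndMod X A` from a function. -/
  of ::
  /-- The underlying function. -/
  toFun : X → A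

namespace IndMod

variable {G X A : Type}

instance : FunLike (IndMod X A) X A := ⟨toFun, fun ⟨_⟩ ⟨_⟩ h => congrArg of h⟩

@[simp] theorem of_apply (f : X → A) (x : X) : of f x = f x := rfl

@[ext] theorem ext {f f' : IndMod X A} (h : ∀ x, f x = f' x) : f = f' := DFunLike.ext _ _ h

instance [AddCommGroup A] : Zero (IndMod X A) := ⟨of fun _ => 0⟩
instance [AddCommGroup A] : Add (IndMod X A) := ⟨fun f f' => of fun x => f x + f' x⟩
instance [AddCommGroup A] : Neg (IndMod X A) := ⟨fun f => of fun x => -f x⟩
instance [AddCommGroup A] : Sub (IndMod X A) := ⟨fun f f' => of fun x => f x - f' x⟩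
instance [AddCommGroup A] : SMul ℕ (IndMod X A) := ⟨fun n f => of fun x => n • f x⟩
instance [AddCommGroup A] : SMul ℤ (IndMod X A) := ⟨fun n f => of fun x => n • f x⟩

instance [AddCommGroup A] : AddCommGroup (IndMod X A) :=
  Function.Injective.addCommGroup (fun f : IndMod X A => (f : X → A)) DFunLike.coe_injective
    rfl (fun _ _ => rfl) (fun _ => rfl) (fun _ _ => rfl) (fun _ _ => rfl) (fun _ _ => rfl)

@[simp] theorem zero_apply [AddCommGroup A] (x : X) : (0 : IndMod X A) x = 0 := rfl
@[simp] theorem add_apply [AddCommGroup A] (f f' : IndMod X A) (x : X) :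
    (f + f') x = f x + f' x := rfl
@[simp] theorem neg_apply [AddCommGroup A] (f : IndMod X A) (x : X) : (-f) x = -f x := rfl
@[simp] theorem sub_apply [AddCommGroup A] (f f' : IndMod X A) (x : X) :
    (f - f') x = f x - f' x := rfl
@[simp] theorem nsmul_apply [AddCommGroup A] (n : ℕ) (f : IndMod X A) (x : X) :
    (n • f) x = n • f x := rfl
@[simp] theorem zsmul_apply [AddCommGroup A] (n : ℤ) (f : IndMod X A) (x : X) :
    (n • f) x = n • f x := rfl

instance [Group G] [MulAction G X] [AddCommGroup A] [DistribMulAction G A] :
    DistribMulAction G (IndMod X A) where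
  smul g f := of fun x => g • f (g⁻¹ • x)
  one_smul f := by
    ext x
    change (1 : G) • f ((1 : G)⁻¹ • x) = f x
    simp
  mul_smul g h f := by
    ext x
    change (g * h) • f ((g * h)⁻¹ • x) = g • h • f (h⁻¹ • g⁻¹ • x)
    simp [mul_smul]
  smul_zero g := by
    ext x
    change g • (0 : A) = 0
    simp
  smul_add g f f' := by
    ext x
    change g • (f (g⁻¹ • x) + f' (g⁻¹ • x)) = g • f (g⁻¹ • x) + g • f' (g⁻¹ • x)
    simp

@[simp] theorem smul_apply [Group G] [MulAction G X] [AddCommGroup A] [DistribMulAction G A]
    (g : G) (f : IndMod X A) (x : X) : (g • f) x = g • f (g⁻¹ • x) := rfl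

end IndMod

/-! ### `ResMod f A` -/

/-- `A` regarded as an `H`-module through `f : H →* G`. -/
def ResMod {H G : Type} [Group H] [Group G] (_f : H →* G) (A : Type) : Type := A

namespace ResMod

variable {H G : Type} [Group H] [Group G] (f : H →* G) {A : Type}

instance [AddCommGroup A] : AddCommGroup (ResMod f A) := inferInstanceAs (AddCommGroup A)

/-- The identity map `A ≃+ ResMod f A`. -/
def toRes [AddCommGroup A] : A ≃+ ResMod f A := AddEquiv.refl A

instance [AddCommGroup A] [DistribMulAction G A] : DistribMulAction H (ResMod f A) :=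
  DistribMulAction.compHom A f

theorem smul_def [AddCommGroup A] [DistribMulAction G A] (h : H) (a : A) :
    h • toRes f a = toRes f (f h • a) := rfl

end ResMod

/-! ### `HomMod N A` -/

/-- `Hom(N, A)` with the action `(g • φ) n = g • φ (g⁻¹ • n)`. -/
def HomMod (N A : Type) [AddCommGroup N] [AddCommGroup A] : Type := N →+ A

namespace HomMod

variable {G N A : Type} [AddCommGroup N] [AddCommGroup A]

instance : AddCommGroup (HomMod N A) := inferInstanceAs (AddCommGroup (N →+ A))

instance : FunLike (HomMod N A) N A := ⟨fun f => (show N →+ A from f), fun _ _ h =>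
  DFunLike.coe_injective (F := N →+ A) h⟩

instance : AddMonoidHomClass (HomMod N A) N A where
  map_add f := (show N →+ A from f).map_add
  map_zero f := (show N →+ A from f).map_zero

/-- Build an element of `HomMod N A` from an additive map. -/
def of (f : N →+ A) : HomMod N A := f

/-- The underlying additive map. -/
def toHom (f : HomMod N A) : N →+ A := f

@[simp] theorem of_apply (f : N →+ A) (n : N) : of f n = f n := rfl
@[simp] theorem toHom_apply (f : HomMod N A) (n : N) : toHom f n = f n := rfl

@[ext] theorem ext {f f' : HomMod N A} (h : ∀ n, f n = f' n) : f = f' := DFunLike.ext _ _ h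

@[simp] theorem zero_apply (n : N) : (0 : HomMod N A) n = 0 := rfl
@[simp] theorem add_apply (f f' : HomMod N A) (n : N) : (f + f') n = f n + f' n := rfl
@[simp] theorem neg_apply (f : HomMod N A) (n : N) : (-f) n = -f n := rfl

instance [Group G] [DistribMulAction G N] [DistribMulAction G A] :
    DistribMulAction G (HomMod N A) where
  smul g f := of
    { toFun := fun n => g • f (g⁻¹ • n)
      map_zero' := by simp
      map_add' := fun a b => by simp }
  one_smul f := by
    ext n
    change (1 : G) • f ((1 : G)⁻¹ • n) = f n
    simp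
  mul_smul g h f := by
    ext n
    change (g * h) • f ((g * h)⁻¹ • n) = g • h • f (h⁻¹ • g⁻¹ • n)
    simp [mul_smul]
  smul_zero g := by
    ext n
    change g • (0 : A) = 0
    simp
  smul_add g f f' := by
    ext n
    change g • (f (g⁻¹ • n) + f' (g⁻¹ • n)) = g • f (g⁻¹ • n) + g • f' (g⁻¹ • n)
    simp

@[simp] theorem smul_apply [Group G] [DistribMulAction G N] [DistribMulAction G A]
    (g : G) (f : HomMod N A) (n : N) : (g • f) n = g • f (g⁻¹ • n) := rfl

end HomMod

/-! ### Stable subgroups and quotients -/

/-- A `G`-stable additive subgroup of `A`. -/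
structure GSub (G A : Type) [Group G] [AddCommGroup A] [DistribMulAction G A]
    extends AddSubgroup A where
  smul_mem' : ∀ (g : G) {a : A}, a ∈ carrier → g • a ∈ carrier

namespace GSub

variable {G A : Type} [Group G] [AddCommGroup A] [DistribMulAction G A]

/-- The stable subgroup as a module in its own right. -/
def Mod (B : GSub G A) : Type := ↥B.toAddSubgroup

instance (B : GSub G A) : AddCommGroup B.Mod := inferInstanceAs (AddCommGroup ↥B.toAddSubgroup)

/-- The inclusion. -/
def incl (B : GSub G A) : B.Mod →+ A := B.toAddSubgroup.subtype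

theorem incl_injective (B : GSub G A) : Function.Injective B.incl := Subtype.val_injective

theorem incl_mem (B : GSub G A) (b : B.Mod) : B.incl b ∈ B.toAddSubgroup := b.2

/-- Build an element of `B.Mod`. -/
def mkMod (B : GSub G A) (a : A) (ha : a ∈ B.toAddSubgroup) : B.Mod := ⟨a, ha⟩

@[simp] theorem incl_mkMod (B : GSub G A) (a : A) (ha : a ∈ B.toAddSubgroup) :
    B.incl (B.mkMod a ha) = a := rfl

instance (B : GSub G A) : DistribMulAction G B.Mod where
  smul g b := ⟨g • b.1, B.smul_mem' g b.2⟩
  one_smul b := Subtype.ext (one_smul G b.1)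
  mul_smul g h b := Subtype.ext (mul_smul g h b.1)
  smul_zero g := Subtype.ext (smul_zero g)
  smul_add g b b' := Subtype.ext (smul_add g b.1 b'.1)

@[simp] theorem incl_smul (B : GSub G A) (g : G) (b : B.Mod) : B.incl (g • b) = g • B.incl b := rfl

/-- The quotient module `A / B`. -/
def Quot (B : GSub G A) : Type := A ⧸ B.toAddSubgroup

instance (B : GSub G A) : AddCommGroup B.Quot := inferInstanceAs (AddCommGroup (A ⧸ B.toAddSubgroup))

/-- The projection. -/
def proj (B : GSub G A) : A →+ B.Quot := QuotientAddGroup.mk' B.toAddSubgroup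

theorem proj_surjective (B : GSub G A) : Function.Surjective B.proj :=
  QuotientAddGroup.mk'_surjective _

theorem proj_eq_zero_iff (B : GSub G A) (a : A) : B.proj a = 0 ↔ a ∈ B.toAddSubgroup :=
  QuotientAddGroup.eq_zero_iff a

instance (B : GSub G A) : DistribMulAction G B.Quot where
  smul g := QuotientAddGroup.map B.toAddSubgroup B.toAddSubgroup (DistribSMul.toAddMonoidHom A g)
    (fun _ ha => B.smul_mem' g ha)
  one_smul b := by
    obtain ⟨a, rfl⟩ := B.proj_surjective b
    change B.proj ((1 : G) • a) = B.proj a
    rw [one_smul]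
  mul_smul g h b := by
    obtain ⟨a, rfl⟩ := B.proj_surjective b
    change B.proj ((g * h) • a) = B.proj (g • h • a)
    rw [mul_smul]
  smul_zero g := map_zero _
  smul_add g b b' := map_add _ b b'

@[simp] theorem proj_smul (B : GSub G A) (g : G) (a : A) : B.proj (g • a) = g • B.proj a := rfl

end GSub

end Fermat.Agent.S55
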