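/-
S55 / block COH-2 : smoothness of the module constructions of `Coh/Modules.lean` and the basic
equivariant maps between them (definitions and defining lemmas only).
-/
import Fermat.Agent.S55.Coh.Modules
import Fermat.Agent.S55.Coh.Complex

set_option autoImplicit false

namespace Fermat.Agent.S55

/-! ### Smooth `G`-sets -/

/-- Every point of the `G`-set `X` is fixed by a member of the system. -/
class SmoothSet {G : Type} [Group G] (𝓝 : LevelSys G) (X : Type) [MulAction G X] : Prop where
  exists_fix : ∀ x : X, ∃ N ∈ 𝓝.carrier, ∀ n ∈ N, n • x = x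

theorem SmoothSet.isOpen_stabilizer {G : Type} [Group G] (𝓝 : LevelSys G) {X : Type}
    [MulAction G X] [SmoothSet 𝓝 X] (x : X) : 𝓝.IsOpen (MulAction.stabilizer G x) := by
  obtain ⟨N, hN, h⟩ := SmoothSet.exists_fix (𝓝 := 𝓝) x
  exact ⟨N, hN, fun n hn => h n hn⟩

/-- A finite smooth `G`-set is fixed pointwise by a member of the system. -/
theorem SmoothSet.exists_fix_all {G : Type} [Group G] (𝓝 : LevelSys G) (X : Type)
    [MulAction G X] [SmoothSet 𝓝 X] [Finite X] : ∃ N ∈ 𝓝.carrier, ∀ n ∈ N, ∀ x : X, n • x = x := by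
  obtain ⟨N, hN, h⟩ := LevelSys.exists_le_of_finite_isOpen (𝓝 := 𝓝) (Set.finite_univ (α := X))
    (fun x => MulAction.stabilizer G x) (fun x _ => SmoothSet.isOpen_stabilizer 𝓝 x)
  exact ⟨N, hN, fun n hn x => h x (Set.mem_univ x) hn⟩

/-- The coset space of an open subgroup is a smooth `G`-set. -/
theorem SmoothSet.quotient {G : Type} [Group G] (𝓝 : LevelSys G) {U : Subgroup G}
    (hU : 𝓝.IsOpen U) : SmoothSet 𝓝 (G ⧸ U) where
  exists_fix x := by
    obtain ⟨N, hN, hle⟩ := hU
    have := 𝓝.normal N hN
    refine ⟨N, hN, fun n hn => ?_⟩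
    induction x using QuotientGroup.induction_on with
    | H g =>
      show ((n * g : G) : G ⧸ U) = (g : G ⧸ U)
      rw [QuotientGroup.eq]
      have h1 : g⁻¹ * n⁻¹ * g⁻¹⁻¹ ∈ N := Subgroup.Normal.conj_mem inferInstance _ (N.inv_mem hn) _
      have h2 : (n * g)⁻¹ * g = g⁻¹ * n⁻¹ * g⁻¹⁻¹ := by group
      rw [h2]
      exact hle h1

namespace IndMod

variable {G : Type} [Group G] {X Y A B : Type}

section add
variable [AddCommGroup A]

/-- Evaluation at a point, as an additive map. -/
def eval (x : X) : IndMod X A →+ A where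
  toFun f := f x
  map_zero' := rfl
  map_add' _ _ := rfl

@[simp] theorem eval_apply (x : X) (f : IndMod X A) : eval x f = f x := rfl

theorem finset_sum_apply {ι : Type} (s : Finset ι) (F : ι → IndMod X A) (x : X) :
    (∑ i ∈ s, F i) x = ∑ i ∈ s, F i x := map_sum (eval x) F s

/-- `IndMod X A` is additively the group of functions. -/
def funEquiv : IndMod X A ≃+ (X → A) where
  toFun f := f
  invFun := of
  left_inv _ := rfl
  right_inv _ := rfl
  map_add' _ _ := rfl

@[simp] theorem funEquiv_apply (f : IndMod X A) (x : X) : funEquiv f x = f x := rfl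
@[simp] theorem funEquiv_symm_apply (f : X → A) (x : X) :
    (funEquiv.symm f : IndMod X A) x = f x := rfl

end add

variable [MulAction G X] [AddCommGroup A] [DistribMulAction G A]

instance instSmooth (𝓝 : LevelSys G) [Finite X] [SmoothSet 𝓝 X] [Smooth 𝓝 A] :
    Smooth 𝓝 (IndMod X A) where
  exists_fix f := by
    obtain ⟨N, hN, h⟩ := SmoothSet.exists_fix_all 𝓝 X
    obtain ⟨N', hN', h'⟩ := Smooth.exists_fix_of_finite (𝓝 := 𝓝) (Set.finite_range f)
    obtain ⟨N'', hN'', hle⟩ := 𝓝.directed N hN N' hN'
    refine ⟨N'', hN'', fun n hn => ?_⟩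
    ext x
    have e1 : n⁻¹ • x = x := h _ (N.inv_mem (hle hn).1) x
    have e2 : n • f x = f x := h' _ ⟨x, rfl⟩ n (hle hn).2
    rw [smul_apply, e1, e2]

variable [AddCommGroup B] [DistribMulAction G B] [MulAction G Y]

/-- Functoriality in the coefficients. -/
def mapCoeff (X : Type) [MulAction G X] (φ : A →+[G] B) : IndMod X A →+[G] IndMod X B where
  toFun f := of fun x => φ (f x)
  map_smul' g f := by
    ext x
    exact map_smul φ _ _
  map_zero' := by
    ext x
    exact map_zero φ
  map_add' f f' := by
    ext x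
    exact map_add φ _ _

@[simp] theorem mapCoeff_apply (φ : A →+[G] B) (f : IndMod X A) (x : X) :
    mapCoeff X φ f x = φ (f x) := rfl

/-- Pull-back of functions along an equivariant map (`res`). -/
def pull (A : Type) [AddCommGroup A] [DistribMulAction G A] (u : Y →[G] X) :
    IndMod X A →+[G] IndMod Y A where
  toFun f := of fun y => f (u y)
  map_smul' g f := by
    ext y
    show g • f (g⁻¹ • u y) = g • f (u (g⁻¹ • y))
    rw [map_smul u]
  map_zero' := rfl
  map_add' _ _ := rfl

@[simp] theorem pull_apply (u : Y →[G] X) (f : IndMod X A) (y : Y) : pull A u f y = f (u y) := rfl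

/-- Sum over the fibres of an equivariant map (`cor`). -/
noncomputable def push (A : Type) [AddCommGroup A] [DistribMulAction G A] [Finite Y]
    (u : Y →[G] X) : IndMod Y A →+[G] IndMod X A where
  toFun f := of fun x => ∑ᶠ y : {y : Y // u y = x}, f y.1
  map_smul' g f := by
    ext x
    show ∑ᶠ y : {y : Y // u y = x}, g • f (g⁻¹ • y.1) =
      g • ∑ᶠ y : {y : Y // u y = g⁻¹ • x}, f y.1
    rw [smul_finsum' _ (Set.toFinite _)]
    let e : {y : Y // u y = x} ≃ {y : Y // u y = g⁻¹ • x} :=
      { toFun := fun y => ⟨g⁻¹ • y.1, by rw [map_smul u, y.2]⟩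
        invFun := fun y => ⟨g • y.1, by rw [map_smul u, y.2, smul_inv_smul]⟩
        left_inv := fun y => by simp
        right_inv := fun y => by simp }
    exact finsum_comp_equiv e (f := fun y => g • f y.1)
  map_zero' := by
    ext x
    show ∑ᶠ _y : {y : Y // u y = x}, (0 : A) = 0
    simp
  map_add' f f' := by
    ext x
    show ∑ᶠ y : {y : Y // u y = x}, (f y.1 + f' y.1) = _
    exact finsum_add_distrib (Set.toFinite _) (Set.toFinite _)

theorem push_apply [Finite Y] (u : Y →[G] X) (f : IndMod Y A) (x : X) :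
    push A u f x = ∑ᶠ y : {y : Y // u y = x}, f y.1 := rfl

/-- Constant functions. -/
def const (X : Type) [MulAction G X] (A : Type) [AddCommGroup A] [DistribMulAction G A] :
    A →+[G] IndMod X A where
  toFun a := of fun _ => a
  map_smul' _ _ := rfl
  map_zero' := rfl
  map_add' _ _ := rfl

@[simp] theorem const_apply (a : A) (x : X) : const (G := G) X A a x = a := rfl

/-- The sum of all values. -/
noncomputable def sum (X : Type) [MulAction G X] [Finite X] (A : Type) [AddCommGroup A]
    [DistribMulAction G A] : IndMod X A →+[G] A where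
  toFun f := ∑ᶠ x : X, f x
  map_smul' g f := by
    show ∑ᶠ x : X, g • f (g⁻¹ • x) = g • ∑ᶠ x : X, f x
    rw [smul_finsum' _ (Set.toFinite _)]
    exact finsum_comp_equiv (MulAction.toPerm g⁻¹) (f := fun x => g • f x)
  map_zero' := by
    show ∑ᶠ _x : X, (0 : A) = 0
    simp
  map_add' f f' := finsum_add_distrib (Set.toFinite _) (Set.toFinite _)

theorem sum_def [Finite X] (f : IndMod X A) : sum (G := G) X A f = ∑ᶠ x : X, f x := rfl

end IndMod

/-! ### `ResMod` -/

namespace ResMod

variable {G H : Type} [Group G] [Group H] (f : H →* G) {A B : Type}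
variable [AddCommGroup A] [DistribMulAction G A]

theorem smul_def' (h : H) (a : ResMod f A) :
    h • a = toRes f (f h • (toRes f).symm a) := rfl

instance instSmooth (𝓝 : LevelSys G) [Smooth 𝓝 A] : Smooth (𝓝.comap f) (ResMod f A) where
  exists_fix a := by
    obtain ⟨N, hN, h⟩ := Smooth.exists_fix (𝓝 := 𝓝) ((toRes f).symm a)
    refine ⟨N.comap f, ⟨N, hN, rfl⟩, fun n hn => ?_⟩
    rw [smul_def', h (f n) hn, AddEquiv.apply_symm_apply]

variable [AddCommGroup B] [DistribMulAction G B]

/-- Functoriality in the coefficients. -/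
def map (φ : A →+[G] B) : ResMod f A →+[H] ResMod f B where
  toFun a := toRes f (φ ((toRes f).symm a))
  map_smul' h a := by
    show toRes f (φ ((toRes f).symm (h • a))) = h • toRes f (φ ((toRes f).symm a))
    rw [smul_def, smul_def', AddEquiv.symm_apply_apply, map_smul]
  map_zero' := by
    show toRes f (φ ((toRes f).symm 0)) = 0
    simp
  map_add' a a' := by
    show toRes f (φ ((toRes f).symm (a + a'))) = _
    simp

@[simp] theorem map_toRes (φ : A →+[G] B) (a : A) : map f φ (toRes f a) = toRes f (φ a) := rfl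

end ResMod

/-! ### Stable subgroups -/

namespace GSub

variable {G A B : Type} [Group G] [AddCommGroup A] [DistribMulAction G A]
  [AddCommGroup B] [DistribMulAction G B]

/-- The inclusion, as an equivariant map. -/
def inclG (C : GSub G A) : C.Mod →+[G] A where
  toFun := C.incl
  map_smul' g b := C.incl_smul g b
  map_zero' := map_zero C.incl
  map_add' := map_add C.incl

@[simp] theorem inclG_apply (C : GSub G A) (b : C.Mod) : C.inclG b = C.incl b := rfl

theorem inclG_injective (C : GSub G A) : Function.Injective C.inclG := C.incl_injective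

/-- The projection, as an equivariant map. -/
def projG (C : GSub G A) : A →+[G] C.Quot where
  toFun := C.proj
  map_smul' g a := C.proj_smul g a
  map_zero' := map_zero C.proj
  map_add' := map_add C.proj

@[simp] theorem projG_apply (C : GSub G A) (a : A) : C.projG a = C.proj a := rfl

theorem projG_surjective (C : GSub G A) : Function.Surjective C.projG := C.proj_surjective

instance instSmoothMod (𝓝 : LevelSys G) [Smooth 𝓝 A] (C : GSub G A) : Smooth 𝓝 C.Mod :=
  Smooth.of_injective C.inclG C.inclG_injective

instance instSmoothQuot (𝓝 : LevelSys G) [Smooth 𝓝 A] (C : GSub G A) : Smooth 𝓝 C.Quot :=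
  Smooth.of_surjective C.projG C.projG_surjective

/-- The kernel of an equivariant map. -/
def ker (φ : A →+[G] B) : GSub G A where
  toAddSubgroup := (φ : A →+ B).ker
  smul_mem' g a ha := by
    have h0 : φ a = 0 := ha
    show φ (g • a) = 0
    rw [map_smul, h0, smul_zero]

theorem mem_ker (φ : A →+[G] B) (a : A) : a ∈ (ker φ).toAddSubgroup ↔ φ a = 0 := Iff.rfl

/-- The range of an equivariant map. -/
def range (φ : A →+[G] B) : GSub G B where
  toAddSubgroup := (φ : A →+ B).range
  smul_mem' g b hb := by
    obtain ⟨a, rfl⟩ := hb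
    exact ⟨g • a, map_smul φ g a⟩

theorem mem_range (φ : A →+[G] B) (b : B) : b ∈ (range φ).toAddSubgroup ↔ ∃ a, φ a = b := Iff.rfl

/-- Restrict the codomain of an equivariant map to a stable subgroup. -/
def codRestrict (C : GSub G B) (φ : A →+[G] B) (h : ∀ a, φ a ∈ C.toAddSubgroup) :
    A →+[G] C.Mod where
  toFun a := C.mkMod (φ a) (h a)
  map_smul' g a := C.incl_injective (by
    show φ (g • a) = g • φ a
    exact map_smul φ g a)
  map_zero' := C.incl_injective (by
    show φ 0 = 0
    exact map_zero φ)
  map_add' a a' := C.incl_injective (by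
    show φ (a + a') = φ a + φ a'
    exact map_add φ a a')

@[simp] theorem incl_codRestrict (C : GSub G B) (φ : A →+[G] B) (h : ∀ a, φ a ∈ C.toAddSubgroup)
    (a : A) : C.incl (C.codRestrict φ h a) = φ a := rfl

/-- An equivariant map onto its range. -/
def rangeRestrict (φ : A →+[G] B) : A →+[G] (range φ).Mod :=
  (range φ).codRestrict φ fun a => ⟨a, rfl⟩

@[simp] theorem incl_rangeRestrict (φ : A →+[G] B) (a : A) :
    (range φ).incl (rangeRestrict φ a) = φ a := rfl

theorem rangeRestrict_surjective (φ : A →+[G] B) : Function.Surjective (rangeRestrict φ) := by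
  intro b
  obtain ⟨a, ha⟩ := (range φ).incl_mem b
  exact ⟨a, (range φ).incl_injective ha⟩

end GSub

end Fermat.Agent.S55
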