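/-
S55 / block COH-1 : functoriality of smooth cohomology in the coefficients.
`Hsm.map φ n : Hsm 𝓝 A n →+ Hsm 𝓝 B n` for `φ : A →+[G] B`.
-/
import Fermat.Agent.S55.Coh.Complex

set_option autoImplicit false

namespace Fermat.Agent.S55

variable {G : Type} [Group G] {𝓝 : LevelSys G}
variable {A : Type} [AddCommGroup A] [DistribMulAction G A]
variable {B : Type} [AddCommGroup B] [DistribMulAction G B]
variable {C : Type} [AddCommGroup C] [DistribMulAction G C]

/-- Push a cochain forward along an additive map. -/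
def cmap (φ : A →+ B) (n : ℕ) : ((Fin n → G) → A) →+ ((Fin n → G) → B) where
  toFun f g := φ (f g)
  map_zero' := by ext; simp
  map_add' f f' := by ext; simp

omit [Group G] [DistribMulAction G A] [DistribMulAction G B] in
@[simp]
theorem cmap_apply (φ : A →+ B) (n : ℕ) (f : (Fin n → G) → A) (g : Fin n → G) :
    cmap φ n f g = φ (f g) := rfl

omit [Group G] [DistribMulAction G A] in
theorem cmap_id (n : ℕ) (f : (Fin n → G) → A) : cmap (AddMonoidHom.id A) n f = f := rfl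

omit [Group G] [DistribMulAction G A] [DistribMulAction G B] [DistribMulAction G C] in
theorem cmap_comp (ψ : B →+ C) (φ : A →+ B) (n : ℕ) (f : (Fin n → G) → A) :
    cmap (ψ.comp φ) n f = cmap ψ n (cmap φ n f) := rfl

omit [Group G] [DistribMulAction G A] [DistribMulAction G B] in
theorem cmap_injective {φ : A →+ B} (hφ : Function.Injective φ) (n : ℕ) :
    Function.Injective (cmap (G := G) φ n) :=
  fun _ _ h => funext fun g => hφ (congrFun h g)

/-- The differential commutes with equivariant maps. -/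
theorem dd_cmap (φ : A →+[G] B) (n : ℕ) (f : (Fin n → G) → A) :
    dd B n (cmap (φ : A →+ B) n f) = cmap (φ : A →+ B) (n + 1) (dd A n f) := by
  ext g
  simp [dd_apply, map_sum, map_zsmul]

omit [DistribMulAction G A] [DistribMulAction G B] in
theorem cmap_mem_Csm (φ : A →+ B) {n : ℕ} {f : (Fin n → G) → A} (hf : f ∈ Csm 𝓝 A n) :
    cmap φ n f ∈ Csm 𝓝 B n := IsLevel.comp hf φ

omit [DistribMulAction G A] [DistribMulAction G B] in
theorem mem_Csm_of_cmap_mem {φ : A →+ B} (hφ : Function.Injective φ) {n : ℕ}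
    {f : (Fin n → G) → A} (hf : cmap φ n f ∈ Csm 𝓝 B n) : f ∈ Csm 𝓝 A n :=
  IsLevel.of_comp_injective hφ hf

theorem cmap_mem_Zsm (φ : A →+[G] B) {n : ℕ} {f : (Fin n → G) → A} (hf : f ∈ Zsm 𝓝 A n) :
    cmap (φ : A →+ B) n f ∈ Zsm 𝓝 B n := by
  refine ⟨cmap_mem_Csm _ hf.1, ?_⟩
  change dd B n _ = 0
  rw [dd_cmap, dd_eq_zero_of_mem_Zsm hf, map_zero]

theorem cmap_mem_Bsm (φ : A →+[G] B) {n : ℕ} {f : (Fin n → G) → A} (hf : f ∈ Bsm 𝓝 A n) :
    cmap (φ : A →+ B) n f ∈ Bsm 𝓝 B n := by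
  cases n with
  | zero =>
    rw [mem_Bsm_zero] at hf ⊢
    rw [hf, map_zero]
  | succ n =>
    obtain ⟨e, he, rfl⟩ := hf
    exact ⟨cmap (φ : A →+ B) n e, cmap_mem_Csm _ he, dd_cmap φ n e⟩

omit [DistribMulAction G B] [DistribMulAction G C] in
/-- A smooth cochain lifts along a surjection. -/
theorem exists_cmap_eq {ψ : B →+ C} (hψ : Function.Surjective ψ) {n : ℕ}
    {f : (Fin n → G) → C} (hf : f ∈ Csm 𝓝 C n) : ∃ e ∈ Csm 𝓝 B n, cmap ψ n e = f := by
  obtain ⟨e, he, h⟩ := IsLevel.exists_lift hψ hf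
  exact ⟨e, he, funext h⟩

/-- The map induced on smooth cocycles. -/
def Zsm.map (φ : A →+[G] B) (n : ℕ) : Zsm 𝓝 A n →+ Zsm 𝓝 B n where
  toFun z := ⟨cmap (φ : A →+ B) n z, cmap_mem_Zsm φ z.2⟩
  map_zero' := by ext1; simp
  map_add' z z' := by ext1; simp

@[simp]
theorem Zsm.coe_map (φ : A →+[G] B) (n : ℕ) (z : Zsm 𝓝 A n) :
    (Zsm.map φ n z : (Fin n → G) → B) = cmap (φ : A →+ B) n z := rfl

/-- Functoriality of smooth cohomology in the coefficient module. -/
def Hsm.map (φ : A →+[G] B) (n : ℕ) : Hsm 𝓝 A n →+ Hsm 𝓝 B n :=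
  Hsm.lift ((Hsm.mk 𝓝 B n).comp (Zsm.map φ n)) fun _ hz =>
    (Hsm.mk_eq_zero_iff _).2 (cmap_mem_Bsm φ hz)

@[simp]
theorem Hsm.map_mk (φ : A →+[G] B) (n : ℕ) (z : Zsm 𝓝 A n) :
    Hsm.map φ n (Hsm.mk 𝓝 A n z) = Hsm.mk 𝓝 B n (Zsm.map φ n z) := rfl

/-- `Hsm.map` only depends on the underlying function. -/
theorem Hsm.map_congr {φ φ' : A →+[G] B} (h : ∀ a, φ a = φ' a) (n : ℕ) :
    Hsm.map (𝓝 := 𝓝) φ n = Hsm.map φ' n := by
  have : φ = φ' := DFunLike.ext _ _ h
  rw [this]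

@[simp]
theorem Hsm.map_id (n : ℕ) (x : Hsm 𝓝 A n) : Hsm.map (DistribMulActionHom.id G) n x = x := by
  induction x using Hsm.induction_on with
  | h z => rfl

theorem Hsm.map_id' {φ : A →+[G] A} (h : ∀ a, φ a = a) (n : ℕ) (x : Hsm 𝓝 A n) :
    Hsm.map φ n x = x := by
  rw [Hsm.map_congr (φ' := DistribMulActionHom.id G) h, Hsm.map_id]

theorem Hsm.map_comp (ψ : B →+[G] C) (φ : A →+[G] B) (n : ℕ) (x : Hsm 𝓝 A n) :
    Hsm.map (ψ.comp φ) n x = Hsm.map ψ n (Hsm.map φ n x) := by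
  induction x using Hsm.induction_on with
  | h z => rfl

theorem Hsm.map_comp' {ψ : B →+[G] C} {φ : A →+[G] B} {χ : A →+[G] C}
    (h : ∀ a, χ a = ψ (φ a)) (n : ℕ) (x : Hsm 𝓝 A n) :
    Hsm.map χ n x = Hsm.map ψ n (Hsm.map φ n x) := by
  rw [Hsm.map_congr (φ' := ψ.comp φ) h, Hsm.map_comp]

theorem Hsm.map_zero' {φ : A →+[G] B} (h : ∀ a, φ a = 0) (n : ℕ) (x : Hsm 𝓝 A n) :
    Hsm.map φ n x = 0 := by
  induction x using Hsm.induction_on with
  | h z =>
    rw [Hsm.map_mk]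
    have : Zsm.map φ n z = 0 := by
      ext1; funext g; simp [h]
    rw [this, _root_.map_zero]

theorem Hsm.map_add' {φ ψ χ : A →+[G] B} (h : ∀ a, χ a = φ a + ψ a) (n : ℕ) (x : Hsm 𝓝 A n) :
    Hsm.map χ n x = Hsm.map φ n x + Hsm.map ψ n x := by
  induction x using Hsm.induction_on with
  | h z =>
    rw [Hsm.map_mk, Hsm.map_mk, Hsm.map_mk, ← _root_.map_add]
    congr 1
    ext1; funext g; simp [h]

theorem Hsm.map_neg' {φ χ : A →+[G] B} (h : ∀ a, χ a = - φ a) (n : ℕ) (x : Hsm 𝓝 A n) :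
    Hsm.map χ n x = - Hsm.map φ n x := by
  induction x using Hsm.induction_on with
  | h z =>
    rw [Hsm.map_mk, Hsm.map_mk, ← _root_.map_neg]
    congr 1
    ext1; funext g; simp [h]

theorem Hsm.map_sub' {φ ψ χ : A →+[G] B} (h : ∀ a, χ a = φ a - ψ a) (n : ℕ) (x : Hsm 𝓝 A n) :
    Hsm.map χ n x = Hsm.map φ n x - Hsm.map ψ n x := by
  induction x using Hsm.induction_on with
  | h z =>
    rw [Hsm.map_mk, Hsm.map_mk, Hsm.map_mk, ← _root_.map_sub]
    congr 1
    ext1; funext g; simp [h]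

theorem Hsm.map_sum' {ι : Type*} (s : Finset ι) (φ : ι → A →+[G] B) {χ : A →+[G] B}
    (h : ∀ a, χ a = ∑ i ∈ s, φ i a) (n : ℕ) (x : Hsm 𝓝 A n) :
    Hsm.map χ n x = ∑ i ∈ s, Hsm.map (φ i) n x := by
  induction x using Hsm.induction_on with
  | h z =>
    simp only [Hsm.map_mk]
    rw [← _root_.map_sum]
    congr 1
    ext1; funext g
    simp [h, Finset.sum_apply]

theorem Hsm.map_zsmul' {χ : A →+[G] A} (m : ℤ) (h : ∀ a, χ a = m • a) (n : ℕ) (x : Hsm 𝓝 A n) :
    Hsm.map χ n x = m • x := by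
  induction x using Hsm.induction_on with
  | h z =>
    rw [Hsm.map_mk, ← _root_.map_zsmul]
    congr 1
    ext1; funext g; simp [h]

theorem Hsm.map_nsmul' {χ : A →+[G] A} (m : ℕ) (h : ∀ a, χ a = m • a) (n : ℕ) (x : Hsm 𝓝 A n) :
    Hsm.map χ n x = m • x := by
  induction x using Hsm.induction_on with
  | h z =>
    rw [Hsm.map_mk, ← _root_.map_nsmul]
    congr 1
    ext1; funext g; simp [h]

/-- An equivariant isomorphism induces an isomorphism on cohomology. -/
def Hsm.mapEquiv (φ : A →+[G] B) (ψ : B →+[G] A) (h₁ : ∀ a, ψ (φ a) = a) (h₂ : ∀ b, φ (ψ b) = b)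
    (n : ℕ) : Hsm 𝓝 A n ≃+ Hsm 𝓝 B n where
  toFun := Hsm.map φ n
  invFun := Hsm.map ψ n
  left_inv x := by rw [← Hsm.map_comp]; exact Hsm.map_id' h₁ n x
  right_inv x := by rw [← Hsm.map_comp]; exact Hsm.map_id' h₂ n x
  map_add' := _root_.map_add _

@[simp]
theorem Hsm.mapEquiv_apply (φ : A →+[G] B) (ψ : B →+[G] A) (h₁ : ∀ a, ψ (φ a) = a)
    (h₂ : ∀ b, φ (ψ b) = b) (n : ℕ) (x : Hsm 𝓝 A n) :
    Hsm.mapEquiv φ ψ h₁ h₂ n x = Hsm.map φ n x := rfl

/-- A bijective equivariant map induces a bijection on cohomology. -/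
theorem Hsm.map_bijective {φ : A →+[G] B} (hφ : Function.Bijective φ) (n : ℕ) :
    Function.Bijective (Hsm.map (𝓝 := 𝓝) φ n) := by
  let e := Equiv.ofBijective φ hφ
  let ψ : B →+[G] A :=
    { toFun := e.symm
      map_smul' := fun g b => by
        apply e.injective
        simp only [MonoidHom.id_apply, Equiv.apply_symm_apply]
        change _ = φ _
        rw [map_smul]
        change _ = g • e (e.symm b)
        rw [Equiv.apply_symm_apply]
      map_zero' := by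
        apply e.injective
        rw [Equiv.apply_symm_apply]
        exact (_root_.map_zero φ).symm
      map_add' := fun b b' => by
        apply e.injective
        rw [Equiv.apply_symm_apply]
        change _ = φ _
        rw [_root_.map_add]
        change _ = e (e.symm b) + e (e.symm b')
        rw [Equiv.apply_symm_apply, Equiv.apply_symm_apply] }
  exact (Hsm.mapEquiv φ ψ (fun a => e.symm_apply_apply a) (fun b => e.apply_symm_apply b)
    n).bijective

end Fermat.Agent.S55
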