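/-
S55 / block COH-1 : the connecting homomorphism of a short exact sequence of smooth modules.
`ShortExact φ ψ`, `DeltaRel`, `Hsm.delta`, `Hsm.delta_mk`.  Exactness is in `LESExact.lean`.
-/
import Fermat.Agent.S55.Coh.Functor

set_option autoImplicit false

namespace Fermat.Agent.S55

variable {G : Type} [Group G] {𝓝 : LevelSys G}
variable {A : Type} [AddCommGroup A] [DistribMulAction G A]
variable {B : Type} [AddCommGroup B] [DistribMulAction G B]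
variable {C : Type} [AddCommGroup C] [DistribMulAction G C]

/-- `0 → A → B → C → 0` is exact. -/
structure ShortExact (φ : A →+[G] B) (ψ : B →+[G] C) : Prop where
  inj : Function.Injective φ
  exact : ∀ b, ψ b = 0 ↔ ∃ a, φ a = b
  surj : Function.Surjective ψ

theorem ShortExact.comp_eq_zero {φ : A →+[G] B} {ψ : B →+[G] C} (h : ShortExact φ ψ) (a : A) :
    ψ (φ a) = 0 := (h.exact _).2 ⟨a, rfl⟩

theorem ShortExact.function_exact {φ : A →+[G] B} {ψ : B →+[G] C} (h : ShortExact φ ψ) :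
    Function.Exact φ ψ := h.exact

theorem ShortExact.smooth_left {φ : A →+[G] B} {ψ : B →+[G] C} (h : ShortExact φ ψ)
    [Smooth 𝓝 B] : Smooth 𝓝 A := Smooth.of_injective φ h.inj

theorem ShortExact.smooth_right {φ : A →+[G] B} {ψ : B →+[G] C} (h : ShortExact φ ψ)
    [Smooth 𝓝 B] : Smooth 𝓝 C := Smooth.of_surjective ψ h.surj

/-- A cochain killed by `ψ` comes from a unique cochain with values in `A`, smooth if the given
one is. -/
theorem ShortExact.exists_cmap_eq {φ : A →+[G] B} {ψ : B →+[G] C} (h : ShortExact φ ψ) {n : ℕ}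
    {b : (Fin n → G) → B} (hb : cmap (ψ : B →+ C) n b = 0) :
    ∃ a : (Fin n → G) → A, cmap (φ : A →+ B) n a = b := by
  have : ∀ g, ∃ a, φ a = b g := fun g => (h.exact _).1 (congrFun hb g)
  choose a ha using this
  exact ⟨a, funext ha⟩

theorem ShortExact.cmap_cmap {φ : A →+[G] B} {ψ : B →+[G] C} (h : ShortExact φ ψ) {n : ℕ}
    (a : (Fin n → G) → A) : cmap (ψ : B →+ C) n (cmap (φ : A →+ B) n a) = 0 :=
  funext fun _ => h.comp_eq_zero _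

/-- The relation defining the connecting homomorphism: `c` lifts to a smooth cochain `b` with
values in `B` and `d b` is the image of `a`. -/
def DeltaRel (𝓝 : LevelSys G) (φ : A →+[G] B) (ψ : B →+[G] C) (n : ℕ) (c : (Fin n → G) → C)
    (a : (Fin (n + 1) → G) → A) : Prop :=
  ∃ b ∈ Csm 𝓝 B n, cmap (ψ : B →+ C) n b = c ∧ cmap (φ : A →+ B) (n + 1) a = dd B n b

namespace DeltaRel

variable {φ : A →+[G] B} {ψ : B →+[G] C} {n : ℕ}

theorem exists_of_mem_Zsm (h : ShortExact φ ψ) {c : (Fin n → G) → C} (hc : c ∈ Zsm 𝓝 C n) :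
    ∃ a, DeltaRel 𝓝 φ ψ n c a := by
  obtain ⟨b, hb, hbc⟩ := Fermat.Agent.S55.exists_cmap_eq (ψ := (ψ : B →+ C)) h.surj hc.1
  have h0 : cmap (ψ : B →+ C) (n + 1) (dd B n b) = 0 := by
    rw [← dd_cmap, hbc, dd_eq_zero_of_mem_Zsm hc]
  obtain ⟨a, ha⟩ := h.exists_cmap_eq h0
  exact ⟨a, b, hb, hbc, ha⟩

theorem mem_Zsm [Smooth 𝓝 B] (h : ShortExact φ ψ) {c : (Fin n → G) → C}
    {a : (Fin (n + 1) → G) → A} (hr : DeltaRel 𝓝 φ ψ n c a) : a ∈ Zsm 𝓝 A (n + 1) := by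
  obtain ⟨b, hb, -, hab⟩ := hr
  refine ⟨mem_Csm_of_cmap_mem (φ := (φ : A →+ B)) h.inj (hab ▸ dd_mem_Csm hb), ?_⟩
  apply cmap_injective (φ := (φ : A →+ B)) h.inj
  rw [← dd_cmap, hab, dd_dd, map_zero]

theorem add {c c' : (Fin n → G) → C} {a a' : (Fin (n + 1) → G) → A}
    (hr : DeltaRel 𝓝 φ ψ n c a) (hr' : DeltaRel 𝓝 φ ψ n c' a') :
    DeltaRel 𝓝 φ ψ n (c + c') (a + a') := by
  obtain ⟨b, hb, hbc, hab⟩ := hr
  obtain ⟨b', hb', hbc', hab'⟩ := hr'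
  exact ⟨b + b', add_mem hb hb', by rw [map_add, hbc, hbc'], by rw [map_add, map_add, hab, hab']⟩

theorem neg {c : (Fin n → G) → C} {a : (Fin (n + 1) → G) → A}
    (hr : DeltaRel 𝓝 φ ψ n c a) : DeltaRel 𝓝 φ ψ n (-c) (-a) := by
  obtain ⟨b, hb, hbc, hab⟩ := hr
  exact ⟨-b, neg_mem hb, by rw [map_neg, hbc], by rw [map_neg, map_neg, hab]⟩

theorem sub {c c' : (Fin n → G) → C} {a a' : (Fin (n + 1) → G) → A}
    (hr : DeltaRel 𝓝 φ ψ n c a) (hr' : DeltaRel 𝓝 φ ψ n c' a') :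
    DeltaRel 𝓝 φ ψ n (c - c') (a - a') := by
  rw [sub_eq_add_neg, sub_eq_add_neg]
  exact hr.add hr'.neg

theorem mem_Bsm_of_zero (h : ShortExact φ ψ) {a : (Fin (n + 1) → G) → A}
    (hr : DeltaRel 𝓝 φ ψ n 0 a) : a ∈ Bsm 𝓝 A (n + 1) := by
  obtain ⟨b, hb, hbc, hab⟩ := hr
  obtain ⟨e, rfl⟩ := h.exists_cmap_eq hbc
  refine ⟨e, mem_Csm_of_cmap_mem (φ := (φ : A →+ B)) h.inj hb, ?_⟩
  apply cmap_injective (φ := (φ : A →+ B)) h.inj
  rw [← dd_cmap, hab]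

theorem mem_Bsm [Smooth 𝓝 B] (h : ShortExact φ ψ) {c : (Fin n → G) → C}
    {a : (Fin (n + 1) → G) → A} (hr : DeltaRel 𝓝 φ ψ n c a) (hc : c ∈ Bsm 𝓝 C n) :
    a ∈ Bsm 𝓝 A (n + 1) := by
  cases n with
  | zero =>
    rw [mem_Bsm_zero] at hc
    subst hc
    exact mem_Bsm_of_zero h hr
  | succ m =>
    obtain ⟨c', hc', rfl⟩ := hc
    obtain ⟨b', hb', rfl⟩ := Fermat.Agent.S55.exists_cmap_eq (ψ := (ψ : B →+ C)) h.surj hc'
    obtain ⟨b, hb, hbc, hab⟩ := hr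
    refine mem_Bsm_of_zero h ⟨b - dd B m b', sub_mem hb (dd_mem_Csm hb'), ?_, ?_⟩
    · rw [map_sub, hbc, dd_cmap, sub_self]
    · rw [map_sub, dd_dd, sub_zero, hab]

end DeltaRel

/-- The connecting homomorphism on cocycles. -/
noncomputable def Hsm.deltaZ [Smooth 𝓝 B] {φ : A →+[G] B} {ψ : B →+[G] C} (h : ShortExact φ ψ)
    (n : ℕ) : Zsm 𝓝 C n →+ Hsm 𝓝 A (n + 1) where
  toFun z := Hsm.mk 𝓝 A (n + 1)
    ⟨(DeltaRel.exists_of_mem_Zsm h z.2).choose,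
      (DeltaRel.exists_of_mem_Zsm h z.2).choose_spec.mem_Zsm h⟩
  map_zero' := by
    rw [Hsm.mk_eq_zero_iff]
    exact DeltaRel.mem_Bsm_of_zero h
      (DeltaRel.exists_of_mem_Zsm h (0 : Zsm 𝓝 C n).2).choose_spec
  map_add' z z' := by
    rw [← map_add, Hsm.mk_eq_mk_iff]
    refine DeltaRel.mem_Bsm_of_zero h ?_
    have h1 := (DeltaRel.exists_of_mem_Zsm h (z + z').2).choose_spec
    have h2 := (DeltaRel.exists_of_mem_Zsm h z.2).choose_spec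
    have h3 := (DeltaRel.exists_of_mem_Zsm h z'.2).choose_spec
    have h4 := h1.sub (h2.add h3)
    have h5 : ((z + z' : Zsm 𝓝 C n) : (Fin n → G) → C) - ((z : (Fin n → G) → C) + z') = 0 := by
      rw [AddSubgroup.coe_add, sub_self]
    exact h5 ▸ h4

theorem Hsm.deltaZ_eq [Smooth 𝓝 B] {φ : A →+[G] B} {ψ : B →+[G] C} (h : ShortExact φ ψ)
    {n : ℕ} (z : Zsm 𝓝 C n) (a : Zsm 𝓝 A (n + 1))
    (hr : DeltaRel 𝓝 φ ψ n (z : (Fin n → G) → C) (a : (Fin (n + 1) → G) → A)) :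
    Hsm.deltaZ h n z = Hsm.mk 𝓝 A (n + 1) a := by
  change Hsm.mk 𝓝 A (n + 1) _ = _
  rw [Hsm.mk_eq_mk_iff]
  refine DeltaRel.mem_Bsm_of_zero h ?_
  have h1 := (DeltaRel.exists_of_mem_Zsm h z.2).choose_spec
  have h2 := h1.sub hr
  rwa [sub_self] at h2

/-- The connecting homomorphism `H^n(C) → H^{n+1}(A)` of `0 → A → B → C → 0`. -/
noncomputable def Hsm.delta [Smooth 𝓝 B] {φ : A →+[G] B} {ψ : B →+[G] C} (h : ShortExact φ ψ)
    (n : ℕ) : Hsm 𝓝 C n →+ Hsm 𝓝 A (n + 1) :=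
  Hsm.lift (Hsm.deltaZ h n) fun z hz => by
    obtain ⟨a, ha⟩ := DeltaRel.exists_of_mem_Zsm h z.2
    rw [Hsm.deltaZ_eq h z ⟨a, ha.mem_Zsm h⟩ ha, Hsm.mk_eq_zero_iff]
    exact ha.mem_Bsm h hz

/-- Characterisation of the connecting homomorphism: if `b` is a smooth lift of the cocycle `z`
and `d b = φ ∘ a` then `δ [z] = [a]`. -/
theorem Hsm.delta_mk [Smooth 𝓝 B] {φ : A →+[G] B} {ψ : B →+[G] C} (h : ShortExact φ ψ)
    {n : ℕ} (z : Zsm 𝓝 C n) (a : Zsm 𝓝 A (n + 1))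
    (hr : DeltaRel 𝓝 φ ψ n (z : (Fin n → G) → C) (a : (Fin (n + 1) → G) → A)) :
    Hsm.delta h n (Hsm.mk 𝓝 C n z) = Hsm.mk 𝓝 A (n + 1) a :=
  Hsm.deltaZ_eq h z a hr

/-- Every value of the connecting homomorphism is computed by some `DeltaRel`. -/
theorem Hsm.exists_delta_mk [Smooth 𝓝 B] {φ : A →+[G] B} {ψ : B →+[G] C} (h : ShortExact φ ψ)
    {n : ℕ} (z : Zsm 𝓝 C n) :
    ∃ a : Zsm 𝓝 A (n + 1),
      DeltaRel 𝓝 φ ψ n (z : (Fin n → G) → C) (a : (Fin (n + 1) → G) → A) ∧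
      Hsm.delta h n (Hsm.mk 𝓝 C n z) = Hsm.mk 𝓝 A (n + 1) a := by
  obtain ⟨a, ha⟩ := DeltaRel.exists_of_mem_Zsm h z.2
  exact ⟨⟨a, ha.mem_Zsm h⟩, ha, Hsm.delta_mk h z _ ha⟩

end Fermat.Agent.S55
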