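/-
S55 / block COH-2, section COH-A : module level API of `IndMod` (pull / push / const / sum /
mapCoeff identities, exactness of `Map(X, -)` and of `Res`, `cor ∘ res = degree`).
Owner: helper294.
-/
import Fermat.Agent.S55.Coh.LES
import Fermat.Agent.S55.Coh.IndMaps

set_option autoImplicit false

namespace Fermat.Agent.S55

variable {G H K : Type} [Group G] [Group H] [Group K]

namespace IndMod

section A

variable {X Y Z A B C : Type} [MulAction G X] [MulAction G Y] [MulAction G Z]
  [AddCommGroup A] [DistribMulAction G A] [AddCommGroup B] [DistribMulAction G B]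
  [AddCommGroup C] [DistribMulAction G C]

theorem push_apply_eq_sum [Fintype Y] [DecidableEq X] (u : Y →[G] X) (f : IndMod Y A) (x : X) :
    push A u f x = ∑ y with u y = x, f y := by
  rw [push_apply, finsum_eq_sum_of_fintype]
  exact (Finset.sum_subtype _ (fun y => by simp) (fun y => f y)).symm

theorem sum_eq_sum [Fintype X] (f : IndMod X A) : sum (G := G) X A f = ∑ x, f x := by
  rw [sum_def, finsum_eq_sum_of_fintype]

theorem pull_id (f : IndMod X A) : pull A (MulActionHom.id G : X →[G] X) f = f := rfl

theorem pull_comp (u : Y →[G] X) (v : Z →[G] Y) (f : IndMod X A) :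
    pull A (u.comp v) f = pull A v (pull A u f) := rfl

theorem push_id [Finite X] (f : IndMod X A) : push A (MulActionHom.id G : X →[G] X) f = f := by
  classical
  have := Fintype.ofFinite X
  ext x
  rw [push_apply_eq_sum]
  simp [Finset.sum_filter]

theorem push_comp [Finite Y] [Finite Z] (u : Y →[G] X) (v : Z →[G] Y) (f : IndMod Z A) :
    push A (u.comp v) f = push A u (push A v f) := by
  classical
  have := Fintype.ofFinite Y
  have := Fintype.ofFinite Z
  ext x
  rw [push_apply_eq_sum, push_apply_eq_sum]
  rw [← Finset.sum_fiberwise_of_maps_to (s := Finset.univ.filter fun z => (u.comp v) z = x)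
    (t := Finset.univ.filter fun y => u y = x) (g := v) (fun z hz => by simpa using hz)]
  refine Finset.sum_congr rfl fun y hy => ?_
  rw [push_apply_eq_sum, Finset.filter_filter]
  refine Finset.sum_congr ?_ fun _ _ => rfl
  ext z
  simp only [Finset.mem_filter, Finset.mem_univ, true_and] at hy ⊢
  constructor
  · exact fun h => h.2
  · intro h
    refine ⟨?_, h⟩
    show u (v z) = x
    rw [h, hy]

theorem sum_const [Finite X] (a : A) :
    sum (G := G) X A (const (G := G) X A a) = Nat.card X • a := by
  classical
  have := Fintype.ofFinite X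
  rw [sum_eq_sum, Nat.card_eq_fintype_card]
  simp

theorem push_pull [Finite Y] (u : Y →[G] X) (m : ℕ) (hm : ∀ x, Nat.card {y // u y = x} = m)
    (f : IndMod X A) : push A u (pull A u f) = m • f := by
  classical
  ext x
  have := Fintype.ofFinite {y // u y = x}
  rw [push_apply, nsmul_apply, ← hm x, finsum_eq_sum_of_fintype, Nat.card_eq_fintype_card]
  rw [Finset.sum_congr rfl (g := fun _ => f x) (fun y _ => by rw [pull_apply, y.2])]
  simp

theorem pull_const (u : Y →[G] X) (a : A) :
    pull A u (const (G := G) X A a) = const (G := G) Y A a := rfl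

theorem sum_push [Finite X] [Finite Y] (u : Y →[G] X) (f : IndMod Y A) :
    sum (G := G) X A (push A u f) = sum (G := G) Y A f := by
  classical
  have := Fintype.ofFinite X
  have := Fintype.ofFinite Y
  rw [sum_eq_sum, sum_eq_sum]
  simp_rw [push_apply_eq_sum]
  exact Finset.sum_fiberwise _ _ _

theorem pull_injective {u : Y →[G] X} (hu : Function.Surjective u) :
    Function.Injective (pull A u) := by
  intro f f' h
  ext x
  obtain ⟨y, rfl⟩ := hu x
  exact DFunLike.congr_fun h y

theorem push_surjective [Finite Y] {u : Y →[G] X} (hu : Function.Surjective u) :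
    Function.Surjective (push A u) := by
  classical
  have := Fintype.ofFinite Y
  intro f
  refine ⟨of fun y => if y = Function.surjInv hu (u y) then f (u y) else 0, ?_⟩
  ext x
  rw [push_apply_eq_sum, Finset.sum_eq_single (Function.surjInv hu x)]
  · rw [of_apply, Function.surjInv_eq hu x, if_pos rfl]
  · intro y hy hne
    simp only [Finset.mem_filter, Finset.mem_univ, true_and] at hy
    rw [of_apply, hy, if_neg hne]
  · intro h
    exact absurd (by simp [Function.surjInv_eq hu x]) h

theorem const_injective [Nonempty X] : Function.Injective (const (G := G) X A) := by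
  intro a b h
  obtain ⟨x⟩ := ‹Nonempty X›
  exact DFunLike.congr_fun h x

/-- `pull` along an injective map after `push` along the same map is the identity. -/
theorem pull_push_of_injective [Finite Y] {u : Y →[G] X} (hu : Function.Injective u)
    (f : IndMod Y A) : pull A u (push A u f) = f := by
  classical
  have := Fintype.ofFinite Y
  ext y
  rw [pull_apply, push_apply_eq_sum, Finset.sum_eq_single y]
  · intro y' hy' hne
    simp only [Finset.mem_filter, Finset.mem_univ, true_and] at hy'
    exact absurd (hu hy') hne
  · intro h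
    exact absurd (by simp) h

theorem mapCoeff_id (f : IndMod X A) : mapCoeff X (DistribMulActionHom.id G) f = f := rfl

theorem mapCoeff_comp (ψ : B →+[G] C) (φ : A →+[G] B) (f : IndMod X A) :
    mapCoeff X (ψ.comp φ) f = mapCoeff X ψ (mapCoeff X φ f) := rfl

theorem mapCoeff_pull (φ : A →+[G] B) (u : Y →[G] X) (f : IndMod X A) :
    mapCoeff Y φ (pull A u f) = pull B u (mapCoeff X φ f) := rfl

theorem mapCoeff_push [Finite Y] (φ : A →+[G] B) (u : Y →[G] X) (f : IndMod Y A) :
    mapCoeff X φ (push A u f) = push B u (mapCoeff Y φ f) := by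
  classical
  have := Fintype.ofFinite Y
  ext x
  rw [mapCoeff_apply, push_apply_eq_sum, push_apply_eq_sum, map_sum]
  rfl

theorem mapCoeff_const (φ : A →+[G] B) (a : A) :
    mapCoeff X φ (const (G := G) X A a) = const (G := G) X B (φ a) := rfl

theorem map_sum' [Finite X] (φ : A →+[G] B) (f : IndMod X A) :
    φ (sum (G := G) X A f) = sum (G := G) X B (mapCoeff X φ f) := by
  classical
  have := Fintype.ofFinite X
  rw [sum_eq_sum, sum_eq_sum, map_sum]
  rfl

/-- `Map(X, -)` is exact. -/
theorem shortExact_mapCoeff (X : Type) [MulAction G X] {φ : A →+[G] B} {ψ : B →+[G] C}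
    (h : ShortExact φ ψ) : ShortExact (mapCoeff X φ) (mapCoeff X ψ) where
  inj := by
    intro f f' hff
    ext x
    exact h.inj (DFunLike.congr_fun hff x)
  exact := by
    intro b
    constructor
    · intro hb
      have h1 : ∀ x, ∃ a, φ a = b x := fun x => (h.exact (b x)).1 (DFunLike.congr_fun hb x)
      choose a ha using h1
      exact ⟨of a, by ext x; exact ha x⟩
    · rintro ⟨a, rfl⟩
      ext x
      exact h.comp_eq_zero (a x)
  surj := by
    intro c
    choose b hb using fun x => h.surj (c x)
    exact ⟨of b, by ext x; exact hb x⟩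

end A

end IndMod

/-- `Res` is exact. -/
theorem ResMod.shortExact_map (f : H →* G) {A B C : Type}
    [AddCommGroup A] [DistribMulAction G A] [AddCommGroup B] [DistribMulAction G B]
    [AddCommGroup C] [DistribMulAction G C] {φ : A →+[G] B} {ψ : B →+[G] C}
    (h : ShortExact φ ψ) : ShortExact (ResMod.map f φ) (ResMod.map f ψ) where
  inj := by
    intro a a' haa
    obtain ⟨a, rfl⟩ := (ResMod.toRes f).surjective a
    obtain ⟨a', rfl⟩ := (ResMod.toRes f).surjective a'
    rw [ResMod.map_toRes, ResMod.map_toRes] at haa
    rw [h.inj ((ResMod.toRes f).injective haa)]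
  exact := by
    intro b
    obtain ⟨b, rfl⟩ := (ResMod.toRes f).surjective b
    rw [ResMod.map_toRes, EmbeddingLike.map_eq_zero_iff, h.exact]
    constructor
    · rintro ⟨a, rfl⟩
      exact ⟨ResMod.toRes f a, ResMod.map_toRes f φ a⟩
    · rintro ⟨a, ha⟩
      obtain ⟨a, rfl⟩ := (ResMod.toRes f).surjective a
      rw [ResMod.map_toRes] at ha
      exact ⟨a, (ResMod.toRes f).injective ha⟩
  surj := by
    intro c
    obtain ⟨c, rfl⟩ := (ResMod.toRes f).surjective c
    obtain ⟨b, rfl⟩ := h.surj c
    exact ⟨ResMod.toRes f b, ResMod.map_toRes f ψ b⟩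

/-- The tautological short exact sequence of an injective map. -/
theorem ShortExact.of_injective {A B : Type}
    [AddCommGroup A] [DistribMulAction G A] [AddCommGroup B] [DistribMulAction G B]
    {φ : A →+[G] B} (hφ : Function.Injective φ) : ShortExact φ (GSub.range φ).projG where
  inj := hφ
  exact := fun b => by
    rw [GSub.projG_apply, GSub.proj_eq_zero_iff, GSub.mem_range]
  surj := GSub.projG_surjective _

/-- The tautological short exact sequence of a surjective map. -/
theorem ShortExact.of_surjective {A B : Type}
    [AddCommGroup A] [DistribMulAction G A] [AddCommGroup B] [DistribMulAction G B]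
    {φ : A →+[G] B} (hφ : Function.Surjective φ) : ShortExact (GSub.ker φ).inclG φ where
  inj := GSub.inclG_injective _
  exact := fun b => by
    constructor
    · intro hb
      exact ⟨(GSub.ker φ).mkMod b ((GSub.mem_ker φ b).2 hb), rfl⟩
    · rintro ⟨a, rfl⟩
      exact (GSub.mem_ker φ _).1 ((GSub.ker φ).incl_mem a)
  surj := hφ

/-- `cor ∘ res = degree` on cohomology. -/
theorem Hsm.map_push_pull {𝓝 : LevelSys G} {X Y A : Type} [MulAction G X] [MulAction G Y]
    [AddCommGroup A] [DistribMulAction G A] [Finite Y] (u : Y →[G] X) (m : ℕ)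
    (hm : ∀ x, Nat.card {y // u y = x} = m) (n : ℕ) (x : Hsm 𝓝 (IndMod X A) n) :
    Hsm.map (IndMod.push A u) n (Hsm.map (IndMod.pull A u) n x) = m • x := by
  rw [← Hsm.map_comp]
  exact Hsm.map_nsmul' m (fun f => IndMod.push_pull u m hm f) n x

/-- `sum ∘ const = card` on cohomology. -/
theorem Hsm.map_sum_const {𝓝 : LevelSys G} (X : Type) {A : Type} [MulAction G X]
    [AddCommGroup A] [DistribMulAction G A] [Finite X] (n : ℕ) (x : Hsm 𝓝 A n) :
    Hsm.map (IndMod.sum X A) n (Hsm.map (IndMod.const X A) n x) = Nat.card X • x := by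
  rw [← Hsm.map_comp]
  exact Hsm.map_nsmul' (Nat.card X) (fun a => IndMod.sum_const a) n x

end Fermat.Agent.S55
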