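/-
S55 / block COH-1 : degree zero.  `inv0 G A` (invariants), `Hsm.H0equiv : Hsm 𝓝 A 0 ≃+ inv0 G A`,
compatibility with `Hsm.map`, and the bridge from unbundled equivariant maps.
-/
import Fermat.Agent.S55.Coh.Functor
import Fermat.Agent.S55.Coh.Modules

set_option autoImplicit false

namespace Fermat.Agent.S55

variable {G : Type} [Group G] {𝓝 : LevelSys G}
variable {A : Type} [AddCommGroup A] [DistribMulAction G A]
variable {B : Type} [AddCommGroup B] [DistribMulAction G B]

/-- Bundle an equivariant additive map. -/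
def IsEquivariant.toHom (φ : A →+ B) (hφ : IsEquivariant G φ) : A →+[G] B where
  toFun := φ
  map_smul' := hφ
  map_zero' := map_zero φ
  map_add' := map_add φ

@[simp]
theorem IsEquivariant.toHom_apply (φ : A →+ B) (hφ : IsEquivariant G φ) (a : A) :
    IsEquivariant.toHom φ hφ a = φ a := rfl

theorem isEquivariant_coe (φ : A →+[G] B) : IsEquivariant G (φ : A →+ B) :=
  fun g a => map_smul φ g a

variable (G A)

/-- The invariants `A^G`. -/
def inv0 : AddSubgroup A where
  carrier := {a | ∀ g : G, g • a = a}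
  zero_mem' g := smul_zero g
  add_mem' ha hb g := by rw [smul_add, ha g, hb g]
  neg_mem' ha g := by rw [smul_neg, ha g]

variable {G A}

theorem mem_inv0 {a : A} : a ∈ inv0 G A ↔ ∀ g : G, g • a = a := Iff.rfl

/-- The differential in degree zero. -/
theorem dd_zero_apply (f : (Fin 0 → G) → A) (g : Fin 1 → G) :
    dd A 0 f g = g 0 • f default - f default := by
  rw [dd_apply, Fin.sum_univ_one]
  simp only [Fin.val_zero, zero_add, pow_one, neg_smul, one_smul]
  rw [← sub_eq_add_neg]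
  rw [Subsingleton.elim (fun i : Fin 0 => g i.succ) default,
    Subsingleton.elim (Fin.contractNth 0 (· * ·) g) default]

omit [DistribMulAction G A] in
/-- Every `0`-cochain is smooth. -/
theorem mem_Csm_zero (f : (Fin 0 → G) → A) : f ∈ Csm 𝓝 A 0 := by
  obtain ⟨N, hN⟩ := 𝓝.nonempty
  exact ⟨N, hN, fun g h _ => congrArg f (Subsingleton.elim _ _)⟩

theorem mem_Zsm_zero {f : (Fin 0 → G) → A} : f ∈ Zsm 𝓝 A 0 ↔ f default ∈ inv0 G A := by
  rw [mem_Zsm, mem_inv0]
  constructor
  · rintro ⟨-, h⟩ g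
    have := congrFun h (fun _ => g)
    rw [dd_zero_apply] at this
    exact sub_eq_zero.1 this
  · intro h
    refine ⟨mem_Csm_zero f, ?_⟩
    funext g
    rw [dd_zero_apply, h, sub_self]
    rfl

/-- The constant `0`-cocycle attached to an invariant element. -/
def Zsm.ofInv (a : inv0 G A) : Zsm 𝓝 A 0 :=
  ⟨fun _ => a, mem_Zsm_zero.2 a.2⟩

@[simp]
theorem Zsm.ofInv_apply (a : inv0 G A) (g : Fin 0 → G) :
    (Zsm.ofInv (𝓝 := 𝓝) a : (Fin 0 → G) → A) g = a := rfl

/-- `H^0 = A^G`. -/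
def Hsm.H0equiv : Hsm 𝓝 A 0 ≃+ inv0 G A where
  toFun := Hsm.lift
    { toFun := fun z => ⟨(z : (Fin 0 → G) → A) default, mem_Zsm_zero.1 z.2⟩
      map_zero' := rfl
      map_add' := fun _ _ => rfl }
    (fun z hz => by
      rw [mem_Bsm_zero] at hz
      ext1
      change (z : (Fin 0 → G) → A) default = 0
      rw [hz]; rfl)
  invFun a := Hsm.mk 𝓝 A 0 (Zsm.ofInv a)
  left_inv x := by
    induction x using Hsm.induction_on with
    | h z =>
      rw [Hsm.lift_mk]
      refine congrArg (Hsm.mk 𝓝 A 0) (Subtype.ext ?_)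
      funext g
      exact congrArg (z : (Fin 0 → G) → A) (Subsingleton.elim _ _)
  right_inv a := rfl
  map_add' := map_add _

@[simp]
theorem Hsm.H0equiv_mk (z : Zsm 𝓝 A 0) :
    ((Hsm.H0equiv (Hsm.mk 𝓝 A 0 z) : inv0 G A) : A) = (z : (Fin 0 → G) → A) default := rfl

theorem Hsm.H0equiv_symm_apply (a : inv0 G A) :
    Hsm.H0equiv.symm a = Hsm.mk 𝓝 A 0 (Zsm.ofInv a) := rfl

/-- The map induced on invariants. -/
def inv0.map (φ : A →+[G] B) : inv0 G A →+ inv0 G B where
  toFun a := ⟨φ (a : A), fun g => by rw [← map_smul, a.2 g]⟩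
  map_zero' := by ext1; exact map_zero φ
  map_add' a b := by ext1; exact map_add φ (a : A) (b : A)

@[simp]
theorem inv0.coe_map (φ : A →+[G] B) (a : inv0 G A) : (inv0.map φ a : B) = φ (a : A) := rfl

/-- `H0equiv` is natural. -/
theorem Hsm.H0equiv_map (φ : A →+[G] B) (x : Hsm 𝓝 A 0) :
    Hsm.H0equiv (Hsm.map φ 0 x) = inv0.map φ (Hsm.H0equiv x) := by
  induction x using Hsm.induction_on with
  | h z => rfl

theorem Hsm.map_H0equiv_symm (φ : A →+[G] B) (a : inv0 G A) :
    Hsm.map (𝓝 := 𝓝) φ 0 (Hsm.H0equiv.symm a) = Hsm.H0equiv.symm (inv0.map φ a) := rfl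

end Fermat.Agent.S55
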