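/-
S55 / block COH-1 : the long exact cohomology sequence of `0 → A → B → C → 0` (smooth modules)
and naturality of the connecting homomorphism.
-/
import Fermat.Agent.S55.Coh.LES

set_option autoImplicit false

namespace Fermat.Agent.S55

variable {G : Type} [Group G] {𝓝 : LevelSys G}
variable {A : Type} [AddCommGroup A] [DistribMulAction G A]
variable {B : Type} [AddCommGroup B] [DistribMulAction G B]
variable {C : Type} [AddCommGroup C] [DistribMulAction G C]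
variable {φ : A →+[G] B} {ψ : B →+[G] C}

/-- A smooth cocycle killed by `ψ` comes from a smooth cocycle with values in `A`. -/
theorem ShortExact.exists_Zsm_cmap_eq (h : ShortExact φ ψ) {n : ℕ} {b : (Fin n → G) → B}
    (hb : b ∈ Zsm 𝓝 B n) (h0 : cmap (ψ : B →+ C) n b = 0) :
    ∃ a ∈ Zsm 𝓝 A n, cmap (φ : A →+ B) n a = b := by
  obtain ⟨a, rfl⟩ := h.exists_cmap_eq h0
  refine ⟨a, ⟨mem_Csm_of_cmap_mem (φ := (φ : A →+ B)) h.inj hb.1, ?_⟩, rfl⟩
  apply cmap_injective (φ := (φ : A →+ B)) h.inj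
  rw [← dd_cmap, dd_eq_zero_of_mem_Zsm hb, map_zero]

theorem Hsm.map_map_eq_zero (h : ShortExact φ ψ) (n : ℕ) (x : Hsm 𝓝 A n) :
    Hsm.map ψ n (Hsm.map φ n x) = 0 := by
  rw [← Hsm.map_comp]
  exact Hsm.map_zero' (fun a => h.comp_eq_zero a) n x

/-- Exactness at `H^n(B)`. -/
theorem Hsm.exact_map_map [Smooth 𝓝 B] (h : ShortExact φ ψ) (n : ℕ) :
    Function.Exact (Hsm.map (𝓝 := 𝓝) φ n) (Hsm.map ψ n) := by
  intro y
  constructor
  · induction y using Hsm.induction_on with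
    | h z =>
      intro hz
      rw [Hsm.map_mk, Hsm.mk_eq_zero_iff, Zsm.coe_map] at hz
      cases n with
      | zero =>
        rw [mem_Bsm_zero] at hz
        obtain ⟨a, ha, hab⟩ := h.exists_Zsm_cmap_eq z.2 hz
        exact ⟨Hsm.mk 𝓝 A 0 ⟨a, ha⟩, congrArg (Hsm.mk 𝓝 B 0) (Subtype.ext hab)⟩
      | succ m =>
        obtain ⟨c', hc', hcz⟩ := hz
        obtain ⟨b', hb', rfl⟩ := exists_cmap_eq (ψ := (ψ : B →+ C)) h.surj hc'
        have hz' : (z : (Fin (m + 1) → G) → B) - dd B m b' ∈ Zsm 𝓝 B (m + 1) :=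
          sub_mem z.2 (dd_mem_Zsm hb')
        obtain ⟨a, ha, hab⟩ := h.exists_Zsm_cmap_eq hz' (by rw [map_sub, ← dd_cmap, hcz, sub_self])
        refine ⟨Hsm.mk 𝓝 A (m + 1) ⟨a, ha⟩, ?_⟩
        rw [Hsm.map_mk, Hsm.mk_eq_mk_iff, Zsm.coe_map]
        change cmap (φ : A →+ B) (m + 1) a - _ ∈ _
        rw [hab, sub_sub_cancel_left]
        exact neg_mem (dd_mem_Bsm hb')
  · rintro ⟨x, rfl⟩
    exact Hsm.map_map_eq_zero h n x

theorem Hsm.delta_map_eq_zero [Smooth 𝓝 B] (h : ShortExact φ ψ) (n : ℕ) (y : Hsm 𝓝 B n) :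
    Hsm.delta h n (Hsm.map ψ n y) = 0 := by
  induction y using Hsm.induction_on with
  | h z =>
    rw [Hsm.map_mk, Hsm.delta_mk h _ 0, map_zero]
    refine ⟨z, z.2.1, rfl, ?_⟩
    rw [dd_eq_zero_of_mem_Zsm z.2]
    exact map_zero _

/-- Exactness at `H^n(C)`. -/
theorem Hsm.exact_map_delta [Smooth 𝓝 B] (h : ShortExact φ ψ) (n : ℕ) :
    Function.Exact (Hsm.map (𝓝 := 𝓝) ψ n) (Hsm.delta h n) := by
  intro y
  constructor
  · induction y using Hsm.induction_on with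
    | h z =>
      intro hz
      obtain ⟨a, ⟨b, hb, hbc, hab⟩, ha⟩ := Hsm.exists_delta_mk h z
      rw [ha, Hsm.mk_eq_zero_iff] at hz
      obtain ⟨e, he, hea⟩ := hz
      have hmem : b - cmap (φ : A →+ B) n e ∈ Zsm 𝓝 B n := by
        refine ⟨(Csm 𝓝 B n).sub_mem hb (cmap_mem_Csm _ he), ?_⟩
        change dd B n _ = 0
        rw [map_sub, dd_cmap, hea, hab, sub_self]
      refine ⟨Hsm.mk 𝓝 B n ⟨_, hmem⟩, ?_⟩
      rw [Hsm.map_mk]
      refine congrArg (Hsm.mk 𝓝 C n) (Subtype.ext ?_)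
      rw [Zsm.coe_map]
      change cmap (ψ : B →+ C) n (b - cmap (φ : A →+ B) n e) = _
      rw [map_sub, h.cmap_cmap, sub_zero, hbc]
  · rintro ⟨x, rfl⟩
    exact Hsm.delta_map_eq_zero h n x

theorem Hsm.map_delta_eq_zero [Smooth 𝓝 B] (h : ShortExact φ ψ) (n : ℕ) (y : Hsm 𝓝 C n) :
    Hsm.map φ (n + 1) (Hsm.delta h n y) = 0 := by
  induction y using Hsm.induction_on with
  | h z =>
    obtain ⟨a, ⟨b, hb, -, hab⟩, ha⟩ := Hsm.exists_delta_mk h z
    rw [ha, Hsm.map_mk, Hsm.mk_eq_zero_iff, Zsm.coe_map, hab]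
    exact dd_mem_Bsm hb

/-- Exactness at `H^{n+1}(A)`. -/
theorem Hsm.exact_delta_map [Smooth 𝓝 B] (h : ShortExact φ ψ) (n : ℕ) :
    Function.Exact (Hsm.delta (𝓝 := 𝓝) h n) (Hsm.map φ (n + 1)) := by
  intro x
  constructor
  · induction x using Hsm.induction_on with
    | h z =>
      intro hz
      rw [Hsm.map_mk, Hsm.mk_eq_zero_iff, Zsm.coe_map] at hz
      obtain ⟨b, hb, hbz⟩ := hz
      have hmem : cmap (ψ : B →+ C) n b ∈ Zsm 𝓝 C n := by
        refine ⟨cmap_mem_Csm _ hb, ?_⟩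
        change dd C n _ = 0
        rw [dd_cmap, hbz, h.cmap_cmap]
      exact ⟨Hsm.mk 𝓝 C n ⟨_, hmem⟩, Hsm.delta_mk h _ z ⟨b, hb, rfl, hbz.symm⟩⟩
  · rintro ⟨y, rfl⟩
    exact Hsm.map_delta_eq_zero h n y

/-- `H^0(A) → H^0(B)` is injective. -/
theorem Hsm.map_injective_zero (hφ : Function.Injective φ) :
    Function.Injective (Hsm.map (𝓝 := 𝓝) φ 0) := by
  rw [injective_iff_map_eq_zero]
  intro x
  induction x using Hsm.induction_on with
  | h z =>
    intro hz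
    rw [Hsm.map_mk, Hsm.mk_eq_zero_iff, mem_Bsm_zero, Zsm.coe_map] at hz
    rw [Hsm.mk_eq_zero_iff, mem_Bsm_zero]
    apply cmap_injective (φ := (φ : A →+ B)) hφ
    rw [hz, map_zero]

/-! ### Naturality -/

section naturality

variable {A' : Type} [AddCommGroup A'] [DistribMulAction G A']
variable {B' : Type} [AddCommGroup B'] [DistribMulAction G B']
variable {C' : Type} [AddCommGroup C'] [DistribMulAction G C']
variable {φ' : A' →+[G] B'} {ψ' : B' →+[G] C'}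

theorem DeltaRel.map {α : A →+[G] A'} {β : B →+[G] B'} {γ : C →+[G] C'}
    (hl : ∀ a, β (φ a) = φ' (α a)) (hr : ∀ b, γ (ψ b) = ψ' (β b)) {n : ℕ}
    {c : (Fin n → G) → C} {a : (Fin (n + 1) → G) → A} (h : DeltaRel 𝓝 φ ψ n c a) :
    DeltaRel 𝓝 φ' ψ' n (cmap (γ : C →+ C') n c) (cmap (α : A →+ A') (n + 1) a) := by
  obtain ⟨b, hb, rfl, hab⟩ := h
  refine ⟨cmap (β : B →+ B') n b, cmap_mem_Csm _ hb, ?_, ?_⟩
  · funext g
    exact (hr _).symm
  · rw [dd_cmap, ← hab]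
    funext g
    exact (hl _).symm

/-- The connecting homomorphism is natural in the short exact sequence. -/
theorem Hsm.delta_naturality [Smooth 𝓝 B] [Smooth 𝓝 B'] (h : ShortExact φ ψ)
    (h' : ShortExact φ' ψ') (α : A →+[G] A') (β : B →+[G] B') (γ : C →+[G] C')
    (hl : ∀ a, β (φ a) = φ' (α a)) (hr : ∀ b, γ (ψ b) = ψ' (β b)) (n : ℕ) (y : Hsm 𝓝 C n) :
    Hsm.delta h' n (Hsm.map γ n y) = Hsm.map α (n + 1) (Hsm.delta h n y) := by
  induction y using Hsm.induction_on with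
  | h z =>
    obtain ⟨a, hrel, ha⟩ := Hsm.exists_delta_mk h z
    rw [ha, Hsm.map_mk, Hsm.map_mk]
    exact Hsm.delta_mk h' _ _ (hrel.map hl hr)

/-- The connecting homomorphism does not depend on the proof of exactness. -/
theorem Hsm.delta_congr [Smooth 𝓝 B] (h h₂ : ShortExact φ ψ) (n : ℕ) :
    Hsm.delta (𝓝 := 𝓝) h n = Hsm.delta h₂ n := rfl

end naturality

/-! ### Consequences -/

/-- If `H^n(B) = 0` the connecting homomorphism `H^n(C) → H^{n+1}(A)` is injective. -/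
theorem Hsm.delta_injective [Smooth 𝓝 B] (h : ShortExact φ ψ) (n : ℕ)
    (h0 : ∀ y : Hsm 𝓝 B n, y = 0) : Function.Injective (Hsm.delta (𝓝 := 𝓝) h n) := by
  rw [injective_iff_map_eq_zero]
  intro y hy
  obtain ⟨x, rfl⟩ := (Hsm.exact_map_delta h n y).1 hy
  rw [h0 x, map_zero]

/-- If `H^{n+1}(B) = 0` the connecting homomorphism `H^n(C) → H^{n+1}(A)` is surjective. -/
theorem Hsm.delta_surjective [Smooth 𝓝 B] (h : ShortExact φ ψ) (n : ℕ)
    (h0 : ∀ y : Hsm 𝓝 B (n + 1), y = 0) : Function.Surjective (Hsm.delta (𝓝 := 𝓝) h n) :=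
  fun x => (Hsm.exact_delta_map h n x).1 (h0 _)

/-- If `H^{n+1}(A) = 0` then `H^n(B) → H^n(C)` is surjective. -/
theorem Hsm.map_surjective_of_zero [Smooth 𝓝 B] (h : ShortExact φ ψ) (n : ℕ)
    (h0 : ∀ y : Hsm 𝓝 A (n + 1), y = 0) : Function.Surjective (Hsm.map (𝓝 := 𝓝) ψ n) :=
  fun y => (Hsm.exact_map_delta h n y).1 (h0 _)

/-- If `H^n(C) = 0` then `H^{n+1}(A) → H^{n+1}(B)` is injective. -/
theorem Hsm.map_injective_of_zero [Smooth 𝓝 B] (h : ShortExact φ ψ) (n : ℕ)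
    (h0 : ∀ y : Hsm 𝓝 C n, y = 0) : Function.Injective (Hsm.map (𝓝 := 𝓝) φ (n + 1)) := by
  rw [injective_iff_map_eq_zero]
  intro x hx
  obtain ⟨y, rfl⟩ := (Hsm.exact_delta_map h n x).1 hx
  rw [h0 y, map_zero]

end Fermat.Agent.S55
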