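/-
S55 / block COH-2 : functoriality of smooth cohomology in the pair (group, module).
`Hsm.pmap` (general compatible pair), `Hsm.res` (restriction along `f : H →* G`),
`Hsm.refine` (finer level system).
-/
import Fermat.Agent.S55.Coh.Functor
import Fermat.Agent.S55.Coh.IndMaps

set_option autoImplicit false

namespace Fermat.Agent.S55

variable {G H K : Type} [Group G] [Group H] [Group K]

/-! ### Cochain level -/

section cochains

variable {A : Type} [AddCommGroup A] [DistribMulAction G A]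
variable {B : Type} [AddCommGroup B] [DistribMulAction H B]

/-- The map on cochains attached to `f : H →* G` and `φ : A →+ B`:
`c ↦ (h ↦ φ (c (f ∘ h)))`. -/
def pcmap (f : H →* G) (φ : A →+ B) (n : ℕ) : ((Fin n → G) → A) →+ ((Fin n → H) → B) where
  toFun c h := φ (c fun i => f (h i))
  map_zero' := by ext; simp
  map_add' c c' := by ext; simp

omit [DistribMulAction G A] [DistribMulAction H B] in
@[simp] theorem pcmap_apply (f : H →* G) (φ : A →+ B) (n : ℕ) (c : (Fin n → G) → A)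
    (h : Fin n → H) : pcmap f φ n c h = φ (c fun i => f (h i)) := rfl

/-- The differential commutes with the map attached to a compatible pair. -/
theorem dd_pcmap (f : H →* G) (φ : A →+ B) (hφ : ∀ (h : H) (a : A), φ (f h • a) = h • φ a)
    (n : ℕ) (c : (Fin n → G) → A) :
    dd B n (pcmap f φ n c) = pcmap f φ (n + 1) (dd A n c) := by
  ext h
  have key : ∀ j : Fin (n + 1), (fun i => f (Fin.contractNth j (· * ·) h i)) =
      Fin.contractNth j (· * ·) (fun i => f (h i)) := fun j =>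
    Fin.comp_contractNth (· * ·) (· * ·) (f := f) (fun x y => map_mul f x y) j h
  simp only [dd_apply, pcmap_apply, map_add, map_sum, map_zsmul, hφ, key]

omit [DistribMulAction G A] [DistribMulAction H B] in
theorem pcmap_mem_Csm (f : H →* G) {𝓝H : LevelSys H} {𝓝G : LevelSys G}
    (hf : (𝓝G.comap f).Le 𝓝H) (φ : A →+ B) {n : ℕ} {c : (Fin n → G) → A}
    (hc : c ∈ Csm 𝓝G A n) : pcmap f φ n c ∈ Csm 𝓝H B n := by
  obtain ⟨N, hN, h⟩ := hc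
  obtain ⟨N', hN', hle⟩ := hf (N.comap f) ⟨N, hN, rfl⟩
  refine ⟨N', hN', fun g k hgk => ?_⟩
  rw [pcmap_apply, pcmap_apply]
  congr 1
  refine h _ _ fun i => ?_
  have := hle (hgk i)
  rwa [Subgroup.mem_comap, map_mul, map_inv] at this

theorem pcmap_mem_Zsm (f : H →* G) {𝓝H : LevelSys H} {𝓝G : LevelSys G}
    (hf : (𝓝G.comap f).Le 𝓝H) (φ : A →+ B) (hφ : ∀ (h : H) (a : A), φ (f h • a) = h • φ a)
    {n : ℕ} {c : (Fin n → G) → A} (hc : c ∈ Zsm 𝓝G A n) : pcmap f φ n c ∈ Zsm 𝓝H B n := by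
  refine ⟨pcmap_mem_Csm f hf φ hc.1, ?_⟩
  change dd B n _ = 0
  rw [dd_pcmap f φ hφ, dd_eq_zero_of_mem_Zsm hc, map_zero]

theorem pcmap_mem_Bsm (f : H →* G) {𝓝H : LevelSys H} {𝓝G : LevelSys G}
    (hf : (𝓝G.comap f).Le 𝓝H) (φ : A →+ B) (hφ : ∀ (h : H) (a : A), φ (f h • a) = h • φ a)
    {n : ℕ} {c : (Fin n → G) → A} (hc : c ∈ Bsm 𝓝G A n) : pcmap f φ n c ∈ Bsm 𝓝H B n := by
  cases n with
  | zero =>
    rw [mem_Bsm_zero] at hc ⊢
    rw [hc, map_zero]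
  | succ n =>
    obtain ⟨e, he, rfl⟩ := hc
    exact ⟨pcmap f φ n e, pcmap_mem_Csm f hf φ he, dd_pcmap f φ hφ n e⟩

/-- The map induced on smooth cocycles by a compatible pair. -/
def Zsm.pmap (f : H →* G) {𝓝H : LevelSys H} {𝓝G : LevelSys G}
    (hf : (𝓝G.comap f).Le 𝓝H) (φ : A →+ B) (hφ : ∀ (h : H) (a : A), φ (f h • a) = h • φ a)
    (n : ℕ) : Zsm 𝓝G A n →+ Zsm 𝓝H B n where
  toFun z := ⟨pcmap f φ n z, pcmap_mem_Zsm f hf φ hφ z.2⟩
  map_zero' := by ext1; simp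
  map_add' z z' := by ext1; simp

@[simp] theorem Zsm.coe_pmap (f : H →* G) {𝓝H : LevelSys H} {𝓝G : LevelSys G}
    (hf : (𝓝G.comap f).Le 𝓝H) (φ : A →+ B) (hφ : ∀ (h : H) (a : A), φ (f h • a) = h • φ a)
    (n : ℕ) (z : Zsm 𝓝G A n) :
    (Zsm.pmap f hf φ hφ n z : (Fin n → H) → B) = pcmap f φ n z := rfl

/-- Functoriality of smooth cohomology for a compatible pair `(f : H →* G, φ : A →+ B)`,
`φ (f h • a) = h • φ a`, `f` continuous. -/
def Hsm.pmap (f : H →* G) {𝓝H : LevelSys H} {𝓝G : LevelSys G}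
    (hf : (𝓝G.comap f).Le 𝓝H) (φ : A →+ B) (hφ : ∀ (h : H) (a : A), φ (f h • a) = h • φ a)
    (n : ℕ) : Hsm 𝓝G A n →+ Hsm 𝓝H B n :=
  Hsm.lift ((Hsm.mk 𝓝H B n).comp (Zsm.pmap f hf φ hφ n)) fun _ hz =>
    (Hsm.mk_eq_zero_iff _).2 (pcmap_mem_Bsm f hf φ hφ hz)

@[simp] theorem Hsm.pmap_mk (f : H →* G) {𝓝H : LevelSys H} {𝓝G : LevelSys G}
    (hf : (𝓝G.comap f).Le 𝓝H) (φ : A →+ B) (hφ : ∀ (h : H) (a : A), φ (f h • a) = h • φ a)
    (n : ℕ) (z : Zsm 𝓝G A n) :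
    Hsm.pmap f hf φ hφ n (Hsm.mk 𝓝G A n z) = Hsm.mk 𝓝H B n (Zsm.pmap f hf φ hφ n z) := rfl

end cochains

/-! ### Level systems -/

theorem LevelSys.Le.refl (𝓝 : LevelSys G) : 𝓝.Le 𝓝 := fun N hN => ⟨N, hN, le_rfl⟩

theorem LevelSys.Le.trans {𝓝 𝓝' 𝓝'' : LevelSys G} (h : 𝓝.Le 𝓝') (h' : 𝓝'.Le 𝓝'') : 𝓝.Le 𝓝'' := by
  intro N hN
  obtain ⟨N', hN', hle⟩ := h N hN
  obtain ⟨N'', hN'', hle'⟩ := h' N' hN'
  exact ⟨N'', hN'', hle'.trans hle⟩

theorem LevelSys.comap_id_le {𝓝 𝓝' : LevelSys G} (h : 𝓝.Le 𝓝') :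
    (𝓝.comap (MonoidHom.id G)).Le 𝓝' := by
  rintro _ ⟨N, hN, rfl⟩
  obtain ⟨N', hN', hle⟩ := h N hN
  exact ⟨N', hN', fun x hx => hle hx⟩

theorem LevelSys.Le.comap {𝓝 𝓝' : LevelSys G} (h : 𝓝.Le 𝓝') (f : H →* G) :
    (𝓝.comap f).Le (𝓝'.comap f) := by
  rintro _ ⟨N, hN, rfl⟩
  obtain ⟨N', hN', hle⟩ := h N hN
  exact ⟨_, ⟨N', hN', rfl⟩, Subgroup.comap_mono hle⟩

theorem LevelSys.comap_comp_le {𝓝G : LevelSys G} {𝓝H : LevelSys H} {𝓝K : LevelSys K}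
    {f : H →* G} {e : K →* H} (hf : (𝓝G.comap f).Le 𝓝H) (he : (𝓝H.comap e).Le 𝓝K) :
    (𝓝G.comap (f.comp e)).Le 𝓝K := by
  rintro _ ⟨N, hN, rfl⟩
  obtain ⟨N', hN', hle⟩ := hf _ ⟨N, hN, rfl⟩
  obtain ⟨N'', hN'', hle'⟩ := he _ ⟨N', hN', rfl⟩
  exact ⟨N'', hN'', fun x hx => hle (hle' hx)⟩

/-! ### Restriction and refinement -/

section res

variable (A : Type) [AddCommGroup A] [DistribMulAction G A]

/-- Restriction along a continuous homomorphism `f : H →* G`. -/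
def Hsm.res (f : H →* G) (𝓝H : LevelSys H) (𝓝G : LevelSys G) (h : (𝓝G.comap f).Le 𝓝H)
    (n : ℕ) : Hsm 𝓝G A n →+ Hsm 𝓝H (ResMod f A) n :=
  Hsm.pmap f h (ResMod.toRes f : A ≃+ ResMod f A).toAddMonoidHom
    (fun x a => (ResMod.smul_def f x a).symm) n

/-- Passage to a finer level system ("inflation"). -/
def Hsm.refine {𝓝 𝓝' : LevelSys G} (h : 𝓝.Le 𝓝') (n : ℕ) : Hsm 𝓝 A n →+ Hsm 𝓝' A n :=
  Hsm.pmap (MonoidHom.id G) (LevelSys.comap_id_le h) (AddMonoidHom.id A) (fun _ _ => rfl) n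

end res

end Fermat.Agent.S55
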