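/-
S55 / block COH-2 : definitions about finite `G`-sets used by the coefficient-only formalism:
coset spaces `G ⧸ U` (projection `cosetMap`, right multiplication `cosetRight`), restriction of a
`G`-set along a homomorphism (`ResSet`), cyclic covers (`CyclicCover`), the map `σ^* - 1`.
Definitions and defining lemmas only.
-/
import Fermat.Agent.S55.Coh.IndMaps

set_option autoImplicit false

namespace Fermat.Agent.S55

variable {G H : Type} [Group G] [Group H]

/-! ### Coset spaces -/

/-- The projection `G ⧸ U' → G ⧸ U` for `U' ≤ U`. -/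
def cosetMap {U' U : Subgroup G} (h : U' ≤ U) : (G ⧸ U') →[G] (G ⧸ U) where
  toFun := Subgroup.quotientMapOfLE h
  map_smul' g x := by
    induction x using QuotientGroup.induction_on with
    | H a => rfl

@[simp] theorem cosetMap_mk {U' U : Subgroup G} (h : U' ≤ U) (g : G) :
    cosetMap h (g : G ⧸ U') = (g : G ⧸ U) := rfl

theorem cosetMap_surjective {U' U : Subgroup G} (h : U' ≤ U) :
    Function.Surjective (cosetMap h) := by
  intro x
  induction x using QuotientGroup.induction_on with
  | H a => exact ⟨(a : G ⧸ U'), rfl⟩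

/-- Right multiplication by an element `s` normalising `U`: `g U ↦ g s U`. -/
def cosetRight (U : Subgroup G) (s : G) (hs : ∀ u ∈ U, s⁻¹ * u * s ∈ U) :
    (G ⧸ U) →[G] (G ⧸ U) where
  toFun := Quotient.map' (fun g => g * s) (by
    intro a b hab
    rw [QuotientGroup.leftRel_apply] at hab ⊢
    have h2 : (a * s)⁻¹ * (b * s) = s⁻¹ * (a⁻¹ * b) * s := by group
    rw [h2]
    exact hs _ hab)
  map_smul' g x := by
    induction x using QuotientGroup.induction_on with
    | H a =>
      show ((g * a * s : G) : G ⧸ U) = ((g * (a * s) : G) : G ⧸ U)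
      rw [mul_assoc]

@[simp] theorem cosetRight_mk (U : Subgroup G) (s : G) (hs : ∀ u ∈ U, s⁻¹ * u * s ∈ U) (g : G) :
    cosetRight U s hs (g : G ⧸ U) = ((g * s : G) : G ⧸ U) := rfl

/-- The equivariant map `G ⧸ U → X`, `g U ↦ g • x`, for a point `x` fixed by `U`. -/
def cosetToSet {X : Type} [MulAction G X] (U : Subgroup G) (x : X)
    (hx : ∀ u ∈ U, u • x = x) : (G ⧸ U) →[G] X where
  toFun := Quotient.lift (fun g : G => g • x) (by
    intro a b hab
    have hab' : a⁻¹ * b ∈ U := QuotientGroup.leftRel_apply.1 hab
    have := hx _ hab'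
    show a • x = b • x
    conv_lhs => rw [← this, smul_smul, mul_inv_cancel_left])
  map_smul' g y := by
    induction y using QuotientGroup.induction_on with
    | H a => exact mul_smul g a x

@[simp] theorem cosetToSet_mk {X : Type} [MulAction G X] (U : Subgroup G) (x : X)
    (hx : ∀ u ∈ U, u • x = x) (g : G) : cosetToSet U x hx (g : G ⧸ U) = g • x := rfl

/-! ### Restriction of a `G`-set -/

/-- The `G`-set `X` regarded as an `H`-set through `f : H →* G`. -/
structure ResSet (f : H →* G) (X : Type) : Type where
  /-- Regard a point of `X` as a point of `ResSet f X`. -/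
  of ::
  /-- The underlying point. -/
  val : X

namespace ResSet

variable (f : H →* G) {X : Type}

variable {f} in
@[ext] theorem ext {x y : ResSet f X} (h : x.val = y.val) : x = y := by
  cases x; cases y; exact congrArg of h

/-- `ResSet f X` is `X`. -/
def equiv : X ≃ ResSet f X where
  toFun := of
  invFun := val
  left_inv _ := rfl
  right_inv _ := rfl

instance [Finite X] : Finite (ResSet f X) := Finite.of_equiv X (equiv f)

instance [MulAction G X] : MulAction H (ResSet f X) where
  smul h x := of (f h • x.val)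
  one_smul x := ext (by show f 1 • x.val = x.val; rw [map_one, one_smul])
  mul_smul h h' x := ext (by
    show f (h * h') • x.val = f h • f h' • x.val
    rw [map_mul, mul_smul])

@[simp] theorem val_smul [MulAction G X] (h : H) (x : ResSet f X) :
    (h • x).val = f h • x.val := rfl

@[simp] theorem val_of (x : X) : (of x : ResSet f X).val = x := rfl

instance [MulAction G X] (𝓝 : LevelSys G) [SmoothSet 𝓝 X] : SmoothSet (𝓝.comap f) (ResSet f X) where
  exists_fix x := by
    obtain ⟨N, hN, h⟩ := SmoothSet.exists_fix (𝓝 := 𝓝) x.val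
    exact ⟨N.comap f, ⟨N, hN, rfl⟩, fun n hn => ext (h (f n) hn)⟩

end ResSet

/-- `Res (Map(X, A)) → Map(Res X, Res A)`. -/
def IndMod.toResSet (f : H →* G) (X A : Type) [MulAction G X] [AddCommGroup A]
    [DistribMulAction G A] : ResMod f (IndMod X A) →+[H] IndMod (ResSet f X) (ResMod f A) where
  toFun F := IndMod.of fun x => ResMod.toRes f (((ResMod.toRes f).symm F) x.val)
  map_smul' h F := by
    ext x
    show ResMod.toRes f (((ResMod.toRes f).symm (h • F)) x.val) =
      h • ResMod.toRes f (((ResMod.toRes f).symm F) (h⁻¹ • x).val)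
    rw [ResMod.smul_def, ResMod.smul_def', AddEquiv.symm_apply_apply, IndMod.smul_apply,
      ResSet.val_smul, map_inv]
  map_zero' := rfl
  map_add' _ _ := rfl

/-- `Map(Res X, Res A) → Res (Map(X, A))`. -/
def IndMod.ofResSet (f : H →* G) (X A : Type) [MulAction G X] [AddCommGroup A]
    [DistribMulAction G A] : IndMod (ResSet f X) (ResMod f A) →+[H] ResMod f (IndMod X A) where
  toFun F := ResMod.toRes f (IndMod.of fun x => (ResMod.toRes f).symm (F (ResSet.of x)))
  map_smul' h F := by
    show ResMod.toRes f (IndMod.of fun x => (ResMod.toRes f).symm ((h • F) (ResSet.of x))) =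
      h • ResMod.toRes f (IndMod.of fun x => (ResMod.toRes f).symm (F (ResSet.of x)))
    rw [ResMod.smul_def]
    congr 1
    ext x
    show (ResMod.toRes f).symm ((h • F) (ResSet.of x)) =
      f h • (ResMod.toRes f).symm (F (ResSet.of ((f h)⁻¹ • x)))
    rw [IndMod.smul_apply, ResMod.smul_def', AddEquiv.symm_apply_apply]
    congr 3
    exact ResSet.ext (by simp)
  map_zero' := rfl
  map_add' _ _ := rfl

theorem IndMod.ofResSet_toResSet (f : H →* G) (X A : Type) [MulAction G X] [AddCommGroup A]
    [DistribMulAction G A] (F : ResMod f (IndMod X A)) :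
    IndMod.ofResSet f X A (IndMod.toResSet f X A F) = F := by
  apply (ResMod.toRes f).symm.injective
  ext x
  rfl

theorem IndMod.toResSet_ofResSet (f : H →* G) (X A : Type) [MulAction G X] [AddCommGroup A]
    [DistribMulAction G A] (F : IndMod (ResSet f X) (ResMod f A)) :
    IndMod.toResSet f X A (IndMod.ofResSet f X A F) = F := by
  ext x
  rfl

/-! ### Cyclic covers -/

/-- `u : X' → X` is a cyclic cover of degree `m` with deck transformation `σ`: `u` is surjective
and every fibre of `u` is a torsor under `⟨σ⟩ ≅ ℤ/m`. -/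
structure CyclicCover {X' X : Type} [MulAction G X'] [MulAction G X] (u : X' →[G] X)
    (σ : X' →[G] X') (m : ℕ) : Prop where
  pos : 0 < m
  surj : Function.Surjective u
  comm : ∀ x, u (σ x) = u x
  pow : ∀ x, σ^[m] x = x
  trans : ∀ x y, u x = u y → ∃ k < m, σ^[k] x = y
  free : ∀ x, ∀ k, 0 < k → k < m → σ^[k] x ≠ x

/-- The equivariant map `σ^* - 1 : f ↦ f ∘ σ - f`. -/
def IndMod.sigmaSub {X' : Type} [MulAction G X'] (A : Type) [AddCommGroup A]
    [DistribMulAction G A] (σ : X' →[G] X') : IndMod X' A →+[G] IndMod X' A where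
  toFun f := IndMod.pull A σ f - f
  map_smul' g f := by
    show IndMod.pull A σ (g • f) - g • f = g • (IndMod.pull A σ f - f)
    rw [map_smul, smul_sub]
  map_zero' := by simp
  map_add' f f' := by
    rw [map_add]
    abel

@[simp] theorem IndMod.sigmaSub_apply {X' : Type} [MulAction G X'] (A : Type) [AddCommGroup A]
    [DistribMulAction G A] (σ : X' →[G] X') (f : IndMod X' A) (x : X') :
    IndMod.sigmaSub A σ f x = f (σ x) - f x := rfl

/-- `W = im(σ^* - 1) ⊆ Map(X', A)`. -/
abbrev IndMod.WMod {X' : Type} [MulAction G X'] (A : Type) [AddCommGroup A]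
    [DistribMulAction G A] (σ : X' →[G] X') : Type := (GSub.range (IndMod.sigmaSub A σ)).Mod

end Fermat.Agent.S55
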