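/-
S55 / block COH-2, section COH-B : iterated `IndMod`, partitions of `G`-sets.
-/
import Fermat.Agent.S55.Coh.LESExact
import Fermat.Agent.S55.Coh.H0
import Fermat.Agent.S55.Coh.Res
import Fermat.Agent.S55.Coh.SetDefs

set_option autoImplicit false

namespace Fermat.Agent.S55

variable {G H K : Type} [Group G] [Group H] [Group K]

namespace IndMod

section B

variable (X Y A : Type) [MulAction G X] [MulAction G Y] [AddCommGroup A] [DistribMulAction G A]

/-- `Map(X × Y, A) → Map(X, Map(Y, A))`. -/
def curry : IndMod (X × Y) A →+[G] IndMod X (IndMod Y A) where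
  toFun f := of fun x => of fun y => f (x, y)
  map_smul' _ _ := rfl
  map_zero' := rfl
  map_add' _ _ := rfl

/-- `Map(X, Map(Y, A)) → Map(X × Y, A)`. -/
def uncurry : IndMod X (IndMod Y A) →+[G] IndMod (X × Y) A where
  toFun f := of fun z => f z.1 z.2
  map_smul' _ _ := rfl
  map_zero' := rfl
  map_add' _ _ := rfl

/-- `Map(X, Map(Y, A)) → Map(Y, Map(X, A))`. -/
def swap : IndMod X (IndMod Y A) →+[G] IndMod Y (IndMod X A) where
  toFun f := of fun y => of fun x => f x y
  map_smul' _ _ := rfl
  map_zero' := rfl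
  map_add' _ _ := rfl

variable {X Y A}

@[simp] theorem curry_apply (f : IndMod (X × Y) A) (x : X) (y : Y) :
    curry (G := G) X Y A f x y = f (x, y) := rfl
@[simp] theorem uncurry_apply (f : IndMod X (IndMod Y A)) (z : X × Y) :
    uncurry (G := G) X Y A f z = f z.1 z.2 := rfl
@[simp] theorem swap_apply (f : IndMod X (IndMod Y A)) (x : X) (y : Y) :
    swap (G := G) X Y A f y x = f x y := rfl

theorem uncurry_curry (f : IndMod (X × Y) A) :
    uncurry (G := G) X Y A (curry (G := G) X Y A f) = f := rfl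
theorem curry_uncurry (f : IndMod X (IndMod Y A)) :
    curry (G := G) X Y A (uncurry (G := G) X Y A f) = f := rfl
theorem swap_swap (f : IndMod X (IndMod Y A)) :
    swap (G := G) Y X A (swap (G := G) X Y A f) = f := rfl

theorem swap_const (f : IndMod Y A) :
    swap (G := G) X Y A (const (G := G) X (IndMod Y A) f) = mapCoeff Y (const (G := G) X A) f := rfl

theorem swap_mapCoeff_const (f : IndMod X A) :
    swap (G := G) X Y A (mapCoeff X (const (G := G) Y A) f) = const (G := G) Y (IndMod X A) f := rfl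

end B

end IndMod

/-- A finite partition of the `G`-set `Y` into `G`-stable pieces. -/
structure IsPartition {I Y : Type} [MulAction G Y] (Xs : I → Type) [∀ i, MulAction G (Xs i)]
    (ι : ∀ i, Xs i →[G] Y) : Prop where
  inj : ∀ i, Function.Injective (ι i)
  cover : ∀ y, ∃ i x, ι i x = y
  disj : ∀ i j x x', ι i x = ι j x' → i = j

/-- The inclusion of an orbit. -/
def orbitIncl {Y : Type} [MulAction G Y] (ω : MulAction.orbitRel.Quotient G Y) :
    ω.orbit →[G] Y where
  toFun := Subtype.val
  map_smul' _ _ := rfl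

theorem isPartition_orbits (Y : Type) [MulAction G Y] :
    IsPartition (G := G) (fun ω : MulAction.orbitRel.Quotient G Y => ω.orbit) orbitIncl where
  inj _ := Subtype.val_injective
  cover y := ⟨Quotient.mk'' y, ⟨y, MulAction.orbitRel.Quotient.mem_orbit.2 rfl⟩, rfl⟩
  disj i j x x' hxx' := by
    have h1 := MulAction.orbitRel.Quotient.mem_orbit.1 x.2
    have h2 := MulAction.orbitRel.Quotient.mem_orbit.1 x'.2
    have h3 : (x : Y) = (x' : Y) := hxx'
    rw [← h1, ← h2, h3]

namespace IsPartition

section aux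

variable {I Y A : Type} [MulAction G Y] {Xs : I → Type} [∀ i, MulAction G (Xs i)]
  {ι : ∀ i, Xs i →[G] Y} [AddCommGroup A] [DistribMulAction G A]

theorem finite_piece [Finite Y] (h : IsPartition Xs ι) (i : I) : Finite (Xs i) :=
  Finite.of_injective _ (h.inj i)

/-- `push` along an injective map, evaluated at a point of the image. -/
theorem push_apply_self [∀ i, Finite (Xs i)] (h : IsPartition Xs ι) (i : I)
    (f : IndMod (Xs i) A) (x : Xs i) : IndMod.push A (ι i) f (ι i x) = f x := by
  rw [IndMod.push_apply]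
  let _ : Unique {x' : Xs i // ι i x' = ι i x} :=
    { default := ⟨x, rfl⟩
      uniq := fun z => Subtype.ext (h.inj i z.2) }
  rw [finsum_unique]
  rfl

/-- `push` evaluated at a point of another piece. -/
theorem push_apply_ne [∀ i, Finite (Xs i)] (h : IsPartition Xs ι) {i j : I} (hij : i ≠ j)
    (f : IndMod (Xs i) A) (x : Xs j) : IndMod.push A (ι i) f (ι j x) = 0 := by
  rw [IndMod.push_apply]
  have : IsEmpty {x' : Xs i // ι i x' = ι j x} := ⟨fun z => hij (h.disj _ _ _ _ z.2)⟩
  exact finsum_of_isEmpty _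

theorem sum_push_pull [Fintype I] [∀ i, Finite (Xs i)] (h : IsPartition Xs ι)
    (f : IndMod Y A) : f = ∑ i, IndMod.push A (ι i) (IndMod.pull A (ι i) f) := by
  classical
  ext y
  obtain ⟨i, x, rfl⟩ := h.cover y
  rw [IndMod.finset_sum_apply, Finset.sum_eq_single i]
  · rw [h.push_apply_self, IndMod.pull_apply]
  · intro j _ hj
    exact h.push_apply_ne hj _ _
  · intro hi
    exact absurd (Finset.mem_univ i) hi

end aux

end IsPartition

/-- The cohomology of `Map(Y, A)` is the product of the cohomologies of the pieces: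
injectivity. -/
theorem IsPartition.hsm_ext {𝓝 : LevelSys G} {I Y A : Type} [Finite I] [Finite Y] [MulAction G Y]
    {Xs : I → Type} [∀ i, MulAction G (Xs i)] {ι : ∀ i, Xs i →[G] Y} (h : IsPartition Xs ι)
    [AddCommGroup A] [DistribMulAction G A] (n : ℕ) (x : Hsm 𝓝 (IndMod Y A) n)
    (hx : ∀ i, Hsm.map (IndMod.pull A (ι i)) n x = 0) : x = 0 := by
  cases nonempty_fintype I
  have : ∀ i, Finite (Xs i) := h.finite_piece
  have e := Hsm.map_sum' (𝓝 := 𝓝) Finset.univ
    (fun i => (IndMod.push A (ι i)).comp (IndMod.pull A (ι i)))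
    (χ := DistribMulActionHom.id G) (fun f => h.sum_push_pull f) n x
  rw [Hsm.map_id] at e
  rw [e]
  refine Finset.sum_eq_zero fun i _ => ?_
  rw [Hsm.map_comp, hx i, _root_.map_zero]

/-- The cohomology of `Map(Y, A)` is the product of the cohomologies of the pieces:
surjectivity. -/
theorem IsPartition.hsm_exists {𝓝 : LevelSys G} {I Y A : Type} [Finite I] [Finite Y]
    [MulAction G Y] {Xs : I → Type} [∀ i, MulAction G (Xs i)] {ι : ∀ i, Xs i →[G] Y}
    (h : IsPartition Xs ι) [AddCommGroup A] [DistribMulAction G A] (n : ℕ)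
    (x : ∀ i, Hsm 𝓝 (IndMod (Xs i) A) n) :
    ∃ y : Hsm 𝓝 (IndMod Y A) n, ∀ i, Hsm.map (IndMod.pull A (ι i)) n y = x i := by
  classical
  cases nonempty_fintype I
  have : ∀ i, Finite (Xs i) := h.finite_piece
  refine ⟨∑ j, Hsm.map (IndMod.push A (ι j)) n (x j), fun i => ?_⟩
  rw [_root_.map_sum, Finset.sum_eq_single i]
  · rw [← Hsm.map_comp]
    refine Hsm.map_id' (fun f => ?_) n (x i)
    ext z
    exact h.push_apply_self i f z
  · intro j _ hj
    rw [← Hsm.map_comp]
    refine Hsm.map_zero' (fun f => ?_) n (x j)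
    ext z
    exact h.push_apply_ne hj f z
  · intro hi
    exact absurd (Finset.mem_univ i) hi

end Fermat.Agent.S55
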