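/-
S55 / block COH-2, task COH-C : effaceability of smooth cohomology, torsion.
-/
import Fermat.Agent.S55.Coh.Functor
import Fermat.Agent.S55.Coh.SetDefs

set_option autoImplicit false

namespace Fermat.Agent.S55

variable {G : Type} [Group G]

namespace Efface

theorem contractNth_zero_cons {n : ℕ} (y : G) (g : Fin (n + 1) → G) :
    Fin.contractNth 0 (· * ·) (Fin.cons y g : Fin (n + 2) → G) =
      Fin.cons (y * g 0) (fun i => g i.succ) := by
  funext i
  refine Fin.cases ?_ (fun i => ?_) i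
  · rw [Fin.contractNth_apply_of_eq _ _ _ _ (by simp)]
    simp
  · rw [Fin.contractNth_apply_of_gt _ _ _ _ (by simp)]
    simp

theorem contractNth_succ_cons {n : ℕ} (k : Fin (n + 1)) (y : G) (g : Fin (n + 1) → G) :
    Fin.contractNth k.succ (· * ·) (Fin.cons y g : Fin (n + 2) → G) =
      Fin.cons y (Fin.contractNth k (· * ·) g) := by
  funext i
  refine Fin.cases ?_ (fun i => ?_) i
  · rw [Fin.contractNth_apply_of_lt _ _ _ _ (by simp)]
    simp
  · rcases lt_trichotomy (i : ℕ) k with hlt | heq | hgt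
    · rw [Fin.contractNth_apply_of_lt _ _ _ _ (by simpa using hlt), Fin.cons_succ,
        Fin.contractNth_apply_of_lt _ _ _ _ hlt, ← Fin.succ_castSucc, Fin.cons_succ]
    · rw [Fin.contractNth_apply_of_eq _ _ _ _ (by simpa using heq), Fin.cons_succ, Fin.cons_succ,
        Fin.contractNth_apply_of_eq _ _ _ _ heq, ← Fin.succ_castSucc, Fin.cons_succ]
    · rw [Fin.contractNth_apply_of_gt _ _ _ _ (by simpa using hgt), Fin.cons_succ, Fin.cons_succ,
        Fin.contractNth_apply_of_gt _ _ _ _ hgt]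

variable {A : Type} [AddCommGroup A] [DistribMulAction G A]

/-- the effacing cochain. -/
noncomputable def bb (N : Subgroup G) {n : ℕ} (c : (Fin (n + 1) → G) → A) (g : Fin n → G) :
    IndMod (G ⧸ N) A :=
  IndMod.of fun q => q.out • c (Fin.cons (q.out)⁻¹ g)

theorem bb_mk {N : Subgroup G} [N.Normal] {n : ℕ} {c : (Fin (n + 1) → G) → A}
    (hc : IsLevelAt N c) (hfix : ∀ g, ∀ x ∈ N, x • c g = c g) (g : Fin n → G) (x : G) :
    bb N c g (x : G ⧸ N) = x • c (Fin.cons x⁻¹ g) := by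
  obtain ⟨ν, hν⟩ := QuotientGroup.mk_out_eq_mul N x
  show ((x : G ⧸ N).out) • c (Fin.cons ((x : G ⧸ N).out)⁻¹ g) = _
  rw [hν, mul_smul, hfix _ _ ν.2]
  congr 1
  refine hc _ _ fun i => ?_
  refine Fin.cases ?_ (fun i => ?_) i
  · simp only [Fin.cons_zero, inv_inv]
    exact Subgroup.Normal.conj_mem inferInstance _ ν.2 x
  · simp only [Fin.cons_succ, inv_mul_cancel]
    exact N.one_mem

theorem isLevelAt_bb {N : Subgroup G} {n : ℕ} {c : (Fin (n + 1) → G) → A}
    (hc : IsLevelAt N c) : IsLevelAt N (bb N c) := by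
  intro g h hgh
  ext q
  show q.out • c (Fin.cons (q.out)⁻¹ g) = q.out • c (Fin.cons (q.out)⁻¹ h)
  congr 1
  refine hc _ _ fun i => ?_
  refine Fin.cases ?_ (fun i => ?_) i
  · simp only [Fin.cons_zero, inv_inv, mul_inv_cancel]
    exact N.one_mem
  · simpa only [Fin.cons_succ] using hgh i

/-- `Map(X, Map(Y, A)) → Map(Y, Map(X, A))` (local copy). -/
def swap (X Y A : Type) [MulAction G X] [MulAction G Y] [AddCommGroup A] [DistribMulAction G A] :
    IndMod X (IndMod Y A) →+[G] IndMod Y (IndMod X A) where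
  toFun f := IndMod.of fun y => IndMod.of fun x => f x y
  map_smul' _ _ := rfl
  map_zero' := rfl
  map_add' _ _ := rfl

/-- restriction to the graph of `u : X → Y`: `Map(X, Map(Y, A)) → Map(X, A)`. -/
def diag {X Y : Type} (A : Type) [MulAction G X] [MulAction G Y] [AddCommGroup A]
    [DistribMulAction G A] (u : X →[G] Y) : IndMod X (IndMod Y A) →+[G] IndMod X A where
  toFun F := IndMod.of fun q => F q (u q)
  map_smul' g F := by
    ext q
    show g • (F (g⁻¹ • q)) (g⁻¹ • u q) = g • (F (g⁻¹ • q)) (u (g⁻¹ • q))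
    rw [map_smul u]
  map_zero' := rfl
  map_add' _ _ := rfl

end Efface

section C

variable {𝓝 : LevelSys G} {A : Type} [AddCommGroup A] [DistribMulAction G A]

/-- Cochain level: if the cocycle `c` has level `N` (normal) and `N` fixes its values then
`const ∘ c` is the coboundary of a cochain of level `N` with values in `Map(G ⧸ N, A)`:
`b g (x N) = x • c (x⁻¹, g)`. -/
theorem efface_cochain {N : Subgroup G} [N.Normal] {n : ℕ} {c : (Fin (n + 1) → G) → A}
    (hc : IsLevelAt N c) (hfix : ∀ g, ∀ x ∈ N, x • c g = c g) (hd : dd A (n + 1) c = 0) :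
    ∃ b : (Fin n → G) → IndMod (G ⧸ N) A, IsLevelAt N b ∧
      dd (IndMod (G ⧸ N) A) n b =
        cmap (IndMod.const (G := G) (G ⧸ N) A : A →+ IndMod (G ⧸ N) A) (n + 1) c := by
  refine ⟨Efface.bb N c, Efface.isLevelAt_bb hc, ?_⟩
  funext g
  ext q
  induction q using QuotientGroup.induction_on with
  | H x =>
    have h0 := congrFun hd (Fin.cons x⁻¹ g)
    rw [dd_apply, Fin.sum_univ_succ, Efface.contractNth_zero_cons] at h0
    simp only [Efface.contractNth_succ_cons, Fin.cons_zero, Fin.cons_succ, Pi.zero_apply] at h0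
    rw [dd_apply]
    simp only [IndMod.add_apply, IndMod.smul_apply, IndMod.finset_sum_apply, IndMod.zsmul_apply]
    have h1 : (g 0)⁻¹ • (x : G ⧸ N) = (((g 0)⁻¹ * x : G) : G ⧸ N) := rfl
    rw [h1]
    simp only [Efface.bb_mk hc hfix]
    have hR : ((cmap (IndMod.const (G := G) (G ⧸ N) A : A →+ IndMod (G ⧸ N) A) (n + 1)) c g)
        (x : G ⧸ N) = c g := rfl
    rw [hR]
    have e1 : g 0 • ((g 0)⁻¹ * x) • c (Fin.cons ((g 0)⁻¹ * x)⁻¹ fun i => g i.succ) =
        x • c (Fin.cons (x⁻¹ * g 0) fun i => g i.succ) := by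
      rw [smul_smul, mul_inv_cancel_left, mul_inv_rev, inv_inv]
    rw [e1]
    have h2 := congrArg (fun a => x • a) h0
    simp only [smul_add, smul_zero, smul_inv_smul, Finset.smul_sum] at h2
    have e2 : ∀ k : Fin (n + 1), x • ((-1 : ℤ) ^ ((k.succ : ℕ) + 1) •
        c (Fin.cons x⁻¹ (k.contractNth (fun x1 x2 => x1 * x2) g))) =
        - ((-1 : ℤ) ^ ((k : ℕ) + 1) • x • c (Fin.cons x⁻¹ (k.contractNth (fun x1 x2 => x1 * x2) g))) := by
      intro k
      rw [smul_comm, Fin.val_succ, pow_succ (-1 : ℤ) ((k : ℕ) + 1)]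
      simp
    simp only [e2, Finset.sum_neg_distrib] at h2
    have e3 : x • ((-1 : ℤ) ^ (((0 : Fin (n + 2)) : ℕ) + 1) •
        c (Fin.cons (x⁻¹ * g 0) fun i => g i.succ)) =
        - (x • c (Fin.cons (x⁻¹ * g 0) fun i => g i.succ)) := by
      simp
    rw [e3] at h2
    have h3 : (fun i => g i) = g := rfl
    rw [h3] at h2
    rw [← sub_eq_zero, ← neg_eq_zero, ← h2]
    abel

/-- EFFACEABILITY. -/
theorem Hsm.efface [Smooth 𝓝 A] (n : ℕ) (x : Hsm 𝓝 A (n + 1)) :
    ∃ N ∈ 𝓝.carrier, Hsm.map (IndMod.const (G ⧸ N) A) (n + 1) x = 0 := by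
  induction x using Hsm.induction_on with
  | h z =>
    obtain ⟨⟨N, hN, h⟩, hd⟩ := z.2
    have := 𝓝.finiteIndex N hN
    obtain ⟨N', hN', hfix⟩ := Smooth.exists_fix_of_finite (𝓝 := 𝓝) (IsLevelAt.finite_range h)
    obtain ⟨N'', hN'', hle⟩ := 𝓝.directed N hN N' hN'
    have := 𝓝.normal N'' hN''
    obtain ⟨b, hb, hdb⟩ := efface_cochain (N := N'') (IsLevelAt.mono h (hle.trans inf_le_left))
      (fun g x hx => hfix _ ⟨g, rfl⟩ x (hle hx).2) hd
    refine ⟨N'', hN'', ?_⟩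
    rw [Hsm.map_mk, Hsm.mk_eq_zero_iff]
    exact ⟨b, ⟨N'', hN'', hb⟩, hdb⟩

/-- A class killed in `Map(X, A)` is killed in `Map(Y, A)` as soon as there is a map `Y → X`. -/
theorem Hsm.efface_mono {X Y : Type} [MulAction G X] [MulAction G Y] (u : Y →[G] X) (n : ℕ)
    (x : Hsm 𝓝 A n) (hx : Hsm.map (IndMod.const X A) n x = 0) :
    Hsm.map (IndMod.const Y A) n x = 0 := by
  rw [Hsm.map_comp' (ψ := IndMod.pull A u) (φ := IndMod.const X A) (fun a => rfl), hx,
    _root_.map_zero]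

/-- Effaceability with a prescribed upper bound for the level. -/
theorem Hsm.efface_le [Smooth 𝓝 A] (n : ℕ) (x : Hsm 𝓝 A (n + 1)) {U : Subgroup G}
    (hU : 𝓝.IsOpen U) :
    ∃ N ∈ 𝓝.carrier, N ≤ U ∧ Hsm.map (IndMod.const (G ⧸ N) A) (n + 1) x = 0 := by
  obtain ⟨N, hN, hx⟩ := Hsm.efface n x
  obtain ⟨N', hN', hle'⟩ := hU
  obtain ⟨N'', hN'', hle⟩ := 𝓝.directed N hN N' hN'
  exact ⟨N'', hN'', (hle.trans inf_le_right).trans hle',
    Hsm.efface_mono (cosetMap (hle.trans inf_le_left)) _ x hx⟩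

/-- Classes of positive degree are torsion. -/
theorem Hsm.exists_nsmul_eq_zero [Smooth 𝓝 A] (n : ℕ) (x : Hsm 𝓝 A (n + 1)) :
    ∃ m : ℕ, 0 < m ∧ m • x = 0 := by
  obtain ⟨N, hN, hx⟩ := Hsm.efface n x
  have := 𝓝.finiteIndex N hN
  have : Finite (G ⧸ N) := Subgroup.finite_quotient_of_finiteIndex
  refine ⟨Nat.card (G ⧸ N), Nat.card_pos, ?_⟩
  have h1 : ∀ a : A, ((IndMod.sum (G := G) (G ⧸ N) A).comp (IndMod.const (G := G) (G ⧸ N) A)) a =
      Nat.card (G ⧸ N) • a := by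
    intro a
    show ∑ᶠ _q : G ⧸ N, a = _
    have := Fintype.ofFinite (G ⧸ N)
    rw [finsum_eq_sum_of_fintype, Finset.sum_const, Finset.card_univ, Nat.card_eq_fintype_card]
  rw [← Hsm.map_nsmul' _ h1, Hsm.map_comp, hx, _root_.map_zero]

/-- Effaceability for `Map(X, A)`, in the variable `A`. -/
theorem Hsm.efface_ind [Smooth 𝓝 A] (X : Type) [MulAction G X] [Finite X] [SmoothSet 𝓝 X] (n : ℕ)
    (x : Hsm 𝓝 (IndMod X A) (n + 1)) :
    ∃ N ∈ 𝓝.carrier, Hsm.map (IndMod.mapCoeff X (IndMod.const (G ⧸ N) A)) (n + 1) x = 0 := by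
  obtain ⟨N, hN, hx⟩ := Hsm.efface n x
  refine ⟨N, hN, ?_⟩
  rw [Hsm.map_comp' (ψ := Efface.swap (G ⧸ N) X A) (φ := IndMod.const (G ⧸ N) (IndMod X A))
    (fun a => rfl), hx, _root_.map_zero]

/-- Effaceability for coset spaces: a class of `Map(G ⧸ U, A)` dies in `Map(G ⧸ N, A)`. -/
theorem Hsm.efface_coset [Smooth 𝓝 A] {U : Subgroup G} (hU : 𝓝.IsOpen U) (n : ℕ)
    (x : Hsm 𝓝 (IndMod (G ⧸ U) A) (n + 1)) :
    ∃ N ∈ 𝓝.carrier, ∃ h : N ≤ U, Hsm.map (IndMod.pull A (cosetMap h)) (n + 1) x = 0 := by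
  have := hU.finiteIndex
  have : Finite (G ⧸ U) := Subgroup.finite_quotient_of_finiteIndex
  have := SmoothSet.quotient 𝓝 hU
  obtain ⟨N, hN, hle, hx⟩ := Hsm.efface_le n x hU
  refine ⟨N, hN, hle, ?_⟩
  rw [Hsm.map_comp' (ψ := Efface.diag A (cosetMap hle)) (φ := IndMod.const (G ⧸ N) (IndMod (G ⧸ U) A))
    (fun a => rfl), hx, _root_.map_zero]

end C

end Fermat.Agent.S55
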