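/-
S55 / block COH-2 : the Shapiro map (restriction to a subgroup followed by evaluation at a fixed
point) and the `p`-primary part of an abelian group.  Definitions only.
-/
import Fermat.Agent.S55.Coh.Res

set_option autoImplicit false

namespace Fermat.Agent.S55

variable {G : Type} [Group G]

/-- Restriction to a subgroup `U` followed by evaluation at a point `x0` fixed by `U`. -/
def Hsm.shapiro (𝓝 : LevelSys G) {X : Type} [MulAction G X] (A : Type) [AddCommGroup A]
    [DistribMulAction G A] (U : Subgroup G) (x0 : X) (hx0 : ∀ u ∈ U, u • x0 = x0) (n : ℕ) :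
    Hsm 𝓝 (IndMod X A) n →+ Hsm (𝓝.comap U.subtype) (ResMod U.subtype A) n :=
  Hsm.pmap U.subtype (LevelSys.Le.refl _)
    ((ResMod.toRes U.subtype : A ≃+ ResMod U.subtype A).toAddMonoidHom.comp (IndMod.eval x0))
    (fun u F => by
      show ResMod.toRes U.subtype ((U.subtype u • F) x0) = u • ResMod.toRes U.subtype (F x0)
      rw [ResMod.smul_def, IndMod.smul_apply]
      have : (U.subtype u)⁻¹ • x0 = x0 := hx0 _ (U.inv_mem u.2)
      rw [this]) n

/-- The `p`-primary part of an abelian group. -/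
def pPrimary (p : ℕ) (M : Type) [AddCommGroup M] : AddSubgroup M where
  carrier := {x | ∃ k : ℕ, p ^ k • x = 0}
  zero_mem' := ⟨0, by simp⟩
  add_mem' := by
    rintro a b ⟨k, hk⟩ ⟨l, hl⟩
    refine ⟨k + l, ?_⟩
    have h1 : p ^ (k + l) • a = 0 := by rw [pow_add, mul_comm, mul_smul, hk, smul_zero]
    have h2 : p ^ (k + l) • b = 0 := by rw [pow_add, mul_smul, hl, smul_zero]
    rw [smul_add, h1, h2, add_zero]
  neg_mem' := by
    rintro a ⟨k, hk⟩
    exact ⟨k, by rw [smul_neg, hk, neg_zero]⟩

theorem mem_pPrimary {p : ℕ} {M : Type} [AddCommGroup M] {x : M} :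
    x ∈ pPrimary p M ↔ ∃ k : ℕ, p ^ k • x = 0 := Iff.rfl

end Fermat.Agent.S55
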