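/-
S55 / COH-I12 : `p`-primary decomposition of torsion elements.
-/
import Mathlib
import Fermat.Agent.S55.Coh.ShapiroDef

set_option autoImplicit false

namespace Fermat.Agent.S55

theorem map_mem_pPrimary {p : ℕ} {M N : Type} [AddCommGroup M] [AddCommGroup N] (f : M →+ N)
    {x : M} (hx : x ∈ pPrimary p M) : f x ∈ pPrimary p N := by
  obtain ⟨k, hk⟩ := hx
  exact ⟨k, by rw [← map_nsmul, hk, map_zero]⟩

/-- Two coprime integers killing `x` force `x = 0`. -/
theorem eq_zero_of_nsmul_eq_zero_of_coprime {M : Type} [AddCommGroup M] {a b : ℕ}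
    (hab : a.Coprime b) {x : M} (ha : a • x = 0) (hb : b • x = 0) : x = 0 := by
  obtain ⟨u, v, huv⟩ := Nat.isCoprime_iff_coprime.mpr hab
  have h : ((u * (a : ℤ) + v * (b : ℤ)) : ℤ) • x = 0 := by
    rw [add_smul, mul_smul, mul_smul, natCast_zsmul, natCast_zsmul, ha, hb, smul_zero, smul_zero,
      add_zero]
  rwa [huv, one_smul] at h

theorem eq_zero_of_mem_pPrimary_of_coprime {p : ℕ} {M : Type} [AddCommGroup M] {m : ℕ}
    (hm : m.Coprime p) {x : M} (hx : x ∈ pPrimary p M) (hmx : m • x = 0) : x = 0 := by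
  obtain ⟨k, hk⟩ := hx
  exact eq_zero_of_nsmul_eq_zero_of_coprime (hm.pow_right k) hmx hk

/-- I1: primary decomposition of a torsion element. -/
theorem exists_pPrimary_decomp {p : ℕ} (hp : p.Prime) {M : Type} [AddCommGroup M] (x : M)
    (hx : ∃ m : ℕ, 0 < m ∧ m • x = 0) :
    ∃ y ∈ pPrimary p M, ∃ z : M, x = y + z ∧ ∃ m : ℕ, m.Coprime p ∧ m • z = 0 := by
  obtain ⟨m, hm0, hmx⟩ := hx
  obtain ⟨k, m', hm', rfl⟩ := Nat.exists_eq_pow_mul_and_not_dvd hm0.ne' p hp.ne_one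
  have hcop : m'.Coprime p := ((Nat.Prime.coprime_iff_not_dvd hp).mpr hm').symm
  obtain ⟨a, b, hab⟩ := Nat.isCoprime_iff_coprime.mpr (hcop.pow_right k)
  -- `a * m' + b * p ^ k = 1`
  have hmx' : (((p ^ k * m' : ℕ) : ℤ)) • x = 0 := by rw [natCast_zsmul, hmx]
  refine ⟨(a * (m' : ℤ)) • x, ⟨k, ?_⟩, (b * ((p ^ k : ℕ) : ℤ)) • x, ?_, m', hcop, ?_⟩
  · rw [← natCast_zsmul, ← mul_smul]
    have e : ((p ^ k : ℕ) : ℤ) * (a * (m' : ℤ)) = a * ((p ^ k * m' : ℕ) : ℤ) := by
      push_cast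
      ring
    rw [e, mul_smul, hmx', smul_zero]
  · rw [← add_smul, hab, one_smul]
  · rw [← natCast_zsmul, ← mul_smul]
    have e : (m' : ℤ) * (b * ((p ^ k : ℕ) : ℤ)) = b * ((p ^ k * m' : ℕ) : ℤ) := by
      push_cast
      ring
    rw [e, mul_smul, hmx', smul_zero]

/-- I2: a `p`-primary element of the image of a torsion group is the image of a `p`-primary
element. -/
theorem exists_pPrimary_preimage {p : ℕ} (hp : p.Prime) {M N : Type} [AddCommGroup M]
    [AddCommGroup N] (f : M →+ N) (hM : ∀ x : M, ∃ m : ℕ, 0 < m ∧ m • x = 0) (x : M)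
    (hx : f x ∈ pPrimary p N) : ∃ y ∈ pPrimary p M, f y = f x := by
  obtain ⟨y, hy, z, rfl, m, hm, hmz⟩ := exists_pPrimary_decomp hp x (hM x)
  refine ⟨y, hy, ?_⟩
  have hz : f z ∈ pPrimary p N := by
    have h := (pPrimary p N).sub_mem hx (map_mem_pPrimary f hy)
    rwa [map_add, add_sub_cancel_left] at h
  have hz0 : f z = 0 :=
    eq_zero_of_mem_pPrimary_of_coprime hm hz (by rw [← map_nsmul, hmz, map_zero])
  rw [map_add, hz0, add_zero]

end Fermat.Agent.S55
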