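/-
S55 / block COH-2, task COH-K12: the `cor ∘ res` argument for subgroups of index prime to `p` (K1)
and the Sylow chain between `N` and `U` (K2, pure group theory).
-/
import Fermat.Agent.S55.Coh.IndApi
import Fermat.Agent.S55.Coh.PPrimary
import Fermat.Agent.S55.Coh.SetDefs
import Fermat.Agent.S55.Coh.ShapiroDef

set_option autoImplicit false

namespace Fermat.Agent.S55

/-- chain of subgroups of orders `1, p, p², …, p^j` in a finite group -/
theorem sylowChain_exists_aux {Γ : Type*} [Group Γ] [Finite Γ] {p : ℕ} (hp : p.Prime) {k : ℕ}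
    (hk : p ^ k ∣ Nat.card Γ) (j : ℕ) (hj : j ≤ k) :
    ∃ R : ℕ → Subgroup Γ, R 0 = ⊥ ∧ (∀ i, R i ≤ R (i + 1)) ∧ ∀ i ≤ j, Nat.card (R i) = p ^ i := by
  have : Fact p.Prime := ⟨hp⟩
  induction j with
  | zero =>
    refine ⟨fun _ => ⊥, rfl, fun _ => le_rfl, fun i hi => ?_⟩
    obtain rfl : i = 0 := by omega
    simp
  | succ j ih =>
    obtain ⟨R, h0, hmono, hcard⟩ := ih (by omega)
    obtain ⟨K, hK, hle⟩ := Sylow.exists_subgroup_card_pow_succ (p := p) (n := j)
      ((pow_dvd_pow p hj).trans hk) (hcard j le_rfl)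
    refine ⟨fun i => if i ≤ j then R i else K, ?_, ?_, ?_⟩
    · simp [h0]
    · intro i
      by_cases h1 : i + 1 ≤ j
      · have h2 : i ≤ j := by omega
        simp only [h1, h2, if_true]
        exact hmono i
      · by_cases h2 : i ≤ j
        · obtain rfl : i = j := by omega
          simp only [h1, le_refl, if_true, if_false]
          exact hle
        · simp only [h1, h2, if_false]
          exact le_rfl
    · intro i hi
      by_cases h2 : i ≤ j
      · simp only [h2, if_true]
        exact hcard i h2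
      · obtain rfl : i = j + 1 := by omega
        simp only [h2, if_false]
        exact hK

/-- a subgroup of index `p` in a group of order `p^(i+1)` is normalised -/
theorem sylowChain_conj_mem {Γ : Type*} [Group Γ] [Finite Γ] {p : ℕ} (hp : p.Prime) {i : ℕ}
    {A B : Subgroup Γ} (hAB : A ≤ B) (hA : Nat.card A = p ^ i) (hB : Nat.card B = p ^ (i + 1)) :
    A.relIndex B = p ∧ ∀ g ∈ B, ∀ v ∈ A, g⁻¹ * v * g ∈ A := by
  have hrel : A.relIndex B = p := by
    have h := Subgroup.relIndex_mul_relIndex ⊥ A B bot_le hAB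
    rw [Subgroup.relIndex_bot_left, Subgroup.relIndex_bot_left, hA, hB, pow_succ] at h
    exact Nat.eq_of_mul_eq_mul_left (pow_pos hp.pos i) h
  refine ⟨hrel, ?_⟩
  have hn : (A.subgroupOf B).Normal := by
    apply Subgroup.normal_of_index_eq_minFac_card
    rw [hB, hp.pow_minFac (Nat.succ_ne_zero i)]
    exact hrel
  intro g hg v hv
  have := hn.conj_mem ⟨v, hAB hv⟩ (Subgroup.mem_subgroupOf.2 hv) ⟨g, hg⟩⁻¹
  rw [Subgroup.mem_subgroupOf] at this
  simpa using this

variable {G : Type} [Group G]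

/-- the fibres of `G ⧸ U' → G ⧸ U` (local version of `cosetMap_card_fiber`) -/
theorem sylowChain_card_fiber {U' U : Subgroup G} (h : U' ≤ U) (x : G ⧸ U) :
    Nat.card {y // cosetMap h y = x} = U'.relIndex U := by
  have hfst : ∀ y : G ⧸ U', (Subgroup.quotientEquivProdOfLE h y).1 = cosetMap h y := by
    intro y
    induction y using QuotientGroup.induction_on with
    | H a => rfl
  refine Nat.card_congr
    { toFun := fun y => (Subgroup.quotientEquivProdOfLE h y.1).2
      invFun := fun b => ⟨(Subgroup.quotientEquivProdOfLE h).symm (x, b), by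
        rw [← hfst, Equiv.apply_symm_apply]⟩
      left_inv := ?_
      right_inv := ?_ }
  · rintro ⟨y, hy⟩
    apply Subtype.ext
    show (Subgroup.quotientEquivProdOfLE h).symm (x, (Subgroup.quotientEquivProdOfLE h y).2) = y
    rw [Equiv.symm_apply_eq]
    exact Prod.ext (by rw [hfst, hy]) rfl
  · intro b
    show (Subgroup.quotientEquivProdOfLE h ((Subgroup.quotientEquivProdOfLE h).symm (x, b))).2 = b
    rw [Equiv.apply_symm_apply]

section Ksec

variable {𝓝 : LevelSys G} {A : Type} [AddCommGroup A] [DistribMulAction G A]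

/-- K1: restriction to a subgroup of index prime to `p` is injective on `p`-primary classes. -/
theorem Hsm.pull_injective_of_coprime {p : ℕ} {U' U : Subgroup G} (hle : U' ≤ U)
    [Finite (G ⧸ U')] (hidx : (U'.relIndex U).Coprime p) (n : ℕ)
    (x : Hsm 𝓝 (IndMod (G ⧸ U) A) n) (hx : x ∈ pPrimary p (Hsm 𝓝 (IndMod (G ⧸ U) A) n))
    (hres : Hsm.map (IndMod.pull A (cosetMap hle)) n x = 0) : x = 0 := by
  have h := Hsm.map_push_pull (𝓝 := 𝓝) (A := A) (cosetMap hle) (U'.relIndex U)
    (sylowChain_card_fiber hle) n x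
  rw [hres, map_zero] at h
  exact eq_zero_of_mem_pPrimary_of_coprime hidx hx h.symm

end Ksec

/-- pull back a subgroup of `U ⧸ N` to `G` -/
def sylowChainLift (N U : Subgroup G) [N.Normal] (R : Subgroup (U ⧸ N.subgroupOf U)) :
    Subgroup G :=
  (R.comap (QuotientGroup.mk' (N.subgroupOf U))).map U.subtype

theorem mem_sylowChainLift {N U : Subgroup G} [N.Normal] {R : Subgroup (U ⧸ N.subgroupOf U)}
    {x : G} : x ∈ sylowChainLift N U R ↔
      ∃ hx : x ∈ U, QuotientGroup.mk' (N.subgroupOf U) ⟨x, hx⟩ ∈ R := by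
  constructor
  · rintro ⟨y, hy, rfl⟩
    exact ⟨y.2, hy⟩
  · rintro ⟨hx, h⟩
    exact ⟨⟨x, hx⟩, h, rfl⟩

theorem sylowChainLift_relIndex (N U : Subgroup G) [N.Normal]
    (A B : Subgroup (U ⧸ N.subgroupOf U)) :
    (sylowChainLift N U A).relIndex (sylowChainLift N U B) = A.relIndex B := by
  unfold sylowChainLift
  rw [Subgroup.relIndex_map_map_of_injective _ _ U.subtype_injective, Subgroup.relIndex_comap,
    Subgroup.map_comap_eq_self_of_surjective (QuotientGroup.mk'_surjective _)]

theorem sylowChainLift_top (N U : Subgroup G) [N.Normal] : sylowChainLift N U ⊤ = U := by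
  ext x
  rw [mem_sylowChainLift]
  exact ⟨fun ⟨h, _⟩ => h, fun h => ⟨h, trivial⟩⟩

theorem sylowChainLift_bot {N U : Subgroup G} [N.Normal] (hle : N ≤ U) :
    sylowChainLift N U ⊥ = N := by
  ext x
  rw [mem_sylowChainLift]
  constructor
  · rintro ⟨hx, h⟩
    rw [Subgroup.mem_bot, QuotientGroup.mk'_apply, QuotientGroup.eq_one_iff] at h
    exact h
  · intro h
    refine ⟨hle h, ?_⟩
    rw [Subgroup.mem_bot, QuotientGroup.mk'_apply, QuotientGroup.eq_one_iff]
    exact h

theorem sylowChainLift_mono (N U : Subgroup G) [N.Normal] {A B : Subgroup (U ⧸ N.subgroupOf U)}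
    (h : A ≤ B) : sylowChainLift N U A ≤ sylowChainLift N U B :=
  Subgroup.map_mono (Subgroup.comap_mono h)

/-- K2 (pure group theory): between an open normal `N` and `U ≥ N` there is a chain
`N = Q 0 ≤ Q 1 ≤ … ≤ Q k ≤ U`, each normal of index `p` in the next one, with `[U : Q k]` prime
to `p`. -/
theorem exists_sylow_chain {p : ℕ} (hp : p.Prime) {N U : Subgroup G} [N.Normal] [N.FiniteIndex]
    (hle : N ≤ U) :
    ∃ (k : ℕ) (Q : ℕ → Subgroup G), Q 0 = N ∧ (∀ i, Q i ≤ Q (i + 1)) ∧ Q k ≤ U ∧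
      ((Q k).relIndex U).Coprime p ∧
      (∀ i < k, (Q i).relIndex (Q (i + 1)) = p ∧
        ∀ g ∈ Q (i + 1), ∀ v ∈ Q i, g⁻¹ * v * g ∈ Q i) := by
  have hfin : Finite (U ⧸ N.subgroupOf U) := Subgroup.finite_quotient_of_finiteIndex
  obtain ⟨k, m, hm, hcard⟩ := Nat.exists_eq_pow_mul_and_not_dvd
    (Nat.card_pos (α := U ⧸ N.subgroupOf U)).ne' p hp.ne_one
  obtain ⟨R, h0, hmono, hR⟩ := sylowChain_exists_aux hp (k := k) (Dvd.intro _ hcard.symm) k le_rfl
  refine ⟨k, fun i => sylowChainLift N U (R i), ?_, ?_, ?_, ?_, ?_⟩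
  · show sylowChainLift N U (R 0) = N
    rw [h0, sylowChainLift_bot hle]
  · intro i
    exact sylowChainLift_mono N U (hmono i)
  · conv_rhs => rw [← sylowChainLift_top N U]
    exact sylowChainLift_mono N U le_top
  · show ((sylowChainLift N U (R k)).relIndex U).Coprime p
    have htop : (sylowChainLift N U (R k)).relIndex U = (R k).index := by
      have := sylowChainLift_relIndex N U (R k) ⊤
      rwa [sylowChainLift_top, Subgroup.relIndex_top_right] at this
    rw [htop]
    have h := (R k).index_mul_card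
    rw [hR k le_rfl, hcard, mul_comm] at h
    rw [Nat.eq_of_mul_eq_mul_left (pow_pos hp.pos k) h]
    exact ((Nat.Prime.coprime_iff_not_dvd hp).2 hm).symm
  · intro i hi
    obtain ⟨h1, h2⟩ := sylowChain_conj_mem hp (hmono i) (hR i hi.le) (hR (i + 1) hi)
    refine ⟨by rw [sylowChainLift_relIndex, h1], ?_⟩
    intro g hg v hv
    obtain ⟨hgU, hg'⟩ := mem_sylowChainLift.1 hg
    obtain ⟨hvU, hv'⟩ := mem_sylowChainLift.1 hv
    refine mem_sylowChainLift.2 ⟨U.mul_mem (U.mul_mem (U.inv_mem hgU) hvU) hgU, ?_⟩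
    have := h2 _ hg' _ hv'
    rw [← map_inv, ← map_mul, ← map_mul] at this
    exact this

end Fermat.Agent.S55
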