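/-
S55 / block COH-2, task COH-K3: chain induction.  A `p`-primary class of positive degree of
`Map(G ⧸ U, A)` vanishes as soon as restriction along normal steps of index `p` (between
"admissible" open subgroups) is injective on `p`-primary classes.
-/
import Fermat.Agent.S55.Coh.SylowChain
import Fermat.Agent.S55.Coh.Efface

set_option autoImplicit false

namespace Fermat.Agent.S55

variable {G : Type} [Group G]

section Ksec3

variable {𝓝 : LevelSys G} {A : Type} [AddCommGroup A] [DistribMulAction G A]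

/-- Functoriality of the restriction maps between coset spaces, on cohomology. -/
theorem Hsm.chain_pull_pull {U'' U' U : Subgroup G} (h' : U'' ≤ U') (h : U' ≤ U) (n : ℕ)
    (x : Hsm 𝓝 (IndMod (G ⧸ U) A) n) :
    Hsm.map (IndMod.pull A (cosetMap h')) n (Hsm.map (IndMod.pull A (cosetMap h)) n x) =
      Hsm.map (IndMod.pull A (cosetMap (h'.trans h))) n x := by
  refine (Hsm.map_comp' (fun f => ?_) n x).symm
  ext y
  induction y using QuotientGroup.induction_on with
  | H a => rfl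

/-- Additive maps preserve `p`-primary elements. -/
theorem chain_map_mem_pPrimary {p : ℕ} {M N : Type} [AddCommGroup M] [AddCommGroup N]
    (f : M →+ N) {x : M} (hx : x ∈ pPrimary p M) : f x ∈ pPrimary p N := by
  obtain ⟨k, hk⟩ := hx
  exact ⟨k, by rw [← map_nsmul, hk, map_zero]⟩

/-- K3: CHAIN INDUCTION.  `P` = "admissible" open subgroups (e.g. those fixing `μ_p`). -/
theorem Hsm.eq_zero_of_chain [Smooth 𝓝 A] {p : ℕ} (hp : p.Prime) (n : ℕ)
    (P : Subgroup G → Prop)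
    (hP : ∀ U, 𝓝.IsOpen U → ∃ U', 𝓝.IsOpen U' ∧ U' ≤ U ∧ P U' ∧ (U'.relIndex U).Coprime p)
    (hP' : ∀ U U', P U → 𝓝.IsOpen U' → U' ≤ U → P U')
    (step : ∀ (U U' : Subgroup G) (hle : U' ≤ U), 𝓝.IsOpen U' → P U →
      (∀ g ∈ U, ∀ v ∈ U', g⁻¹ * v * g ∈ U') → U'.relIndex U = p →
      ∀ x ∈ pPrimary p (Hsm 𝓝 (IndMod (G ⧸ U) A) (n + 1)),
        Hsm.map (IndMod.pull A (cosetMap hle)) (n + 1) x = 0 → x = 0)
    (U : Subgroup G) (hU : 𝓝.IsOpen U) (x : Hsm 𝓝 (IndMod (G ⧸ U) A) (n + 1))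
    (hx : x ∈ pPrimary p (Hsm 𝓝 (IndMod (G ⧸ U) A) (n + 1))) : x = 0 := by
  obtain ⟨U1, hU1o, hU1le, hPU1, hcop⟩ := hP U hU
  have hfin : ∀ V : Subgroup G, 𝓝.IsOpen V → Finite (G ⧸ V) := fun V hV => by
    have := hV.finiteIndex
    exact Subgroup.finite_quotient_of_finiteIndex
  have := hfin U1 hU1o
  refine Hsm.pull_injective_of_coprime hU1le hcop (n + 1) x hx ?_
  have hx1 := chain_map_mem_pPrimary (Hsm.map (𝓝 := 𝓝) (IndMod.pull A (cosetMap hU1le)) (n + 1)) hx
  generalize Hsm.map (IndMod.pull A (cosetMap hU1le)) (n + 1) x = x1 at hx1 ⊢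
  obtain ⟨N, hN, hNle, hNx⟩ := Hsm.efface_coset hU1o n x1
  have := 𝓝.normal N hN
  have := 𝓝.finiteIndex N hN
  obtain ⟨k, Q, hQ0, hQmono, hQk, hQcop, hQstep⟩ := exists_sylow_chain hp hNle
  have hNQ : ∀ i, N ≤ Q i := by
    intro i
    induction i with
    | zero => exact hQ0.ge
    | succ i ih => exact ih.trans (hQmono i)
  have hQo : ∀ i, 𝓝.IsOpen (Q i) := fun i => ⟨N, hN, hNQ i⟩
  have hQm : Monotone Q := monotone_nat_of_le_succ hQmono
  have hQU : ∀ i, i ≤ k → Q i ≤ U1 := fun i hi => (hQm hi).trans hQk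
  have h0 : ∀ (V : Subgroup G) (_ : V = N) (hle : V ≤ U1),
      Hsm.map (IndMod.pull A (cosetMap hle)) (n + 1) x1 = 0 := by
    rintro V rfl hle
    exact hNx
  have claim : ∀ i, ∀ hi : i ≤ k,
      Hsm.map (IndMod.pull A (cosetMap (hQU i hi))) (n + 1) x1 = 0 := by
    intro i
    induction i with
    | zero => intro hi; exact h0 _ hQ0 _
    | succ i ih =>
      intro hi
      have hlt : i < k := hi
      refine step (Q (i + 1)) (Q i) (hQmono i) (hQo i)
        (hP' U1 _ hPU1 (hQo (i + 1)) (hQU _ hi)) (hQstep i hlt).2 (hQstep i hlt).1 _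
        (chain_map_mem_pPrimary _ hx1) ?_
      rw [Hsm.chain_pull_pull]
      exact ih hlt.le
  have := hfin (Q k) (hQo k)
  exact Hsm.pull_injective_of_coprime hQk hQcop (n + 1) x1 hx1 (claim k le_rfl)

end Ksec3

end Fermat.Agent.S55
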