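/-
S55 / block COH-2, section COH-J (proofs helper243): coset spaces `G ⧸ U' → G ⧸ U`:
fibre cardinality, right multiplication, cyclic covers coming from cyclic quotients.
-/
import Fermat.Agent.S55.Coh.SetDefs

set_option autoImplicit false

namespace Fermat.Agent.S55

variable {G H : Type} [Group G] [Group H]

section J

theorem cosetMap_refl (U : Subgroup G) (x : G ⧸ U) : cosetMap (le_refl U) x = x := by
  induction x using QuotientGroup.induction_on with
  | H a => rfl

theorem cosetMap_cosetMap {U'' U' U : Subgroup G} (h' : U'' ≤ U') (h : U' ≤ U) (x : G ⧸ U'') :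
    cosetMap h (cosetMap h' x) = cosetMap (h'.trans h) x := by
  induction x using QuotientGroup.induction_on with
  | H a => rfl

theorem cosetMap_card_fiber {U' U : Subgroup G} (h : U' ≤ U) (x : G ⧸ U) :
    Nat.card {y // cosetMap h y = x} = U'.relIndex U := by
  have e1 : {y // cosetMap h y = x} ≃
      {z : (G ⧸ U) × (U ⧸ U'.subgroupOf U) // z.1 = x} :=
    Equiv.subtypeEquiv (Subgroup.quotientEquivProdOfLE h) (by
      intro y
      induction y using QuotientGroup.induction_on with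
      | H a => exact Iff.rfl)
  have e2 : {z : (G ⧸ U) × (U ⧸ U'.subgroupOf U) // z.1 = x} ≃ (U ⧸ U'.subgroupOf U) :=
    { toFun := fun z => z.1.2
      invFun := fun b => ⟨(x, b), rfl⟩
      left_inv := by
        rintro ⟨⟨a, b⟩, rfl⟩
        rfl
      right_inv := fun _ => rfl }
  rw [Nat.card_congr (e1.trans e2)]
  rfl

theorem cosetMap_cosetRight {U' U : Subgroup G} (h : U' ≤ U) (s : G) (hsU : s ∈ U)
    (hs : ∀ v ∈ U', s⁻¹ * v * s ∈ U') (y : G ⧸ U') :
    cosetMap h (cosetRight U' s hs y) = cosetMap h y := by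
  induction y using QuotientGroup.induction_on with
  | H a =>
    rw [cosetRight_mk, cosetMap_mk, cosetMap_mk, QuotientGroup.eq]
    have : (a * s)⁻¹ * a = s⁻¹ := by group
    rw [this]
    exact U.inv_mem hsU

theorem cosetRight_iterate (U : Subgroup G) (s : G) (hs : ∀ v ∈ U, s⁻¹ * v * s ∈ U) (k : ℕ)
    (g : G) : (cosetRight U s hs)^[k] (g : G ⧸ U) = ((g * s ^ k : G) : G ⧸ U) := by
  induction k generalizing g with
  | zero => simp
  | succ k ih =>
    rw [Function.iterate_succ_apply, cosetRight_mk, ih, pow_succ', mul_assoc]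

theorem mem_iff_smul_one_coset (U : Subgroup G) (g : G) :
    g ∈ U ↔ g • ((1 : G) : G ⧸ U) = ((1 : G) : G ⧸ U) := by
  change g ∈ U ↔ ((g * 1 : G) : G ⧸ U) = ((1 : G) : G ⧸ U)
  rw [QuotientGroup.eq, mul_one, mul_one, inv_mem_iff]

/-- Auxiliary: `(s ^ k)⁻¹ * s ^ l = s ^ (l - k)` for `k ≤ l`. -/
theorem coset_aux_inv_pow_mul_pow (s : G) {k l : ℕ} (hkl : k ≤ l) :
    (s ^ k)⁻¹ * s ^ l = s ^ (l - k) := by
  obtain ⟨j, rfl⟩ := Nat.exists_eq_add_of_le hkl
  rw [pow_add, inv_mul_cancel_left, Nat.add_sub_cancel_left]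

/-- Auxiliary: if `s ^ d ∈ U'` the coset `s ^ k U'` only depends on `k mod d`. -/
theorem coset_aux_mod (U' : Subgroup G) (s : G) (d : ℕ) (hd : s ^ d ∈ U') (k : ℕ) (g : G)
    (hg : (s ^ k)⁻¹ * g ∈ U') : (s ^ (k % d))⁻¹ * g ∈ U' := by
  have h1 : s ^ k = s ^ (k % d) * (s ^ d) ^ (k / d) := by
    rw [← pow_mul, ← pow_add, Nat.mod_add_div]
  have h2 : (s ^ (k % d))⁻¹ * g = (s ^ d) ^ (k / d) * ((s ^ k)⁻¹ * g) := by
    rw [h1]
    group
  rw [h2]
  exact U'.mul_mem (U'.pow_mem hd _) hg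

/-- Auxiliary (pure group theory): if the `m = [U : U']` left cosets of `U'` in `U` are the
`s ^ k U'` then `m` is the smallest positive exponent with `s ^ m ∈ U'`. -/
theorem coset_aux_order {U' U : Subgroup G} (s : G) (hsU : s ∈ U)
    (m : ℕ) (hm0 : 0 < m) (hm : U'.relIndex U = m)
    (hgen : ∀ g ∈ U, ∃ k : ℕ, (s ^ k)⁻¹ * g ∈ U') :
    s ^ m ∈ U' ∧ ∀ k, 0 < k → k < m → s ^ k ∉ U' := by
  classical
  have hcard : Nat.card (U ⧸ U'.subgroupOf U) = m := hm
  have hfin : Finite (U ⧸ U'.subgroupOf U) := Nat.finite_of_card_ne_zero (by omega)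
  let c : ℕ → U ⧸ U'.subgroupOf U := fun k => (((⟨s, hsU⟩ : U) ^ k : U) : U ⧸ U'.subgroupOf U)
  have hc : ∀ k (g : U), c k = (g : U ⧸ U'.subgroupOf U) ↔ (s ^ k)⁻¹ * (g : G) ∈ U' := by
    intro k g
    change (((⟨s, hsU⟩ : U) ^ k : U) : U ⧸ U'.subgroupOf U) = _ ↔ _
    rw [QuotientGroup.eq, Subgroup.mem_subgroupOf]
    simp
  have hcc : ∀ k l, c k = c l ↔ (s ^ k)⁻¹ * s ^ l ∈ U' := by
    intro k l
    have := hc k ((⟨s, hsU⟩ : U) ^ l)
    rw [Subgroup.coe_pow] at this
    exact this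
  have hex : ∃ d, 0 < d ∧ s ^ d ∈ U' := by
    obtain ⟨k, l, hkl, hckl⟩ := Finite.exists_ne_map_eq_of_infinite c
    rcases lt_or_gt_of_ne hkl with hlt | hlt
    · refine ⟨l - k, by omega, ?_⟩
      rw [← coset_aux_inv_pow_mul_pow s hlt.le]
      exact (hcc k l).1 hckl
    · refine ⟨k - l, by omega, ?_⟩
      rw [← coset_aux_inv_pow_mul_pow s hlt.le]
      exact (hcc l k).1 hckl.symm
  let d := Nat.find hex
  have hd0 : 0 < d := (Nat.find_spec hex).1
  have hd : s ^ d ∈ U' := (Nat.find_spec hex).2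
  have hmin : ∀ k, 0 < k → k < d → s ^ k ∉ U' := fun k hk0 hkd hk =>
    Nat.find_min hex hkd ⟨hk0, hk⟩
  have hbij : Function.Bijective (fun k : Fin d => c k) := by
    constructor
    · intro k l hkl
      have hkl' : c k = c l := hkl
      by_contra hne
      have hne' : (k : ℕ) ≠ l := fun h => hne (Fin.ext h)
      rcases lt_or_gt_of_ne hne' with hlt | hlt
      · refine hmin (l - k) (by omega) (by omega) ?_
        rw [← coset_aux_inv_pow_mul_pow s hlt.le]
        exact (hcc k l).1 hkl'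
      · refine hmin (k - l) (by omega) (by omega) ?_
        rw [← coset_aux_inv_pow_mul_pow s hlt.le]
        exact (hcc l k).1 hkl'.symm
    · intro x
      induction x using QuotientGroup.induction_on with
      | H g =>
        obtain ⟨k, hk⟩ := hgen g g.2
        exact ⟨⟨k % d, Nat.mod_lt _ hd0⟩, (hc _ g).2 (coset_aux_mod U' s d hd k g hk)⟩
  have hdm : d = m := by
    rw [← hcard, ← Nat.card_eq_of_bijective _ hbij, Nat.card_eq_fintype_card, Fintype.card_fin]
  rw [← hdm]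
  exact ⟨hd, hmin⟩

/-- `G ⧸ U' → G ⧸ U` is a cyclic cover when `U ⧸ U'` is cyclic of order `m` generated by `s`. -/
theorem cyclicCover_coset {U' U : Subgroup G} (h : U' ≤ U) (s : G) (hsU : s ∈ U)
    (hs : ∀ v ∈ U', s⁻¹ * v * s ∈ U') (m : ℕ) (hm0 : 0 < m) (hm : U'.relIndex U = m)
    (hgen : ∀ g ∈ U, ∃ k : ℕ, (s ^ k)⁻¹ * g ∈ U') :
    CyclicCover (cosetMap h) (cosetRight U' s hs) m := by
  obtain ⟨hsm, hmin⟩ := coset_aux_order s hsU m hm0 hm hgen
  refine ⟨hm0, cosetMap_surjective h, cosetMap_cosetRight h s hsU hs, ?_, ?_, ?_⟩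
  · intro x
    induction x using QuotientGroup.induction_on with
    | H a =>
      rw [cosetRight_iterate, QuotientGroup.eq]
      have : (a * s ^ m)⁻¹ * a = (s ^ m)⁻¹ := by group
      rw [this]
      exact U'.inv_mem hsm
  · intro x y
    induction x using QuotientGroup.induction_on with
    | H a =>
      induction y using QuotientGroup.induction_on with
      | H b =>
        intro hab
        rw [cosetMap_mk, cosetMap_mk, QuotientGroup.eq] at hab
        obtain ⟨k, hk⟩ := hgen _ hab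
        refine ⟨k % m, Nat.mod_lt _ hm0, ?_⟩
        rw [cosetRight_iterate, QuotientGroup.eq]
        have : (a * s ^ (k % m))⁻¹ * b = (s ^ (k % m))⁻¹ * (a⁻¹ * b) := by group
        rw [this]
        exact coset_aux_mod U' s m hsm k _ hk
  · intro x k hk0 hkm
    induction x using QuotientGroup.induction_on with
    | H a =>
      rw [cosetRight_iterate, Ne, QuotientGroup.eq]
      have : (a * s ^ k)⁻¹ * a = (s ^ k)⁻¹ := by group
      rw [this, inv_mem_iff]
      exact hmin k hk0 hkm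

/-- A normal step of prime index is a cyclic cover. -/
theorem exists_cyclicCover_coset_prime {p : ℕ} (hp : p.Prime) {U' U : Subgroup G} (h : U' ≤ U)
    (hnorm : ∀ g ∈ U, ∀ v ∈ U', g⁻¹ * v * g ∈ U') (hidx : U'.relIndex U = p) :
    ∃ s ∈ U, ∃ hs : ∀ v ∈ U', s⁻¹ * v * s ∈ U', CyclicCover (cosetMap h) (cosetRight U' s hs) p := by
  have : Fact p.Prime := ⟨hp⟩
  have hnle : ¬ U ≤ U' := by
    intro hle
    have := Subgroup.relIndex_eq_one.2 hle
    rw [hidx] at this
    exact hp.one_lt.ne' this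
  obtain ⟨s, hsU, hsU'⟩ := SetLike.not_le_iff_exists.1 hnle
  have hN : (U'.subgroupOf U).Normal := by
    refine ⟨fun v hv g => ?_⟩
    rw [Subgroup.mem_subgroupOf] at hv ⊢
    have := hnorm (g⁻¹ : U) (g⁻¹ : U).2 v hv
    simpa using this
  have hcard : Nat.card (U ⧸ U'.subgroupOf U) = p := hidx
  have hs1 : (((⟨s, hsU⟩ : U) : U ⧸ U'.subgroupOf U)) ≠ 1 := by
    intro h1
    rw [QuotientGroup.eq_one_iff, Subgroup.mem_subgroupOf] at h1
    exact hsU' h1
  refine ⟨s, hsU, hnorm s hsU, cyclicCover_coset h s hsU _ p hp.pos hidx ?_⟩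
  intro g hg
  obtain ⟨k, hk⟩ := mem_powers_of_prime_card hcard hs1
    (g' := (((⟨g, hg⟩ : U) : U ⧸ U'.subgroupOf U)))
  refine ⟨k, ?_⟩
  have hk' : ((((⟨s, hsU⟩ : U) ^ k : U)) : U ⧸ U'.subgroupOf U) = ((⟨g, hg⟩ : U) : U ⧸ _) := hk
  rw [QuotientGroup.eq, Subgroup.mem_subgroupOf] at hk'
  simpa using hk'

end J

end Fermat.Agent.S55
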