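/-
S55 / block COH-1 : the abelian-group core of LEMMA H3 (pure diagram chase + counting).
Mathlib only.
-/
import Mathlib

set_option autoImplicit false

namespace Fermat.Agent.S55

/-- The `p`-primary part of an abelian group. -/
def Ppart (p : ℕ) (M : Type*) [AddCommGroup M] : AddSubgroup M where
  carrier := {x | ∃ e : ℕ, p ^ e • x = 0}
  zero_mem' := ⟨0, smul_zero _⟩
  add_mem' := by
    rintro x y ⟨e, he⟩ ⟨e', he'⟩
    refine ⟨e + e', ?_⟩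
    have h1 : p ^ (e + e') • x = 0 := by rw [pow_add, mul_comm, mul_smul, he, smul_zero]
    have h2 : p ^ (e + e') • y = 0 := by rw [pow_add, mul_smul, he', smul_zero]
    rw [smul_add, h1, h2, add_zero]
  neg_mem' := by
    rintro x ⟨e, he⟩
    exact ⟨e, by rw [smul_neg, he, neg_zero]⟩

theorem mem_Ppart {p : ℕ} {M : Type*} [AddCommGroup M] {x : M} :
    x ∈ Ppart p M ↔ ∃ e : ℕ, p ^ e • x = 0 := Iff.rfl

theorem map_mem_Ppart {p : ℕ} {M M' : Type*} [AddCommGroup M] [AddCommGroup M'] (d : M →+ M')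
    {x : M} (hx : x ∈ Ppart p M) : d x ∈ Ppart p M' := by
  obtain ⟨e, he⟩ := hx
  exact ⟨e, by rw [← map_nsmul, he, map_zero]⟩

theorem mem_Ppart_of_smul_eq_zero {p : ℕ} {M : Type*} [AddCommGroup M] {x : M}
    (h : p • x = 0) : x ∈ Ppart p M := ⟨1, by rwa [pow_one]⟩

/-- A torsion element whose image is `p`-primary can be replaced by a `p`-primary element with the
same image. -/
theorem exists_mem_Ppart_map_eq {p : ℕ} (hp : p.Prime) {M M' : Type*} [AddCommGroup M]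
    [AddCommGroup M'] (d : M →+ M') {z : M} (hz : ∃ k : ℕ, 0 < k ∧ k • z = 0)
    (hdz : d z ∈ Ppart p M') : ∃ z₁ ∈ Ppart p M, d z₁ = d z := by
  obtain ⟨k, hk, hkz⟩ := hz
  obtain ⟨e', he'⟩ := hdz
  obtain ⟨e, m, hm, rfl⟩ := Nat.exists_eq_pow_mul_and_not_dvd hk.ne' p hp.ne_one
  have hcop : IsCoprime ((p : ℤ) ^ (e + e')) (m : ℤ) := by
    apply IsCoprime.pow_left
    rw [Nat.isCoprime_iff_coprime]
    exact (Nat.Prime.coprime_iff_not_dvd hp).2 hm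
  obtain ⟨u, v, huv⟩ := hcop
  refine ⟨(v * m) • z, ⟨e + e', ?_⟩, ?_⟩
  · have h1 : ((p ^ e * m : ℕ) : ℤ) • z = 0 := by rw [natCast_zsmul]; exact hkz
    rw [← natCast_zsmul, smul_smul]
    have h2 : ((p ^ (e + e') : ℕ) : ℤ) * (v * m) = (v * (p : ℤ) ^ e') * ((p ^ e * m : ℕ) : ℤ) := by
      push_cast
      ring
    rw [h2, mul_smul, h1, smul_zero]
  · have h1 : ((p : ℤ) ^ (e + e')) • d z = 0 := by
      have : ((p : ℤ) ^ (e + e')) = ((p ^ e : ℕ) : ℤ) * ((p ^ e' : ℕ) : ℤ) := by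
        push_cast
        ring
      rw [this, mul_smul, natCast_zsmul (d z), he', smul_zero]
    have h2 : v * m = 1 - u * (p : ℤ) ^ (e + e') := by linarith
    rw [map_zsmul, h2, sub_smul, one_smul, mul_smul, h1, smul_zero, sub_zero]

/-- **Abstract LEMMA H3.**  Two exact sequences
`H1Q → H1P → H2W → Y → H2P` and `H2P → Y → H2W → H3P → H3Q`.
Assume (1) on `p`-primary parts `ker c2 = (j ∘ π) Y`; (2) `H1P(p)` is covered by `N` cosets of
`im c1` while `Y(p) ∩ ker (j ∘ π)` contains `N` elements pairwise incongruent modulo `im r2`.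
Then `r3` is injective on `H3P(p)`. -/
theorem h3_abs {H1Q H1P H2W Y H2P H3P H3Q : Type*} [AddCommGroup H1Q] [AddCommGroup H1P]
    [AddCommGroup H2W] [AddCommGroup Y] [AddCommGroup H2P] [AddCommGroup H3P] [AddCommGroup H3Q]
    (c1 : H1Q →+ H1P) (d2 : H1P →+ H2W) (j : H2W →+ Y) (c2 : Y →+ H2P)
    (r2 : H2P →+ Y) (π : Y →+ H2W) (d1 : H2W →+ H3P) (r3 : H3P →+ H3Q)
    (e1 : Function.Exact c1 d2) (e2 : Function.Exact d2 j) (_e3 : Function.Exact j c2)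
    (e4 : Function.Exact r2 π) (e5 : Function.Exact π d1) (e6 : Function.Exact d1 r3)
    {p : ℕ} (hp : p.Prime)
    (tW : ∀ w : H2W, ∃ k : ℕ, 0 < k ∧ k • w = 0) (tP : ∀ z : H1P, ∃ k : ℕ, 0 < k ∧ k • z = 0)
    (hyp1 : ∀ y ∈ Ppart p Y, c2 y = 0 → ∃ y' ∈ Ppart p Y, j (π y') = y)
    (N : ℕ) (zs : Fin N → H1P) (hzs : ∀ z ∈ Ppart p H1P, ∃ a, z - zs a ∈ Set.range c1)
    (ts : Fin N → Y) (hts : ∀ a, ts a ∈ Ppart p Y ∧ j (π (ts a)) = 0)
    (hts' : ∀ a b, ts a - ts b ∈ Set.range r2 → a = b)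
    (x : H3P) (hx : x ∈ Ppart p H3P) (hx0 : r3 x = 0) : x = 0 := by
  classical
  -- step 1
  obtain ⟨w₀, rfl⟩ := (e6 x).1 hx0
  obtain ⟨w, hw, hww⟩ := exists_mem_Ppart_map_eq hp d1 (tW w₀) hx
  rw [← hww]
  -- step 2
  obtain ⟨y', hy', hjy⟩ := hyp1 (j w) (map_mem_Ppart j hw) ((_e3 _).2 ⟨w, rfl⟩)
  have hw' : w - π y' ∈ Ppart p H2W := sub_mem hw (map_mem_Ppart π hy')
  have hjw' : j (w - π y') = 0 := by rw [map_sub, hjy, sub_self]
  have hd1 : d1 w = d1 (w - π y') := by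
    rw [map_sub, (e5 _).2 ⟨y', rfl⟩, sub_zero]
  rw [hd1]
  -- step 3
  obtain ⟨z₀, hz₀⟩ := (e2 _).1 hjw'
  obtain ⟨z, hz, hzz⟩ := exists_mem_Ppart_map_eq hp d2 (tP z₀) (hz₀ ▸ hw')
  rw [← hz₀, ← hzz]
  -- step 4: the counting argument
  have hlift : ∀ a, ∃ z' ∈ Ppart p H1P, d2 z' = π (ts a) := by
    intro a
    obtain ⟨z₁, hz₁⟩ := (e2 _).1 (hts a).2
    obtain ⟨z₂, hz₂, hz₂'⟩ := exists_mem_Ppart_map_eq hp d2 (tP z₁)
      (hz₁ ▸ map_mem_Ppart π (hts a).1)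
    exact ⟨z₂, hz₂, hz₂'.trans hz₁⟩
  choose z' hz' hdz' using hlift
  choose f hf using fun a => hzs (z' a) (hz' a)
  have hfinj : Function.Injective f := by
    intro a b hab
    apply hts'
    apply (e4 _).1
    rw [map_sub, ← hdz', ← hdz', ← map_sub]
    apply (e1 _).2
    have h1 := hf a
    have h2 := hf b
    rw [hab] at h1
    obtain ⟨q1, hq1⟩ := h1
    obtain ⟨q2, hq2⟩ := h2
    exact ⟨q1 - q2, by rw [map_sub, hq1, hq2]; abel⟩
  have hfsurj : Function.Surjective f := Finite.surjective_of_injective hfinj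
  obtain ⟨c, hc⟩ := hzs z hz
  obtain ⟨a, rfl⟩ := hfsurj c
  have hdz : d2 z = π (ts a) := by
    rw [← hdz', ← sub_eq_zero, ← map_sub]
    apply (e1 _).2
    obtain ⟨q1, hq1⟩ := hc
    obtain ⟨q2, hq2⟩ := hf a
    exact ⟨q1 - q2, by rw [map_sub, hq1, hq2]; abel⟩
  rw [hdz]
  exact (e5 _).2 ⟨_, rfl⟩

end Fermat.Agent.S55
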