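/-
S55 / block COH-1 : four-term exact sequences `0 → P → Q → Q → P → 0` cut into
`0 → P → Q → W → 0` and `0 → W → Q → P → 0`; the double connecting map
`theta : H^n(P) → H^{n+2}(P)`; LEMMA H3 in its generic form.
-/
import Fermat.Agent.S55.Coh.LESExact
import Fermat.Agent.S55.Coh.H3Abs

set_option autoImplicit false

namespace Fermat.Agent.S55

variable {G : Type} [Group G] {𝓝 : LevelSys G}
variable {P : Type} [AddCommGroup P] [DistribMulAction G P]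
variable {Q : Type} [AddCommGroup Q] [DistribMulAction G Q]
variable {W : Type} [AddCommGroup W] [DistribMulAction G W]

/-- Two short exact sequences `0 → P -i→ Q -π→ W → 0` and `0 → W -ι→ Q -ν→ P → 0`. -/
structure FourTerm (i : P →+[G] Q) (π : Q →+[G] W) (ι : W →+[G] Q) (ν : Q →+[G] P) : Prop where
  left : ShortExact i π
  right : ShortExact ι ν

namespace FourTerm

variable {i : P →+[G] Q} {π : Q →+[G] W} {ι : W →+[G] Q} {ν : Q →+[G] P}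

/-- The double connecting homomorphism `H^n(P) → H^{n+1}(W) → H^{n+2}(P)`. -/
noncomputable def theta [Smooth 𝓝 Q] (h : FourTerm i π ι ν) (n : ℕ) :
    Hsm 𝓝 P n →+ Hsm 𝓝 P (n + 2) :=
  (Hsm.delta h.left (n + 1)).comp (Hsm.delta h.right n)

theorem theta_apply [Smooth 𝓝 Q] (h : FourTerm i π ι ν) (n : ℕ) (x : Hsm 𝓝 P n) :
    h.theta n x = Hsm.delta h.left (n + 1) (Hsm.delta h.right n x) := rfl

/-- `theta` kills the image of `ν` ("norms"). -/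
theorem theta_map [Smooth 𝓝 Q] (h : FourTerm i π ι ν) (n : ℕ) (y : Hsm 𝓝 Q n) :
    h.theta n (Hsm.map ν n y) = 0 := by
  rw [theta_apply, Hsm.delta_map_eq_zero, map_zero]

/-- The image of `theta` is killed by `i` ("restriction"). -/
theorem map_theta [Smooth 𝓝 Q] (h : FourTerm i π ι ν) (n : ℕ) (x : Hsm 𝓝 P n) :
    Hsm.map i (n + 2) (h.theta n x) = 0 := by
  rw [theta_apply, Hsm.map_delta_eq_zero]

/-- If `H^{n+1}(Q) = 0` the kernel of `theta` is the image of `ν`. -/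
theorem theta_eq_zero_iff [Smooth 𝓝 Q] (h : FourTerm i π ι ν) (n : ℕ)
    (h0 : ∀ y : Hsm 𝓝 Q (n + 1), y = 0) (x : Hsm 𝓝 P n) :
    h.theta n x = 0 ↔ x ∈ Set.range (Hsm.map (𝓝 := 𝓝) ν n) := by
  constructor
  · intro hx
    have h1 := Hsm.delta_injective h.left (n + 1) h0 (hx.trans (map_zero _).symm)
    exact (Hsm.exact_map_delta h.right n x).1 h1
  · rintro ⟨y, rfl⟩
    exact h.theta_map n y

/-- If `H^{n+1}(Q) = 0` the image of `theta` is the kernel of `i`. -/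
theorem mem_range_theta_iff [Smooth 𝓝 Q] (h : FourTerm i π ι ν) (n : ℕ)
    (h0 : ∀ y : Hsm 𝓝 Q (n + 1), y = 0) (z : Hsm 𝓝 P (n + 2)) :
    z ∈ Set.range (h.theta (𝓝 := 𝓝) n) ↔ Hsm.map i (n + 2) z = 0 := by
  constructor
  · rintro ⟨x, rfl⟩
    exact h.map_theta n x
  · intro hz
    obtain ⟨w, rfl⟩ := (Hsm.exact_delta_map h.left (n + 1) z).1 hz
    obtain ⟨x, rfl⟩ := Hsm.delta_surjective h.right n h0 w
    exact ⟨x, rfl⟩

/-- Naturality of `theta`. -/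
theorem theta_naturality {P' Q' W' : Type} [AddCommGroup P'] [DistribMulAction G P']
    [AddCommGroup Q'] [DistribMulAction G Q'] [AddCommGroup W'] [DistribMulAction G W']
    {i' : P' →+[G] Q'} {π' : Q' →+[G] W'} {ι' : W' →+[G] Q'} {ν' : Q' →+[G] P'}
    [Smooth 𝓝 Q] [Smooth 𝓝 Q'] (h : FourTerm i π ι ν) (h' : FourTerm i' π' ι' ν')
    (α : P →+[G] P') (β : Q →+[G] Q') (γ : W →+[G] W')
    (h1 : ∀ a, β (i a) = i' (α a)) (h2 : ∀ b, γ (π b) = π' (β b))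
    (h3 : ∀ c, β (ι c) = ι' (γ c)) (h4 : ∀ b, α (ν b) = ν' (β b)) (n : ℕ) (x : Hsm 𝓝 P n) :
    h'.theta n (Hsm.map α n x) = Hsm.map α (n + 2) (h.theta n x) := by
  rw [theta_apply, theta_apply,
    Hsm.delta_naturality h.right h'.right γ β α h3 h4,
    Hsm.delta_naturality h.left h'.left α β γ h1 h2]

/-- **LEMMA H3**, generic form (degrees `n+1, n+2, n+3`; the blueprint uses `n = 0`).
`s = ι ∘ π` plays the role of `σ - 1`. -/
theorem map_injective_on_Ppart [Smooth 𝓝 Q] (h : FourTerm i π ι ν) (n : ℕ) {p : ℕ}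
    (hp : p.Prime)
    (tW : ∀ w : Hsm 𝓝 W (n + 2), ∃ k : ℕ, 0 < k ∧ k • w = 0)
    (tP : ∀ z : Hsm 𝓝 P (n + 1), ∃ k : ℕ, 0 < k ∧ k • z = 0)
    (hyp1 : ∀ y ∈ Ppart p (Hsm 𝓝 Q (n + 2)), Hsm.map ν (n + 2) y = 0 →
      ∃ y' ∈ Ppart p (Hsm 𝓝 Q (n + 2)), Hsm.map (ι.comp π) (n + 2) y' = y)
    (N : ℕ) (zs : Fin N → Hsm 𝓝 P (n + 1))
    (hzs : ∀ z ∈ Ppart p (Hsm 𝓝 P (n + 1)), ∃ a, z - zs a ∈ Set.range (Hsm.map (𝓝 := 𝓝) ν (n + 1)))
    (ts : Fin N → Hsm 𝓝 Q (n + 2))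
    (hts : ∀ a, ts a ∈ Ppart p (Hsm 𝓝 Q (n + 2)) ∧ Hsm.map (ι.comp π) (n + 2) (ts a) = 0)
    (hts' : ∀ a b, ts a - ts b ∈ Set.range (Hsm.map (𝓝 := 𝓝) i (n + 2)) → a = b)
    (x : Hsm 𝓝 P (n + 3)) (hx : x ∈ Ppart p (Hsm 𝓝 P (n + 3)))
    (hx0 : Hsm.map i (n + 3) x = 0) : x = 0 :=
  h3_abs (Hsm.map ν (n + 1)) (Hsm.delta h.right (n + 1)) (Hsm.map ι (n + 2)) (Hsm.map ν (n + 2))
    (Hsm.map i (n + 2)) (Hsm.map π (n + 2)) (Hsm.delta h.left (n + 2)) (Hsm.map i (n + 3))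
    (Hsm.exact_map_delta h.right (n + 1)) (Hsm.exact_delta_map h.right (n + 1))
    (Hsm.exact_map_map h.right (n + 2)) (Hsm.exact_map_map h.left (n + 2))
    (Hsm.exact_map_delta h.left (n + 2)) (Hsm.exact_delta_map h.left (n + 2)) hp tW tP
    (fun y hy hy0 => by
      obtain ⟨y', hy', e⟩ := hyp1 y hy hy0
      exact ⟨y', hy', by rw [← Hsm.map_comp]; exact e⟩)
    N zs hzs ts
    (fun a => ⟨(hts a).1, by rw [← Hsm.map_comp]; exact (hts a).2⟩) hts' x hx hx0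

/-- LEMMA H3 when `H^{n+1}(P)(p) = 0` (e.g. Hilbert 90): only hypothesis (1) remains. -/
theorem map_injective_on_Ppart_of_zero [Smooth 𝓝 Q] (h : FourTerm i π ι ν) (n : ℕ) {p : ℕ}
    (hp : p.Prime)
    (tW : ∀ w : Hsm 𝓝 W (n + 2), ∃ k : ℕ, 0 < k ∧ k • w = 0)
    (tP : ∀ z : Hsm 𝓝 P (n + 1), ∃ k : ℕ, 0 < k ∧ k • z = 0)
    (hyp1 : ∀ y ∈ Ppart p (Hsm 𝓝 Q (n + 2)), Hsm.map ν (n + 2) y = 0 →
      ∃ y' ∈ Ppart p (Hsm 𝓝 Q (n + 2)), Hsm.map (ι.comp π) (n + 2) y' = y)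
    (hP : ∀ z ∈ Ppart p (Hsm 𝓝 P (n + 1)), z ∈ Set.range (Hsm.map (𝓝 := 𝓝) ν (n + 1)))
    (x : Hsm 𝓝 P (n + 3)) (hx : x ∈ Ppart p (Hsm 𝓝 P (n + 3)))
    (hx0 : Hsm.map i (n + 3) x = 0) : x = 0 :=
  h.map_injective_on_Ppart n hp tW tP hyp1 1 (fun _ => 0)
    (fun z hz => ⟨0, by rw [sub_zero]; exact hP z hz⟩) (fun _ => 0)
    (fun _ => ⟨zero_mem _, map_zero _⟩) (fun a b _ => Subsingleton.elim a b) x hx hx0

end FourTerm

end Fermat.Agent.S55
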