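/-
S55 / block COH-1 : the four-term exact sequence of a cyclic cover `u : X' → X` of finite `G`-sets
`0 → Map(X, A) → Map(X', A) -(σ^* - 1)→ Map(X', A) -(fibre sum)→ Map(X, A) → 0`.
-/
import Fermat.Agent.S55.Coh.FourTerm
import Fermat.Agent.S55.Coh.SetDefs

set_option autoImplicit false

namespace Fermat.Agent.S55

variable {G : Type} [Group G]
variable {X' X : Type} [MulAction G X'] [MulAction G X]
variable {u : X' →[G] X} {σ : X' →[G] X'} {m : ℕ}

namespace CyclicCover

theorem map_iterate (h : CyclicCover u σ m) (k : ℕ) (x : X') : u (σ^[k] x) = u x := by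
  induction k with
  | zero => rfl
  | succ k ih => rw [Function.iterate_succ_apply', h.comm, ih]

theorem iterate_inj (h : CyclicCover u σ m) {k l : ℕ} (hk : k < m) (hl : l < m) {x : X'}
    (hkl : σ^[k] x = σ^[l] x) : k = l := by
  by_contra hne
  wlog hlt : k < l generalizing k l
  · exact this hl hk hkl.symm (Ne.symm hne) (lt_of_le_of_ne (not_lt.1 hlt) (Ne.symm hne))
  have h1 : σ^[l - k] (σ^[k] x) = σ^[k] x := by
    rw [← Function.iterate_add_apply, Nat.sub_add_cancel hlt.le, hkl]
  exact h.free _ (l - k) (Nat.sub_pos_of_lt hlt) (lt_of_le_of_lt (Nat.sub_le _ _) hl) h1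

/-- The fibre through `x` is `{x, σ x, …, σ^(m-1) x}`. -/
noncomputable def fibreEquiv (h : CyclicCover u σ m) (x : X') : Fin m ≃ {y : X' // u y = u x} :=
  Equiv.ofBijective (fun k => ⟨σ^[k] x, h.map_iterate k x⟩) (by
    constructor
    · intro k l hkl
      exact Fin.ext (h.iterate_inj k.2 l.2 (congrArg Subtype.val hkl))
    · rintro ⟨y, hy⟩
      obtain ⟨k, hk, hky⟩ := h.trans x y hy.symm
      exact ⟨⟨k, hk⟩, Subtype.ext hky⟩)

/-- (COH-G name of `map_iterate`) -/
theorem iterate_comm (h : CyclicCover u σ m) (k : ℕ) (y : X') : u (σ^[k] y) = u y :=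
  h.map_iterate k y

theorem sigma_bijective (h : CyclicCover u σ m) : Function.Bijective σ := by
  obtain ⟨n, rfl⟩ : ∃ n, m = n + 1 := ⟨m - 1, (Nat.sub_add_cancel h.pos).symm⟩
  constructor
  · intro x y hxy
    have h1 := h.pow x
    have h2 := h.pow y
    rw [Function.iterate_succ_apply] at h1 h2
    rw [← h1, ← h2, hxy]
  · intro y
    exact ⟨σ^[n] y, by rw [← Function.iterate_succ_apply' σ, h.pow]⟩

/-- The fibre through `y` is `{y, σ y, …, σ^(m-1) y}` without repetition. -/
theorem fiber_bijective (h : CyclicCover u σ m) (y : X') :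
    Function.Bijective (fun k : Fin m => (⟨σ^[k] y, h.iterate_comm k y⟩ : {z // u z = u y})) :=
  (h.fibreEquiv y).bijective

theorem card_fiber (h : CyclicCover u σ m) (x : X) : Nat.card {y // u y = x} = m := by
  obtain ⟨y, rfl⟩ := h.surj x
  rw [← Nat.card_congr (h.fibreEquiv y), Nat.card_eq_fintype_card, Fintype.card_fin]

variable {A : Type} [AddCommGroup A] [DistribMulAction G A]

/-- The fibre sum as a sum over the powers of `σ`. -/
theorem push_apply_map (h : CyclicCover u σ m) [Finite X'] (f : IndMod X' A) (x : X') :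
    IndMod.push A u f (u x) = ∑ k ∈ Finset.range m, f (σ^[k] x) := by
  rw [IndMod.push_apply, ← finsum_comp_equiv (h.fibreEquiv x), finsum_eq_sum_of_fintype,
    ← Fin.sum_univ_eq_sum_range (fun k => f (σ^[k] x))]
  rfl

variable (A) in
/-- (COH-G form of `push_apply_map`, `A` explicit) -/
theorem push_apply [Finite X'] (h : CyclicCover u σ m) (f : IndMod X' A) (y : X') :
    IndMod.push A u f (u y) = ∑ k ∈ Finset.range m, f (σ^[k] y) :=
  h.push_apply_map f y

theorem push_pull (h : CyclicCover u σ m) [Finite X'] (a : IndMod X A) :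
    IndMod.push A u (IndMod.pull A u a) = m • a := by
  ext x
  obtain ⟨x', rfl⟩ := h.surj x
  rw [h.push_apply_map]
  simp only [IndMod.pull_apply, h.map_iterate, Finset.sum_const, Finset.card_range,
    IndMod.nsmul_apply]

theorem pull_push_apply (h : CyclicCover u σ m) [Finite X'] (f : IndMod X' A) (x : X') :
    IndMod.pull A u (IndMod.push A u f) x = ∑ k ∈ Finset.range m, f (σ^[k] x) := by
  rw [IndMod.pull_apply, h.push_apply_map]

theorem push_sigmaSub (h : CyclicCover u σ m) [Finite X'] (f : IndMod X' A) :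
    IndMod.push A u (IndMod.sigmaSub A σ f) = 0 := by
  ext x
  obtain ⟨x', rfl⟩ := h.surj x
  rw [h.push_apply_map]
  simp only [IndMod.sigmaSub_apply, ← Function.iterate_succ_apply' σ]
  rw [Finset.sum_range_sub (fun k => f (σ^[k] x')), h.pow]
  simp

theorem sigmaSub_pull (h : CyclicCover u σ m) (a : IndMod X A) :
    IndMod.sigmaSub A σ (IndMod.pull A u a) = 0 := by
  ext x
  simp [h.comm]

theorem pull_injective (h : CyclicCover u σ m) : Function.Injective (IndMod.pull A u) := by
  intro a b hab
  ext x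
  obtain ⟨x', rfl⟩ := h.surj x
  exact congrArg (fun f : IndMod X' A => f x') hab

theorem exists_pull_eq (h : CyclicCover u σ m) {f : IndMod X' A}
    (hf : IndMod.sigmaSub A σ f = 0) : ∃ a, IndMod.pull A u a = f := by
  have h1 : ∀ x, f (σ x) = f x := fun x => by
    have := congrArg (fun f : IndMod X' A => f x) hf
    exact sub_eq_zero.1 this
  have h2 : ∀ k x, f (σ^[k] x) = f x := by
    intro k x
    induction k with
    | zero => rfl
    | succ k ih => rw [Function.iterate_succ_apply', h1, ih]
  refine ⟨IndMod.of fun x => f (Function.surjInv h.surj x), ?_⟩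
  ext y
  rw [IndMod.pull_apply, IndMod.of_apply]
  obtain ⟨k, -, hk⟩ := h.trans (Function.surjInv h.surj (u y)) y (Function.surjInv_eq h.surj _)
  conv_rhs => rw [← hk, h2]

theorem push_surjective (h : CyclicCover u σ m) [Finite X'] :
    Function.Surjective (IndMod.push A u) := by
  classical
  intro a
  let s : X → X' := Function.surjInv h.surj
  have hs : ∀ x, u (s x) = x := Function.surjInv_eq h.surj
  refine ⟨IndMod.of fun y => if y = s (u y) then a (u y) else 0, ?_⟩
  ext x
  conv_lhs => rw [← hs x]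
  rw [h.push_apply_map, Finset.sum_eq_single 0]
  · simp [hs]
  · intro k hk hk0
    rw [IndMod.of_apply, if_neg]
    rw [h.map_iterate, hs]
    exact h.free _ k (Nat.pos_of_ne_zero hk0) (Finset.mem_range.1 hk)
  · intro h0
    exact absurd (Finset.mem_range.2 h.pos) h0

theorem exists_sigmaSub_eq (h : CyclicCover u σ m) [Finite X'] {f : IndMod X' A}
    (hf : IndMod.push A u f = 0) : ∃ f', IndMod.sigmaSub A σ f' = f := by
  classical
  let s : X → X' := Function.surjInv h.surj
  have hs : ∀ x, u (s x) = x := Function.surjInv_eq h.surj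
  have hex : ∀ y, ∃ k < m, σ^[k] (s (u y)) = y := fun y => h.trans _ _ (hs _)
  choose κ hκ hκ' using hex
  have huniq : ∀ y k, k < m → σ^[k] (s (u y)) = y → κ y = k := fun y k hk hky =>
    h.iterate_inj (hκ y) hk ((hκ' y).trans hky.symm)
  refine ⟨IndMod.of fun y => ∑ i ∈ Finset.range (κ y), f (σ^[i] (s (u y))), ?_⟩
  ext y
  rw [IndMod.sigmaSub_apply, IndMod.of_apply, IndMod.of_apply, h.comm]
  set b := s (u y) with hb
  have hy : σ^[κ y] b = y := hκ' y
  have hσy : σ^[κ y + 1] b = σ y := by rw [Function.iterate_succ_apply', hy]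
  rcases Nat.lt_or_ge (κ y + 1) m with hlt | hge
  · have h1 : κ (σ y) = κ y + 1 := huniq _ _ hlt (by rw [h.comm]; exact hσy)
    rw [h1, Finset.sum_range_succ, add_sub_cancel_left, hy]
  · have hm : κ y + 1 = m := le_antisymm (hκ y) hge
    have h1 : κ (σ y) = 0 := huniq _ _ h.pos (by
      rw [h.comm]
      show b = σ y
      rw [← hσy, hm, h.pow])
    have h2 : ∑ i ∈ Finset.range m, f (σ^[i] b) = 0 := by
      rw [← h.push_apply_map, hf]
      rfl
    rw [← hm, Finset.sum_range_succ, hy] at h2
    rw [h1, Finset.sum_range_zero, zero_sub]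
    rw [eq_neg_of_add_eq_zero_left h2, neg_neg]

variable (A) in
/-- `0 → Map(X, A) → Map(X', A) → W → 0`. -/
theorem shortExact_left (h : CyclicCover u σ m) :
    ShortExact (IndMod.pull A u) (GSub.rangeRestrict (IndMod.sigmaSub A σ)) where
  inj := h.pull_injective
  exact f := by
    constructor
    · intro hf
      apply h.exists_pull_eq
      have := congrArg (GSub.range (IndMod.sigmaSub A σ)).incl hf
      rwa [GSub.incl_rangeRestrict, map_zero] at this
    · rintro ⟨a, rfl⟩
      apply (GSub.range (IndMod.sigmaSub A σ)).incl_injective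
      rw [GSub.incl_rangeRestrict, map_zero, h.sigmaSub_pull]
  surj := GSub.rangeRestrict_surjective _

variable (A) in
/-- `0 → W → Map(X', A) → Map(X, A) → 0`. -/
theorem shortExact_right [Finite X'] (h : CyclicCover u σ m) :
    ShortExact (GSub.range (IndMod.sigmaSub A σ)).inclG (IndMod.push A u) where
  inj := GSub.inclG_injective _
  exact f := by
    constructor
    · intro hf
      obtain ⟨f', rfl⟩ := h.exists_sigmaSub_eq hf
      exact ⟨GSub.rangeRestrict _ f', rfl⟩
    · rintro ⟨w, rfl⟩
      obtain ⟨f', hf'⟩ := (GSub.range (IndMod.sigmaSub A σ)).incl_mem w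
      rw [GSub.inclG_apply, ← hf']
      exact h.push_sigmaSub f'
  surj := h.push_surjective

variable (A) in
/-- The four-term exact sequence of a cyclic cover. -/
theorem fourTerm (h : CyclicCover u σ m) [Finite X'] :
    FourTerm (IndMod.pull A u) (GSub.rangeRestrict (IndMod.sigmaSub A σ))
      (GSub.range (IndMod.sigmaSub A σ)).inclG (IndMod.push A u) :=
  ⟨h.shortExact_left A, h.shortExact_right A⟩

/-- `ι ∘ π = σ^* - 1`. -/
theorem inclG_rangeRestrict (f : IndMod X' A) :
    (GSub.range (IndMod.sigmaSub A σ)).inclG (GSub.rangeRestrict (IndMod.sigmaSub A σ) f) =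
      IndMod.sigmaSub A σ f := rfl

end CyclicCover

end Fermat.Agent.S55
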