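/-
S55 / block COH-2, section COH-D (owner helper288): functoriality of `Hsm.pmap`, `Hsm.res`,
`Hsm.refine`.
-/
import Fermat.Agent.S55.Coh.H0
import Fermat.Agent.S55.Coh.Res

set_option autoImplicit false

namespace Fermat.Agent.S55

variable {G H K : Type} [Group G] [Group H] [Group K]

section D

variable {𝓝G : LevelSys G} {𝓝H : LevelSys H} {𝓝K : LevelSys K}
variable {A : Type} [AddCommGroup A] [DistribMulAction G A]
variable {A' : Type} [AddCommGroup A'] [DistribMulAction G A']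
variable {B : Type} [AddCommGroup B] [DistribMulAction H B]
variable {B' : Type} [AddCommGroup B'] [DistribMulAction H B']
variable {C : Type} [AddCommGroup C] [DistribMulAction K C]

theorem Hsm.pmap_congr (f : H →* G) (hf : (𝓝G.comap f).Le 𝓝H) {φ φ' : A →+ B}
    (hφ : ∀ (h : H) (a : A), φ (f h • a) = h • φ a)
    (hφ' : ∀ (h : H) (a : A), φ' (f h • a) = h • φ' a) (h : ∀ a, φ a = φ' a) (n : ℕ) :
    Hsm.pmap f hf φ hφ n = Hsm.pmap f hf φ' hφ' n := by
  have : φ = φ' := DFunLike.ext _ _ h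
  subst this
  rfl

theorem Hsm.pmap_pmap (f : H →* G) (hf : (𝓝G.comap f).Le 𝓝H) (φ : A →+ B)
    (hφ : ∀ (h : H) (a : A), φ (f h • a) = h • φ a)
    (e : K →* H) (he : (𝓝H.comap e).Le 𝓝K) (ψ : B →+ C)
    (hψ : ∀ (k : K) (b : B), ψ (e k • b) = k • ψ b) (n : ℕ) (x : Hsm 𝓝G A n) :
    Hsm.pmap e he ψ hψ n (Hsm.pmap f hf φ hφ n x) =
      Hsm.pmap (f.comp e) (LevelSys.comap_comp_le hf he) (ψ.comp φ)
        (fun k a => by
          show ψ (φ (f (e k) • a)) = k • ψ (φ a)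
          rw [hφ, hψ]) n x := by
  induction x using Hsm.induction_on with
  | h z => rfl

theorem Hsm.map_eq_pmap (φ : A →+[G] A') (n : ℕ) :
    Hsm.map (𝓝 := 𝓝G) φ n = Hsm.pmap (MonoidHom.id G)
      (LevelSys.comap_id_le (LevelSys.Le.refl 𝓝G)) (φ : A →+ A') (fun g a => map_smul φ g a) n := by
  ext x
  induction x using Hsm.induction_on with
  | h z => rfl

/-- `pmap` after a coefficient map. -/
theorem Hsm.pmap_map (f : H →* G) (hf : (𝓝G.comap f).Le 𝓝H) (φ : A' →+ B)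
    (hφ : ∀ (h : H) (a : A'), φ (f h • a) = h • φ a) (α : A →+[G] A') (n : ℕ) (x : Hsm 𝓝G A n) :
    Hsm.pmap f hf φ hφ n (Hsm.map α n x) =
      Hsm.pmap f hf (φ.comp (α : A →+ A'))
        (fun h a => by
          show φ (α (f h • a)) = h • φ (α a)
          rw [map_smul, hφ]) n x := by
  induction x using Hsm.induction_on with
  | h z => rfl

/-- A coefficient map after `pmap`. -/
theorem Hsm.map_pmap (f : H →* G) (hf : (𝓝G.comap f).Le 𝓝H) (φ : A →+ B)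
    (hφ : ∀ (h : H) (a : A), φ (f h • a) = h • φ a) (β : B →+[H] B') (n : ℕ) (x : Hsm 𝓝G A n) :
    Hsm.map β n (Hsm.pmap f hf φ hφ n x) =
      Hsm.pmap f hf ((β : B →+ B').comp φ)
        (fun h a => by
          show β (φ (f h • a)) = h • β (φ a)
          rw [hφ, map_smul]) n x := by
  induction x using Hsm.induction_on with
  | h z => rfl

theorem Hsm.res_map (f : H →* G) (hf : (𝓝G.comap f).Le 𝓝H) (α : A →+[G] A') (n : ℕ)
    (x : Hsm 𝓝G A n) :
    Hsm.res A' f 𝓝H 𝓝G hf n (Hsm.map α n x) =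
      Hsm.map (ResMod.map f α) n (Hsm.res A f 𝓝H 𝓝G hf n x) := by
  induction x using Hsm.induction_on with
  | h z => rfl

theorem Hsm.refine_map {𝓝 𝓝' : LevelSys G} (h : 𝓝.Le 𝓝') (α : A →+[G] A') (n : ℕ)
    (x : Hsm 𝓝 A n) :
    Hsm.refine A' h n (Hsm.map α n x) = Hsm.map α n (Hsm.refine A h n x) := by
  induction x using Hsm.induction_on with
  | h z => rfl

theorem Hsm.refine_refl (𝓝 : LevelSys G) (n : ℕ) (x : Hsm 𝓝 A n) :
    Hsm.refine A (LevelSys.Le.refl 𝓝) n x = x := by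
  induction x using Hsm.induction_on with
  | h z => rfl

theorem Hsm.refine_refine {𝓝 𝓝' 𝓝'' : LevelSys G} (h : 𝓝.Le 𝓝') (h' : 𝓝'.Le 𝓝'') (n : ℕ)
    (x : Hsm 𝓝 A n) :
    Hsm.refine A h' n (Hsm.refine A h n x) = Hsm.refine A (h.trans h') n x := by
  induction x using Hsm.induction_on with
  | h z => rfl

/-- Restriction is compatible with refinement. -/
theorem Hsm.res_refine (f : H →* G) {𝓝 𝓝' : LevelSys G} (h : 𝓝.Le 𝓝')
    (hf' : (𝓝'.comap f).Le 𝓝H) (n : ℕ) (x : Hsm 𝓝 A n) :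
    Hsm.res A f 𝓝H 𝓝' hf' n (Hsm.refine A h n x) =
      Hsm.res A f 𝓝H 𝓝 ((h.comap f).trans hf') n x := by
  induction x using Hsm.induction_on with
  | h z => rfl

theorem Hsm.refine_mk {𝓝 𝓝' : LevelSys G} (h : 𝓝.Le 𝓝') (n : ℕ) (z : Zsm 𝓝 A n) :
    ∃ hz : (z : (Fin n → G) → A) ∈ Zsm 𝓝' A n,
      Hsm.refine A h n (Hsm.mk 𝓝 A n z) = Hsm.mk 𝓝' A n ⟨z, hz⟩ :=
  ⟨(Zsm.pmap (MonoidHom.id G) (LevelSys.comap_id_le h) (AddMonoidHom.id A)
    (fun _ _ => rfl) n z).2, rfl⟩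

theorem Hsm.refine_bijective_zero {𝓝 𝓝' : LevelSys G} (h : 𝓝.Le 𝓝') :
    Function.Bijective (Hsm.refine A h 0) := by
  constructor
  · rw [injective_iff_map_eq_zero]
    intro x hx
    induction x using Hsm.induction_on with
    | h z =>
      obtain ⟨hz, hr⟩ := Hsm.refine_mk h 0 z
      rw [hr, Hsm.mk_eq_zero_iff, mem_Bsm_zero] at hx
      rw [Hsm.mk_eq_zero_iff, mem_Bsm_zero]
      exact hx
  · intro y
    induction y using Hsm.induction_on with
    | h z =>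
      exact ⟨Hsm.mk 𝓝 A 0 ⟨z, mem_Zsm_zero.2 (mem_Zsm_zero.1 z.2)⟩, rfl⟩

theorem Hsm.refine_injective_one {𝓝 𝓝' : LevelSys G} (h : 𝓝.Le 𝓝') :
    Function.Injective (Hsm.refine A h 1) := by
  rw [injective_iff_map_eq_zero]
  intro x hx
  induction x using Hsm.induction_on with
  | h z =>
    obtain ⟨hz, hr⟩ := Hsm.refine_mk h 1 z
    rw [hr, Hsm.mk_eq_zero_iff] at hx
    rw [Hsm.mk_eq_zero_iff]
    obtain ⟨e, -, he⟩ := hx
    exact ⟨e, mem_Csm_zero e, he⟩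

end D

end Fermat.Agent.S55
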