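/-
S55 / block COH-2, section COH-H : the double connecting homomorphism `θ_σ` of a cyclic cover:
kernel = norms, image = kernel of the restriction, naturality in the coefficients, `m • θ = 0`.
-/
import Fermat.Agent.S55.Coh.Cyclic

set_option autoImplicit false

namespace Fermat.Agent.S55

variable {G : Type} [Group G]

section aux

variable {X' : Type} [MulAction G X'] {A : Type} [AddCommGroup A] [DistribMulAction G A]
  {B : Type} [AddCommGroup B] [DistribMulAction G B]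

/-- `σ^* - 1` commutes with a change of coefficients. -/
theorem IndMod.mapCoeff_sigmaSub (σ : X' →[G] X') (φ : A →+[G] B) (f : IndMod X' A) :
    IndMod.mapCoeff X' φ (IndMod.sigmaSub A σ f) =
      IndMod.sigmaSub B σ (IndMod.mapCoeff X' φ f) := by
  ext x
  simp only [IndMod.mapCoeff_apply, IndMod.sigmaSub_apply, map_sub]

/-- The map induced by a change of coefficients on `W = im(σ^* - 1)`. -/
def IndMod.WMod.mapCoeff (σ : X' →[G] X') (φ : A →+[G] B) :
    IndMod.WMod A σ →+[G] IndMod.WMod B σ :=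
  GSub.codRestrict (GSub.range (IndMod.sigmaSub B σ))
    ((IndMod.mapCoeff X' φ).comp (GSub.range (IndMod.sigmaSub A σ)).inclG) (by
      intro w
      obtain ⟨f, hf⟩ := (GSub.range (IndMod.sigmaSub A σ)).incl_mem w
      exact ⟨IndMod.mapCoeff X' φ f,
        (IndMod.mapCoeff_sigmaSub σ φ f).symm.trans (congrArg (IndMod.mapCoeff X' φ) hf)⟩)

end aux

variable (𝓝 : LevelSys G)
variable {X' X : Type} [MulAction G X'] [MulAction G X] {u : X' →[G] X} {σ : X' →[G] X'} {m : ℕ}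
variable (A : Type) [AddCommGroup A] [DistribMulAction G A]

/-- `θ_σ : H^n(Map(X, A)) → H^(n+2)(Map(X, A))`. -/
noncomputable def CyclicCover.theta [Finite X'] [SmoothSet 𝓝 X'] [Smooth 𝓝 A]
    (h : CyclicCover u σ m) (n : ℕ) : Hsm 𝓝 (IndMod X A) n →+ Hsm 𝓝 (IndMod X A) (n + 2) :=
  (Hsm.delta (h.shortExact_left (A := A)) (n + 1)).comp
    (Hsm.delta (h.shortExact_right (A := A)) n)

variable [Finite X'] [SmoothSet 𝓝 X'] [Smooth 𝓝 A]

/-- `θ_σ` is the double connecting map of the four term sequence of the cover. -/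
theorem CyclicCover.theta_eq_fourTerm (h : CyclicCover u σ m) (n : ℕ) :
    h.theta 𝓝 A n = (h.fourTerm A).theta (𝓝 := 𝓝) n := rfl

theorem CyclicCover.theta_push (h : CyclicCover u σ m) (n : ℕ) (y : Hsm 𝓝 (IndMod X' A) n) :
    h.theta 𝓝 A n (Hsm.map (IndMod.push A u) n y) = 0 :=
  (h.fourTerm A).theta_map n y

theorem CyclicCover.pull_theta (h : CyclicCover u σ m) (n : ℕ) (x : Hsm 𝓝 (IndMod X A) n) :
    Hsm.map (IndMod.pull A u) (n + 2) (h.theta 𝓝 A n x) = 0 :=
  (h.fourTerm A).map_theta n x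

/-- If `H^(n+1)(Map(X', A)) = 0` then `ker θ = im(cor)`. -/
theorem CyclicCover.theta_eq_zero_iff (h : CyclicCover u σ m) (n : ℕ)
    (hvan : ∀ y : Hsm 𝓝 (IndMod X' A) (n + 1), y = 0) (x : Hsm 𝓝 (IndMod X A) n) :
    h.theta 𝓝 A n x = 0 ↔ ∃ y, Hsm.map (IndMod.push A u) n y = x :=
  (h.fourTerm A).theta_eq_zero_iff n hvan x

/-- If `H^(n+1)(Map(X', A)) = 0` then `im θ = ker(res)`. -/
theorem CyclicCover.exists_theta_eq_iff (h : CyclicCover u σ m) (n : ℕ)
    (hvan : ∀ y : Hsm 𝓝 (IndMod X' A) (n + 1), y = 0) (z : Hsm 𝓝 (IndMod X A) (n + 2)) :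
    (∃ x, h.theta 𝓝 A n x = z) ↔ Hsm.map (IndMod.pull A u) (n + 2) z = 0 :=
  (h.fourTerm A).mem_range_theta_iff n hvan z

/-- Naturality of `θ` in the coefficients. -/
theorem CyclicCover.theta_mapCoeff {B : Type} [AddCommGroup B] [DistribMulAction G B] [Smooth 𝓝 B]
    (h : CyclicCover u σ m) (φ : A →+[G] B) (n : ℕ) (x : Hsm 𝓝 (IndMod X A) n) :
    h.theta 𝓝 B n (Hsm.map (IndMod.mapCoeff X φ) n x) =
      Hsm.map (IndMod.mapCoeff X φ) (n + 2) (h.theta 𝓝 A n x) := by
  refine FourTerm.theta_naturality (h.fourTerm A) (h.fourTerm B) (IndMod.mapCoeff X φ)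
    (IndMod.mapCoeff X' φ) (IndMod.WMod.mapCoeff σ φ) ?_ ?_ ?_ ?_ n x
  · intro a
    ext y
    rfl
  · intro b
    apply (GSub.range (IndMod.sigmaSub B σ)).incl_injective
    rw [GSub.incl_rangeRestrict, ← IndMod.mapCoeff_sigmaSub]
    rfl
  · intro c
    rfl
  · intro b
    ext x
    obtain ⟨y, rfl⟩ := h.surj x
    rw [IndMod.mapCoeff_apply, h.push_apply_map, h.push_apply_map, map_sum]
    rfl

/-- `m • θ = 0`. -/
theorem CyclicCover.nsmul_theta (h : CyclicCover u σ m) (n : ℕ) (x : Hsm 𝓝 (IndMod X A) n) :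
    m • h.theta 𝓝 A n x = 0 := by
  rw [← Hsm.map_nsmul' (χ := (IndMod.push A u).comp (IndMod.pull A u)) m
    (fun a => h.push_pull a) (n + 2), Hsm.map_comp, CyclicCover.pull_theta 𝓝 A h, map_zero]

end Fermat.Agent.S55
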