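/-
S55 / block COH-2, section COH-E : `pmap`, `res`, `refine` commute with the connecting homomorphism.
-/
import Fermat.Agent.S55.Coh.LESExact
import Fermat.Agent.S55.Coh.Res

set_option autoImplicit false

namespace Fermat.Agent.S55

variable {G H K : Type} [Group G] [Group H] [Group K]

/-- `Res` is exact (local copy; the official name `ResMod.shortExact_map` lives in `Coh/IndApi.lean`). -/
theorem ResMod.shortExact_map' (f : H →* G) {A B C : Type}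
    [AddCommGroup A] [DistribMulAction G A] [AddCommGroup B] [DistribMulAction G B]
    [AddCommGroup C] [DistribMulAction G C] {φ : A →+[G] B} {ψ : B →+[G] C}
    (h : ShortExact φ ψ) : ShortExact (ResMod.map f φ) (ResMod.map f ψ) where
  inj := fun _ _ haa' => h.inj haa'
  exact := fun b => h.exact b
  surj := fun c => h.surj c

section E

variable {𝓝G : LevelSys G} {𝓝H : LevelSys H}
variable {A B C : Type} [AddCommGroup A] [DistribMulAction G A] [AddCommGroup B]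
  [DistribMulAction G B] [AddCommGroup C] [DistribMulAction G C]
variable {A' B' C' : Type} [AddCommGroup A'] [DistribMulAction H A'] [AddCommGroup B']
  [DistribMulAction H B'] [AddCommGroup C'] [DistribMulAction H C']

theorem DeltaRel.pmap (f : H →* G) (hf : (𝓝G.comap f).Le 𝓝H)
    {φ : A →+[G] B} {ψ : B →+[G] C} {φ' : A' →+[H] B'} {ψ' : B' →+[H] C'}
    (α : A →+ A') (β : B →+ B') (γ : C →+ C')
    (hβ : ∀ (h : H) (b : B), β (f h • b) = h • β b)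
    (hl : ∀ a, β (φ a) = φ' (α a)) (hr : ∀ b, γ (ψ b) = ψ' (β b)) {n : ℕ}
    {c : (Fin n → G) → C} {a : (Fin (n + 1) → G) → A} (h : DeltaRel 𝓝G φ ψ n c a) :
    DeltaRel 𝓝H φ' ψ' n (pcmap f γ n c) (pcmap f α (n + 1) a) := by
  obtain ⟨b, hb, rfl, hab⟩ := h
  refine ⟨pcmap f β n b, pcmap_mem_Csm f hf β hb, ?_, ?_⟩
  · funext g
    exact (hr _).symm
  · rw [dd_pcmap f β hβ, ← hab]
    funext g
    exact (hl _).symm

theorem Hsm.delta_pmap [Smooth 𝓝G B] [Smooth 𝓝H B'] (f : H →* G) (hf : (𝓝G.comap f).Le 𝓝H)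
    {φ : A →+[G] B} {ψ : B →+[G] C} {φ' : A' →+[H] B'} {ψ' : B' →+[H] C'}
    (h : ShortExact φ ψ) (h' : ShortExact φ' ψ')
    (α : A →+ A') (β : B →+ B') (γ : C →+ C')
    (hα : ∀ (h : H) (a : A), α (f h • a) = h • α a)
    (hβ : ∀ (h : H) (b : B), β (f h • b) = h • β b)
    (hγ : ∀ (h : H) (c : C), γ (f h • c) = h • γ c)
    (hl : ∀ a, β (φ a) = φ' (α a)) (hr : ∀ b, γ (ψ b) = ψ' (β b)) (n : ℕ) (y : Hsm 𝓝G C n) :
    Hsm.delta h' n (Hsm.pmap f hf γ hγ n y) = Hsm.pmap f hf α hα (n + 1) (Hsm.delta h n y) := by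
  induction y using Hsm.induction_on with
  | h z =>
    obtain ⟨a, hrel, ha⟩ := Hsm.exists_delta_mk h z
    rw [ha, Hsm.pmap_mk, Hsm.pmap_mk]
    exact Hsm.delta_mk h' _ _ (hrel.pmap f hf α β γ hβ hl hr)

theorem Hsm.delta_res' [Smooth 𝓝G B] (f : H →* G) [Smooth 𝓝H (ResMod f B)]
    (hf : (𝓝G.comap f).Le 𝓝H) {φ : A →+[G] B} {ψ : B →+[G] C} (h : ShortExact φ ψ)
    (h' : ShortExact (ResMod.map f φ) (ResMod.map f ψ)) (n : ℕ)
    (y : Hsm 𝓝G C n) :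
    Hsm.delta h' n (Hsm.res C f 𝓝H 𝓝G hf n y) =
      Hsm.res A f 𝓝H 𝓝G hf (n + 1) (Hsm.delta h n y) :=
  Hsm.delta_pmap f hf h h' _ (ResMod.toRes f : B ≃+ ResMod f B).toAddMonoidHom _ _
    (fun x b => (ResMod.smul_def f x b).symm) _ (fun _ => rfl) (fun _ => rfl) n y

theorem Hsm.delta_res [Smooth 𝓝G B] (f : H →* G) [Smooth 𝓝H (ResMod f B)]
    (hf : (𝓝G.comap f).Le 𝓝H) {φ : A →+[G] B} {ψ : B →+[G] C} (h : ShortExact φ ψ) (n : ℕ)
    (y : Hsm 𝓝G C n) :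
    Hsm.delta (ResMod.shortExact_map' f h) n (Hsm.res C f 𝓝H 𝓝G hf n y) =
      Hsm.res A f 𝓝H 𝓝G hf (n + 1) (Hsm.delta h n y) :=
  Hsm.delta_res' f hf h _ n y

theorem Hsm.delta_refine {𝓝 𝓝' : LevelSys G} (hle : 𝓝.Le 𝓝') [Smooth 𝓝 B] [Smooth 𝓝' B]
    {φ : A →+[G] B} {ψ : B →+[G] C} (h : ShortExact φ ψ) (n : ℕ) (y : Hsm 𝓝 C n) :
    Hsm.delta (𝓝 := 𝓝') h n (Hsm.refine C hle n y) =
      Hsm.refine A hle (n + 1) (Hsm.delta (𝓝 := 𝓝) h n y) :=
  Hsm.delta_pmap (MonoidHom.id G) (LevelSys.comap_id_le hle) h h _ (AddMonoidHom.id B) _ _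
    (fun _ _ => rfl) _ (fun _ => rfl) (fun _ => rfl) n y

end E

end Fermat.Agent.S55
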