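/-
S55 / block COH-1 : change of group (`Hsm.res`, `Hsm.refine`) commutes with `theta`.
-/
import Fermat.Agent.S55.Coh.FourTerm
import Fermat.Agent.S55.Coh.ResDelta

set_option autoImplicit false

namespace Fermat.Agent.S55

variable {G H : Type} [Group G] [Group H]
variable {𝓝G : LevelSys G} {𝓝H : LevelSys H}
variable {P : Type} [AddCommGroup P] [DistribMulAction G P]
variable {Q : Type} [AddCommGroup Q] [DistribMulAction G Q]
variable {W : Type} [AddCommGroup W] [DistribMulAction G W]
variable {i : P →+[G] Q} {π : Q →+[G] W} {ι : W →+[G] Q} {ν : Q →+[G] P}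

/-- `ResMod f B` is smooth for every level system finer than the pulled back one. -/
theorem ResMod.smooth_of_le (f : H →* G) (hf : (𝓝G.comap f).Le 𝓝H) [Smooth 𝓝G Q] :
    Smooth 𝓝H (ResMod f Q) := Smooth.of_le hf

/-- Restriction of a four-term sequence along `f : H →* G`. -/
theorem FourTerm.res (h : FourTerm i π ι ν) (f : H →* G) :
    FourTerm (ResMod.map f i) (ResMod.map f π) (ResMod.map f ι) (ResMod.map f ν) :=
  ⟨ResMod.shortExact_map' f h.left, ResMod.shortExact_map' f h.right⟩

/-- Restriction commutes with `theta`. -/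
theorem FourTerm.res_theta (f : H →* G) (hf : (𝓝G.comap f).Le 𝓝H) [Smooth 𝓝G Q]
    [Smooth 𝓝H (ResMod f Q)] (h : FourTerm i π ι ν) (n : ℕ) (x : Hsm 𝓝G P n) :
    (h.res f).theta n (Hsm.res P f 𝓝H 𝓝G hf n x) =
      Hsm.res P f 𝓝H 𝓝G hf (n + 2) (h.theta n x) := by
  rw [FourTerm.theta_apply, FourTerm.theta_apply, ← Hsm.delta_res' f hf h.left (h.res f).left,
    ← Hsm.delta_res' f hf h.right (h.res f).right]

/-- Refinement of the level system commutes with `theta`. -/
theorem FourTerm.refine_theta {𝓝 𝓝' : LevelSys G} (hle : 𝓝.Le 𝓝') [Smooth 𝓝 Q] [Smooth 𝓝' Q]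
    (h : FourTerm i π ι ν) (n : ℕ) (x : Hsm 𝓝 P n) :
    h.theta n (Hsm.refine P hle n x) = Hsm.refine P hle (n + 2) (h.theta n x) := by
  rw [FourTerm.theta_apply, FourTerm.theta_apply, ← Hsm.delta_refine hle h.left,
    ← Hsm.delta_refine hle h.right]

end Fermat.Agent.S55
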