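/-
S55 / block COH-2, task COH-F45 : an `H`-set with small stabilisers maps to a coset space (F4);
effaceability of the restriction to `H` inside the category of `G`-modules (F5).
-/
import Fermat.Agent.S55.Coh.Efface
import Fermat.Agent.S55.Coh.Res

set_option autoImplicit false

namespace Fermat.Agent.S55

variable {G H : Type} [Group G] [Group H]

section F

/-- F4: an `H`-set all of whose stabilisers are contained in `V` maps to `H ⧸ V`. -/
theorem exists_equivariant_to_coset {Y : Type} [MulAction H Y] (V : Subgroup H)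
    (hV : ∀ (y : Y) (h : H), h • y = y → h ∈ V) : Nonempty (Y →[H] (H ⧸ V)) := by
  classical
  -- a representative of the orbit of `y`
  let rep : Y → Y := fun y => (Quotient.mk (MulAction.orbitRel H Y) y).out
  have hrep : ∀ y, ∃ h : H, h • rep y = y := by
    intro y
    have h1 : (MulAction.orbitRel H Y) (rep y) y := Quotient.mk_out (s := MulAction.orbitRel H Y) y
    rw [MulAction.orbitRel_apply] at h1
    obtain ⟨h, hh⟩ := h1
    exact ⟨h⁻¹, by rw [← hh, inv_smul_smul]⟩
  have hrep_smul : ∀ (g : H) (y : Y), rep (g • y) = rep y := by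
    intro g y
    have : Quotient.mk (MulAction.orbitRel H Y) (g • y) = Quotient.mk (MulAction.orbitRel H Y) y :=
      Quotient.sound (by
        show (MulAction.orbitRel H Y) (g • y) y
        rw [MulAction.orbitRel_apply]
        exact ⟨g, rfl⟩)
    show (Quotient.mk (MulAction.orbitRel H Y) (g • y)).out = _
    rw [this]
  choose c hc using hrep
  refine ⟨{ toFun := fun y => ((c y : H) : H ⧸ V), map_smul' := ?_ }⟩
  intro g y
  show ((c (g • y) : H) : H ⧸ V) = ((g * c y : H) : H ⧸ V)
  rw [QuotientGroup.eq]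
  apply hV (rep y)
  have h1 := hc (g • y)
  rw [hrep_smul] at h1
  rw [mul_smul, mul_smul, hc y, inv_smul_eq_iff, h1]

variable (𝓝 : LevelSys G)

variable {A : Type} [AddCommGroup A] [DistribMulAction G A]

/-- F5: effaceability of the restriction to `H`, inside the category of `G`-modules. -/
theorem Hsm.efface_res [Smooth 𝓝 A] (f : H →* G) (n : ℕ)
    (s : Hsm (𝓝.comap f) (ResMod f A) (n + 1)) :
    ∃ N ∈ 𝓝.carrier, Hsm.map (ResMod.map f (IndMod.const (G ⧸ N) A)) (n + 1) s = 0 := by
  obtain ⟨V, ⟨N, hN, rfl⟩, hs⟩ := Hsm.efface n s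
  have hnorm := 𝓝.normal N hN
  refine ⟨N, hN, ?_⟩
  obtain ⟨ρ⟩ := exists_equivariant_to_coset (Y := ResSet f (G ⧸ N)) (N.comap f) (by
    intro y h hy
    have h1 : f h • y.val = y.val := congrArg ResSet.val hy
    obtain ⟨x, hx⟩ := QuotientGroup.mk_surjective y.val
    rw [← hx] at h1
    have h2 : ((f h * x : G) : G ⧸ N) = (x : G ⧸ N) := h1
    rw [eq_comm, QuotientGroup.eq] at h2
    -- `x⁻¹ * (f h * x) ∈ N`
    have h3 := hnorm.conj_mem _ h2 x
    have h4 : x * (x⁻¹ * (f h * x)) * x⁻¹ = f h := by group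
    rw [h4] at h3
    exact h3)
  have h1 := Hsm.efface_mono ρ (n + 1) s hs
  rw [Hsm.map_comp' (ψ := IndMod.ofResSet f (G ⧸ N) A)
    (φ := IndMod.const (ResSet f (G ⧸ N)) (ResMod f A)) (fun a => rfl), h1, _root_.map_zero]

end F

end Fermat.Agent.S55
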