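/-
S55 / block COH-2 : more constructions on `G`-sets: functoriality of `ResSet`, fibre products
(`PullSet w u = Y ×_X X'`), products.  Definitions, instances and defining lemmas only.
-/
import Fermat.Agent.S55.Coh.SetDefs

set_option autoImplicit false

namespace Fermat.Agent.S55

variable {G H : Type} [Group G] [Group H]

/-! ### Functoriality of `ResSet` -/

/-- An equivariant map of `G`-sets, regarded as a map of `H`-sets. -/
def ResSet.map (f : H →* G) {X Y : Type} [MulAction G X] [MulAction G Y] (u : Y →[G] X) :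
    ResSet f Y →[H] ResSet f X where
  toFun y := ResSet.of (u y.val)
  map_smul' h y := ResSet.ext (by
    show u (f h • y.val) = f h • u y.val
    exact map_smul u _ _)

@[simp] theorem ResSet.val_map (f : H →* G) {X Y : Type} [MulAction G X] [MulAction G Y]
    (u : Y →[G] X) (y : ResSet f Y) : (ResSet.map f u y).val = u y.val := rfl

theorem ResSet.val_iterate_map (f : H →* G) {X : Type} [MulAction G X] (σ : X →[G] X) (k : ℕ)
    (x : ResSet f X) : ((ResSet.map f σ)^[k] x).val = σ^[k] x.val := by
  induction k generalizing x with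
  | zero => rfl
  | succ k ih =>
    rw [Function.iterate_succ_apply, Function.iterate_succ_apply, ih]
    rfl

/-! ### Products -/

instance instSmoothSetProd (𝓝 : LevelSys G) (X Z : Type) [MulAction G X] [MulAction G Z]
    [SmoothSet 𝓝 X] [SmoothSet 𝓝 Z] : SmoothSet 𝓝 (X × Z) where
  exists_fix p := by
    obtain ⟨N, hN, h⟩ := SmoothSet.exists_fix (𝓝 := 𝓝) p.1
    obtain ⟨N', hN', h'⟩ := SmoothSet.exists_fix (𝓝 := 𝓝) p.2
    obtain ⟨N'', hN'', hle⟩ := 𝓝.directed N hN N' hN'
    exact ⟨N'', hN'', fun n hn => Prod.ext (h n (hle hn).1) (h' n (hle hn).2)⟩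

/-! ### Fibre products -/

/-- The fibre product `Y ×_X X'`. -/
structure PullSet {X X' Y : Type} [MulAction G X] [MulAction G X'] [MulAction G Y]
    (w : Y →[G] X) (u : X' →[G] X) : Type where
  /-- first component -/
  fst : Y
  /-- second component -/
  snd : X'
  /-- compatibility -/
  eq : w fst = u snd

namespace PullSet

variable {X X' Y : Type} [MulAction G X] [MulAction G X'] [MulAction G Y]
  {w : Y →[G] X} {u : X' →[G] X}

@[ext] theorem ext {p q : PullSet w u} (h1 : p.fst = q.fst) (h2 : p.snd = q.snd) : p = q := by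
  cases p; cases q; cases h1; cases h2; rfl

instance : MulAction G (PullSet w u) where
  smul g p := ⟨g • p.fst, g • p.snd, by rw [map_smul w, map_smul u, p.eq]⟩
  one_smul p := ext (one_smul G p.fst) (one_smul G p.snd)
  mul_smul g h p := ext (mul_smul g h p.fst) (mul_smul g h p.snd)

@[simp] theorem fst_smul (g : G) (p : PullSet w u) : (g • p).fst = g • p.fst := rfl
@[simp] theorem snd_smul (g : G) (p : PullSet w u) : (g • p).snd = g • p.snd := rfl

theorem toProd_injective :
    Function.Injective (fun p : PullSet w u => (p.fst, p.snd)) := fun _ _ h =>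
  ext (congrArg Prod.fst h) (congrArg Prod.snd h)

instance [Finite Y] [Finite X'] : Finite (PullSet w u) := Finite.of_injective _ toProd_injective

instance (𝓝 : LevelSys G) [SmoothSet 𝓝 Y] [SmoothSet 𝓝 X'] : SmoothSet 𝓝 (PullSet w u) where
  exists_fix p := by
    obtain ⟨N, hN, h⟩ := SmoothSet.exists_fix (𝓝 := 𝓝) p.fst
    obtain ⟨N', hN', h'⟩ := SmoothSet.exists_fix (𝓝 := 𝓝) p.snd
    obtain ⟨N'', hN'', hle⟩ := 𝓝.directed N hN N' hN'
    exact ⟨N'', hN'', fun n hn => ext (h n (hle hn).1) (h' n (hle hn).2)⟩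

variable (w u)

/-- The first projection `Y ×_X X' → Y`. -/
def fstHom : PullSet w u →[G] Y where
  toFun := fst
  map_smul' _ _ := rfl

/-- The second projection `Y ×_X X' → X'`. -/
def sndHom : PullSet w u →[G] X' where
  toFun := snd
  map_smul' _ _ := rfl

/-- The self-map `(y, x') ↦ (y, σ x')` attached to a self-map `σ` of `X'` over `X`. -/
def mapSnd (σ : X' →[G] X') (hσ : ∀ x, u (σ x) = u x) : PullSet w u →[G] PullSet w u where
  toFun p := ⟨p.fst, σ p.snd, by rw [hσ, p.eq]⟩
  map_smul' g p := ext rfl (map_smul σ g p.snd)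

variable {w u}

@[simp] theorem fstHom_apply (p : PullSet w u) : fstHom w u p = p.fst := rfl
@[simp] theorem sndHom_apply (p : PullSet w u) : sndHom w u p = p.snd := rfl
@[simp] theorem fst_mapSnd (σ : X' →[G] X') (hσ : ∀ x, u (σ x) = u x) (p : PullSet w u) :
    (mapSnd w u σ hσ p).fst = p.fst := rfl
@[simp] theorem snd_mapSnd (σ : X' →[G] X') (hσ : ∀ x, u (σ x) = u x) (p : PullSet w u) :
    (mapSnd w u σ hσ p).snd = σ p.snd := rfl

end PullSet

end Fermat.Agent.S55
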