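/-
S55 / block COH-2 : general naturality of the double connecting homomorphism `theta`
(different maps at the two ends of the four term sequence), iterates of an equivariant self-map,
cyclic torsors (cyclic covers of the point).  Basis of the "theta calculus".
-/
import Fermat.Agent.S55.Coh.Theta

set_option autoImplicit false

namespace Fermat.Agent.S55

variable {G : Type} [Group G] {𝓝 : LevelSys G}

section general

variable {P Q W P' Q' W' : Type}
  [AddCommGroup P] [DistribMulAction G P] [AddCommGroup Q] [DistribMulAction G Q]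
  [AddCommGroup W] [DistribMulAction G W] [AddCommGroup P'] [DistribMulAction G P']
  [AddCommGroup Q'] [DistribMulAction G Q'] [AddCommGroup W'] [DistribMulAction G W']

/-- Naturality of `theta` for a morphism of four term sequences
`(α₁, β₁, γ, β₂, α₂) : (0 → P → Q → [W] → Q → P → 0) ⟶ (0 → P' → Q' → [W'] → Q' → P' → 0)`. -/
theorem FourTerm.theta_naturality₂ {i : P →+[G] Q} {π : Q →+[G] W} {ι : W →+[G] Q}
    {ν : Q →+[G] P} {i' : P' →+[G] Q'} {π' : Q' →+[G] W'} {ι' : W' →+[G] Q'} {ν' : Q' →+[G] P'}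
    [Smooth 𝓝 Q] [Smooth 𝓝 Q'] (h : FourTerm i π ι ν) (h' : FourTerm i' π' ι' ν')
    (α₁ : P →+[G] P') (β₁ : Q →+[G] Q') (γ : W →+[G] W') (β₂ : Q →+[G] Q') (α₂ : P →+[G] P')
    (h1 : ∀ a, β₁ (i a) = i' (α₁ a)) (h2 : ∀ b, γ (π b) = π' (β₁ b))
    (h3 : ∀ c, β₂ (ι c) = ι' (γ c)) (h4 : ∀ b, α₂ (ν b) = ν' (β₂ b)) (n : ℕ) (x : Hsm 𝓝 P n) :
    h'.theta n (Hsm.map α₂ n x) = Hsm.map α₁ (n + 2) (h.theta n x) := by
  rw [FourTerm.theta_apply, FourTerm.theta_apply,
    Hsm.delta_naturality h.right h'.right γ β₂ α₂ h3 h4,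
    Hsm.delta_naturality h.left h'.left α₁ β₁ γ h1 h2]

/-- Naturality of `theta` for four term sequences `0 → P -i→ Q -s→ Q -ν→ P → 0` cut at
`W = im s`: a morphism is given by `(α₁, β₁, β₂, α₂)` with `β₁ i = i' α₁`, `β₂ s = s' β₁`,
`α₂ ν = ν' β₂`. -/
theorem FourTerm.theta_naturality_range {i : P →+[G] Q} {s : Q →+[G] Q} {ν : Q →+[G] P}
    {i' : P' →+[G] Q'} {s' : Q' →+[G] Q'} {ν' : Q' →+[G] P'} [Smooth 𝓝 Q] [Smooth 𝓝 Q']
    (h : FourTerm i (GSub.rangeRestrict s) (GSub.range s).inclG ν)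
    (h' : FourTerm i' (GSub.rangeRestrict s') (GSub.range s').inclG ν')
    (α₁ α₂ : P →+[G] P') (β₁ β₂ : Q →+[G] Q')
    (h1 : ∀ a, β₁ (i a) = i' (α₁ a)) (h2 : ∀ b, β₂ (s b) = s' (β₁ b))
    (h3 : ∀ b, α₂ (ν b) = ν' (β₂ b)) (n : ℕ) (x : Hsm 𝓝 P n) :
    h'.theta n (Hsm.map α₂ n x) = Hsm.map α₁ (n + 2) (h.theta n x) := by
  have hmem : ∀ w : (GSub.range s).Mod,
      (β₂.comp (GSub.range s).inclG) w ∈ (GSub.range s').toAddSubgroup := by
    intro w
    obtain ⟨b, hb⟩ := (GSub.range s).incl_mem w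
    refine ⟨β₁ b, ?_⟩
    show s' (β₁ b) = β₂ ((GSub.range s).incl w)
    rw [← h2, ← hb]
    rfl
  refine FourTerm.theta_naturality₂ h h' α₁ β₁
    (GSub.codRestrict (GSub.range s') (β₂.comp (GSub.range s).inclG) hmem) β₂ α₂ h1 ?_ ?_ h3 n x
  · intro b
    apply (GSub.range s').incl_injective
    rw [GSub.incl_codRestrict, GSub.incl_rangeRestrict]
    exact h2 b
  · intro c
    rfl

end general

/-! ### Iterates of an equivariant self-map -/

/-- The `k`-th iterate of an equivariant self-map. -/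
def iterHom {X : Type} [MulAction G X] (σ : X →[G] X) (k : ℕ) : X →[G] X where
  toFun := σ^[k]
  map_smul' g x := by
    induction k generalizing x with
    | zero => rfl
    | succ k ih =>
      show σ^[k] (σ (g • x)) = g • σ^[k] (σ x)
      rw [map_smul σ]
      exact ih (σ x)

@[simp] theorem iterHom_apply {X : Type} [MulAction G X] (σ : X →[G] X) (k : ℕ) (x : X) :
    iterHom σ k x = σ^[k] x := rfl

/-! ### Naturality for cyclic covers -/

section covers

variable {X' X Y' Y : Type} [MulAction G X'] [MulAction G X] [MulAction G Y'] [MulAction G Y]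
  {u : X' →[G] X} {σ : X' →[G] X'} {m : ℕ} {v : Y' →[G] Y} {τ : Y' →[G] Y'} {m' : ℕ}
  {A B : Type} [AddCommGroup A] [DistribMulAction G A] [AddCommGroup B] [DistribMulAction G B]

/-- Naturality of `θ` for cyclic covers `X' → X` (coefficients `A`) and `Y' → Y`
(coefficients `B`). -/
theorem CyclicCover.theta_naturality₂ (𝓝 : LevelSys G) [Finite X'] [SmoothSet 𝓝 X'] [Smooth 𝓝 A]
    [Finite Y'] [SmoothSet 𝓝 Y'] [Smooth 𝓝 B] (h : CyclicCover u σ m) (h' : CyclicCover v τ m')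
    (α₁ α₂ : IndMod X A →+[G] IndMod Y B) (β₁ β₂ : IndMod X' A →+[G] IndMod Y' B)
    (h1 : ∀ a, β₁ (IndMod.pull A u a) = IndMod.pull B v (α₁ a))
    (h2 : ∀ f, β₂ (IndMod.sigmaSub A σ f) = IndMod.sigmaSub B τ (β₁ f))
    (h3 : ∀ f, α₂ (IndMod.push A u f) = IndMod.push B v (β₂ f)) (n : ℕ)
    (x : Hsm 𝓝 (IndMod X A) n) :
    h'.theta 𝓝 B n (Hsm.map α₂ n x) = Hsm.map α₁ (n + 2) (h.theta 𝓝 A n x) :=
  FourTerm.theta_naturality_range (h.fourTerm A) (h'.fourTerm B) α₁ α₂ β₁ β₂ h1 h2 h3 n x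

end covers

/-! ### Cyclic torsors = cyclic covers of the point -/

/-- `Y` is a torsor under `⟨σ⟩ ≅ ℤ/m`. -/
structure CyclicTorsor {Y : Type} [MulAction G Y] (σ : Y →[G] Y) (m : ℕ) : Prop where
  pos : 0 < m
  nonempty : Nonempty Y
  pow : ∀ y, σ^[m] y = y
  trans : ∀ x y, ∃ k < m, σ^[k] x = y
  free : ∀ x, ∀ k, 0 < k → k < m → σ^[k] x ≠ x

end Fermat.Agent.S55
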