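/-
S55 / block COH-2, section COH-T7 : restriction of `θ` along `f : H →* G` ("localisation").
-/
import Fermat.Agent.S55.Coh.ThetaNat
import Fermat.Agent.S55.Coh.IndApi
import Fermat.Agent.S55.Coh.SetDefs2
import Fermat.Agent.S55.Coh.ThetaRes

set_option autoImplicit false

namespace Fermat.Agent.S55

variable {G : Type} [Group G] (𝓝 : LevelSys G)

section T7

variable {H : Type} [Group H] (f : H →* G)
variable {X' X : Type} [MulAction G X'] [MulAction G X] {u : X' →[G] X} {σ : X' →[G] X'} {m : ℕ}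

theorem CyclicCover.resSet (h : CyclicCover u σ m) :
    CyclicCover (ResSet.map f u) (ResSet.map f σ) m where
  pos := h.pos
  surj x := by
    obtain ⟨y, hy⟩ := h.surj x.val
    exact ⟨ResSet.of y, ResSet.ext hy⟩
  comm x := ResSet.ext (h.comm x.val)
  pow x := ResSet.ext (by rw [ResSet.val_iterate_map]; exact h.pow x.val)
  trans x y hxy := by
    obtain ⟨k, hk, hky⟩ := h.trans x.val y.val (congrArg ResSet.val hxy)
    exact ⟨k, hk, ResSet.ext (by rw [ResSet.val_iterate_map]; exact hky)⟩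
  free x k hk hkm hx := by
    refine h.free x.val k hk hkm ?_
    rw [← ResSet.val_iterate_map f σ k x, hx]

variable (A : Type) [AddCommGroup A] [DistribMulAction G A]

theorem IndMod.toResSet_pull {Y : Type} [MulAction G Y] (w : Y →[G] X)
    (F : ResMod f (IndMod X A)) :
    IndMod.toResSet f Y A (ResMod.map f (IndMod.pull A w) F) =
      IndMod.pull (ResMod f A) (ResSet.map f w) (IndMod.toResSet f X A F) := by
  ext y
  rfl

theorem IndMod.toResSet_push {Y : Type} [MulAction G Y] [Finite Y] (w : Y →[G] X)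
    (F : ResMod f (IndMod Y A)) :
    IndMod.toResSet f X A (ResMod.map f (IndMod.push A w) F) =
      IndMod.push (ResMod f A) (ResSet.map f w) (IndMod.toResSet f Y A F) := by
  ext x
  rw [IndMod.push_apply]
  show ResMod.toRes f (∑ᶠ y : {y : Y // w y = x.val}, ((ResMod.toRes f).symm F) y.1) = _
  rw [AddEquiv.map_finsum]
  let e : {y : ResSet f Y // ResSet.map f w y = x} ≃ {y : Y // w y = x.val} :=
    { toFun := fun y => ⟨y.1.val, congrArg ResSet.val y.2⟩
      invFun := fun y => ⟨ResSet.of y.1, ResSet.ext y.2⟩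
      left_inv := fun _ => rfl
      right_inv := fun _ => rfl }
  exact (finsum_comp_equiv e
    (f := fun y : {y : Y // w y = x.val} => ResMod.toRes f (((ResMod.toRes f).symm F) y.1))).symm

theorem IndMod.toResSet_sigmaSub (F : ResMod f (IndMod X' A)) :
    IndMod.toResSet f X' A (ResMod.map f (IndMod.sigmaSub A σ) F) =
      IndMod.sigmaSub (ResMod f A) (ResSet.map f σ) (IndMod.toResSet f X' A F) := by
  ext y
  rfl

theorem IndMod.toResSet_const (a : ResMod f A) :
    IndMod.toResSet f X A (ResMod.map f (IndMod.const X A) a) =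
      IndMod.const (G := H) (ResSet f X) (ResMod f A) a := by
  ext y
  rfl

theorem IndMod.sum_toResSet [Finite X] (F : ResMod f (IndMod X A)) :
    IndMod.sum (G := H) (ResSet f X) (ResMod f A) (IndMod.toResSet f X A F) =
      ResMod.map f (IndMod.sum X A) F := by
  rw [IndMod.sum_def]
  show _ = ResMod.toRes f (∑ᶠ x : X, ((ResMod.toRes f).symm F) x)
  rw [AddEquiv.map_finsum]
  exact finsum_comp_equiv (ResSet.equiv f).symm
    (f := fun x : X => ResMod.toRes f (((ResMod.toRes f).symm F) x))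

/-- "Localisation": `H^n(G, Map(X, A)) → H^n(H, Map(Res X, Res A))`. -/
def Hsm.resInd (𝓝H : LevelSys H) (hf : (𝓝.comap f).Le 𝓝H) (X : Type) [MulAction G X] (n : ℕ) :
    Hsm 𝓝 (IndMod X A) n →+ Hsm 𝓝H (IndMod (ResSet f X) (ResMod f A)) n :=
  (Hsm.map (IndMod.toResSet f X A) n).comp (Hsm.res (IndMod X A) f 𝓝H 𝓝 hf n)

variable [Finite X'] [SmoothSet 𝓝 X'] [Smooth 𝓝 A]

/-- `θ` commutes with localisation. -/
theorem CyclicCover.theta_resInd (𝓝H : LevelSys H) (hf : (𝓝.comap f).Le 𝓝H)
    [SmoothSet 𝓝H (ResSet f X')] [Smooth 𝓝H (ResMod f A)] (h : CyclicCover u σ m) (n : ℕ)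
    (x : Hsm 𝓝 (IndMod X A) n) :
    (h.resSet f).theta 𝓝H (ResMod f A) n (Hsm.resInd 𝓝 f A 𝓝H hf X n x) =
      Hsm.resInd 𝓝 f A 𝓝H hf X (n + 2) (h.theta 𝓝 A n x) := by
  have : Smooth 𝓝H (ResMod f (IndMod X' A)) := ResMod.smooth_of_le f hf
  have hmem : ∀ w : ResMod f (IndMod.WMod A σ),
      ((IndMod.toResSet f X' A).comp
        (ResMod.map f (GSub.range (IndMod.sigmaSub A σ)).inclG)) w ∈
        (GSub.range (IndMod.sigmaSub (ResMod f A) (ResSet.map f σ))).toAddSubgroup := by
    intro w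
    obtain ⟨w, rfl⟩ := (ResMod.toRes f).surjective w
    obtain ⟨b, hb⟩ := (GSub.range (IndMod.sigmaSub A σ)).incl_mem w
    refine ⟨IndMod.toResSet f X' A (ResMod.toRes f b), ?_⟩
    show IndMod.sigmaSub (ResMod f A) (ResSet.map f σ)
        (IndMod.toResSet f X' A (ResMod.toRes f b)) =
      IndMod.toResSet f X' A (ResMod.toRes f ((GSub.range (IndMod.sigmaSub A σ)).incl w))
    rw [← IndMod.toResSet_sigmaSub, ← hb]
    rfl
  have key := FourTerm.theta_naturality (𝓝 := 𝓝H) ((h.fourTerm A).res f)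
    ((h.resSet f).fourTerm (ResMod f A)) (IndMod.toResSet f X A) (IndMod.toResSet f X' A)
    (GSub.codRestrict (GSub.range (IndMod.sigmaSub (ResMod f A) (ResSet.map f σ)))
      ((IndMod.toResSet f X' A).comp
        (ResMod.map f (GSub.range (IndMod.sigmaSub A σ)).inclG)) hmem)
    (fun a => IndMod.toResSet_pull f A u a)
    (fun b => by
      apply (GSub.range (IndMod.sigmaSub (ResMod f A) (ResSet.map f σ))).incl_injective
      rw [GSub.incl_codRestrict, GSub.incl_rangeRestrict, ← IndMod.toResSet_sigmaSub]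
      rfl)
    (fun c => rfl)
    (fun b => IndMod.toResSet_push f A u b) n (Hsm.res (IndMod X A) f 𝓝H 𝓝 hf n x)
  rw [FourTerm.res_theta f hf (h.fourTerm A) n x] at key
  exact key

end T7

end Fermat.Agent.S55
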