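/-
S55 / block COH-2, section COH-I : LEMMA H3 (injectivity of the restriction on `H^3(p)` for a cyclic
cover), core form and counting form.
-/
import Fermat.Agent.S55.Coh.Cyclic
import Fermat.Agent.S55.Coh.Efface
import Fermat.Agent.S55.Coh.ShapiroDef
import Fermat.Agent.S55.Coh.H3Abs
import Fermat.Agent.S55.Coh.PPrimary

set_option autoImplicit false
set_option linter.unusedSectionVars false

namespace Fermat.Agent.S55

variable {G : Type} [Group G]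

/-! ### Generalities -/

/-- The image of a subgroup `P` under `f` has `[P : P ∩ ker f]` elements. -/
theorem card_map_eq_relIndex_ker {M N : Type*} [AddCommGroup M] [AddCommGroup N] (f : M →+ N)
    (P : AddSubgroup M) : Nat.card (P.map f) = f.ker.relIndex P := by
  have h1 : f.ker.addSubgroupOf P = (f.comp P.subtype).ker := rfl
  have h2 : (f.comp P.subtype).range = P.map f := by
    rw [AddMonoidHom.range_comp, AddSubgroup.range_subtype]
  rw [AddSubgroup.relIndex, h1, AddSubgroup.index_ker, h2]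

/-- local form of I2 -/
theorem exists_mem_pPrimary_map_eq {p : ℕ} (hp : p.Prime) {M N : Type} [AddCommGroup M]
    [AddCommGroup N] (f : M →+ N) {x : M} (hx : ∃ m : ℕ, 0 < m ∧ m • x = 0)
    (hfx : f x ∈ pPrimary p N) : ∃ y ∈ pPrimary p M, f y = f x :=
  exists_mem_Ppart_map_eq hp f hx hfx

/-! ### The two short exact sequences `0 → P → Q → W → 0`, `0 → W → Q → P → 0` -/

section abs

variable {𝓝 : LevelSys G}
variable {P Q W : Type} [AddCommGroup P] [DistribMulAction G P] [AddCommGroup Q]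
  [DistribMulAction G Q] [AddCommGroup W] [DistribMulAction G W] [Smooth 𝓝 Q]
variable {r : P →+[G] Q} {π : Q →+[G] W} {ι : W →+[G] Q} {c : Q →+[G] P} {s : Q →+[G] Q}

/-- LEMMA H3, core form, for two abstract short exact sequences. -/
theorem h3_core (hL : ShortExact r π) (hR : ShortExact ι c) (hs : ∀ y, s y = ι (π y))
    {p : ℕ} (hp : p.Prime) (n : ℕ)
    (h1 : ∀ y ∈ pPrimary p (Hsm 𝓝 Q (n + 2)), Hsm.map c (n + 2) y = 0 →
      ∃ y', Hsm.map s (n + 2) y' = y)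
    (h2 : ∀ z ∈ pPrimary p (Hsm 𝓝 P (n + 1)),
      ∃ y, Hsm.map π (n + 2) y = Hsm.delta hR (n + 1) z)
    (x : Hsm 𝓝 P (n + 3)) (hx : x ∈ pPrimary p (Hsm 𝓝 P (n + 3)))
    (hres : Hsm.map r (n + 3) x = 0) : x = 0 := by
  have : Smooth 𝓝 W := hL.smooth_right
  have : Smooth 𝓝 P := hL.smooth_left
  have hιπ : ∀ y : Hsm 𝓝 Q (n + 2),
      Hsm.map ι (n + 2) (Hsm.map π (n + 2) y) = Hsm.map s (n + 2) y := by
    intro y
    exact (Hsm.map_comp' (fun a => hs a) (n + 2) y).symm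
  -- step 1
  obtain ⟨w₀, rfl⟩ := (Hsm.exact_delta_map hL (n + 2) x).1 hres
  obtain ⟨w, hw, hww⟩ := exists_mem_pPrimary_map_eq hp (Hsm.delta hL (n + 2))
    (Hsm.exists_nsmul_eq_zero (n + 1) w₀) hx
  rw [← hww]
  -- step 2
  obtain ⟨y₀, hy₀⟩ := h1 (Hsm.map ι (n + 2) w) (map_mem_pPrimary _ hw)
    (Hsm.map_map_eq_zero hR (n + 2) w)
  obtain ⟨y', hy', hyy'⟩ := exists_mem_pPrimary_map_eq hp (Hsm.map (𝓝 := 𝓝) s (n + 2))
    (Hsm.exists_nsmul_eq_zero (n + 1) y₀) (hy₀ ▸ map_mem_pPrimary _ hw)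
  rw [hy₀] at hyy'
  have hv : w - Hsm.map π (n + 2) y' ∈ pPrimary p (Hsm 𝓝 W (n + 2)) :=
    sub_mem hw (map_mem_pPrimary _ hy')
  have hιv : Hsm.map ι (n + 2) (w - Hsm.map π (n + 2) y') = 0 := by
    rw [map_sub, hιπ, hyy', sub_self]
  -- step 3
  obtain ⟨z₀, hz₀⟩ := (Hsm.exact_delta_map hR (n + 1) _).1 hιv
  obtain ⟨z, hz, hzz⟩ := exists_mem_pPrimary_map_eq hp (Hsm.delta hR (n + 1))
    (Hsm.exists_nsmul_eq_zero n z₀) (hz₀ ▸ hv)
  obtain ⟨y, hy⟩ := h2 z hz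
  have hw' : w = Hsm.map π (n + 2) (y' + y) := by
    rw [map_add, hy, hzz, hz₀]
    abel
  rw [hw']
  exact Hsm.delta_map_eq_zero hL (n + 2) _

/-- LEMMA H3, counting form, for two abstract short exact sequences. -/
theorem h3_card (hL : ShortExact r π) (hR : ShortExact ι c) (hs : ∀ y, s y = ι (π y))
    {p : ℕ} (hp : p.Prime) (n : ℕ)
    (h1 : ∀ y ∈ pPrimary p (Hsm 𝓝 Q (n + 2)), Hsm.map c (n + 2) y = 0 →
      ∃ y', Hsm.map s (n + 2) y' = y)
    (h2a : ((Hsm.map (𝓝 := 𝓝) c (n + 1)).range).relIndex (pPrimary p (Hsm 𝓝 P (n + 1))) ≠ 0)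
    (h2b : ((Hsm.map (𝓝 := 𝓝) c (n + 1)).range).relIndex (pPrimary p (Hsm 𝓝 P (n + 1))) ≤
      ((Hsm.map (𝓝 := 𝓝) r (n + 2)).range).relIndex
        (pPrimary p (Hsm 𝓝 Q (n + 2)) ⊓ (Hsm.map (𝓝 := 𝓝) s (n + 2)).ker))
    (x : Hsm 𝓝 P (n + 3)) (hx : x ∈ pPrimary p (Hsm 𝓝 P (n + 3)))
    (hres : Hsm.map r (n + 3) x = 0) : x = 0 := by
  have : Smooth 𝓝 W := hL.smooth_right
  have : Smooth 𝓝 P := hL.smooth_left
  refine h3_core hL hR hs hp n h1 ?_ x hx hres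
  have hιπ : ∀ y : Hsm 𝓝 Q (n + 2),
      Hsm.map ι (n + 2) (Hsm.map π (n + 2) y) = Hsm.map s (n + 2) y := by
    intro y
    exact (Hsm.map_comp' (fun a => hs a) (n + 2) y).symm
  set P1 := pPrimary p (Hsm 𝓝 P (n + 1)) with hP1
  set S := pPrimary p (Hsm 𝓝 Q (n + 2)) ⊓ (Hsm.map (𝓝 := 𝓝) s (n + 2)).ker with hS
  set C := P1.map (Hsm.delta hR (n + 1)) with hC
  set D := S.map (Hsm.map (𝓝 := 𝓝) π (n + 2)) with hD
  have hker2 : (Hsm.delta (𝓝 := 𝓝) hR (n + 1)).ker = (Hsm.map (𝓝 := 𝓝) c (n + 1)).range := by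
    ext z
    rw [AddMonoidHom.mem_ker, AddMonoidHom.mem_range]
    exact Hsm.exact_map_delta hR (n + 1) z
  have hkerπ : (Hsm.map (𝓝 := 𝓝) π (n + 2)).ker = (Hsm.map (𝓝 := 𝓝) r (n + 2)).range := by
    ext z
    rw [AddMonoidHom.mem_ker, AddMonoidHom.mem_range]
    exact Hsm.exact_map_map hL (n + 2) z
  have hcardC : Nat.card C = ((Hsm.map (𝓝 := 𝓝) c (n + 1)).range).relIndex P1 := by
    rw [hC, card_map_eq_relIndex_ker, hker2]
  have hcardD : Nat.card D = ((Hsm.map (𝓝 := 𝓝) r (n + 2)).range).relIndex S := by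
    rw [hD, card_map_eq_relIndex_ker, hkerπ]
  have hDC : D ≤ C := by
    rintro _ ⟨y, hy, rfl⟩
    have hy1 : y ∈ pPrimary p (Hsm 𝓝 Q (n + 2)) := hy.1
    have hy2 : Hsm.map s (n + 2) y = 0 := hy.2
    have h0 : Hsm.map ι (n + 2) (Hsm.map π (n + 2) y) = 0 := by rw [hιπ, hy2]
    obtain ⟨z₀, hz₀⟩ := (Hsm.exact_delta_map hR (n + 1) _).1 h0
    obtain ⟨z, hz, hzz⟩ := exists_mem_pPrimary_map_eq hp (Hsm.delta hR (n + 1))
      (Hsm.exists_nsmul_eq_zero n z₀) (hz₀ ▸ map_mem_pPrimary _ hy1)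
    exact ⟨z, hz, hzz.trans hz₀⟩
  have hfin : Finite C := by
    apply Nat.finite_of_card_ne_zero
    rw [hcardC]
    exact h2a
  have hCD : D = C := by
    apply AddSubgroup.eq_of_le_of_card_ge hDC
    rw [hcardC, hcardD]
    exact h2b
  intro z hz
  have hzC : Hsm.delta hR (n + 1) z ∈ C := ⟨z, hz, rfl⟩
  rw [← hCD] at hzC
  obtain ⟨y, -, hy⟩ := hzC
  exact ⟨y, hy⟩

end abs

/-! ### LEMMA H3 for a cyclic cover -/

section Isec

variable (𝓝 : LevelSys G)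
variable {X' X : Type} [MulAction G X'] [MulAction G X] {u : X' →[G] X} {σ : X' →[G] X'} {m : ℕ}
variable (A : Type) [AddCommGroup A] [DistribMulAction G A]
variable [Finite X'] [Finite X] [SmoothSet 𝓝 X'] [SmoothSet 𝓝 X] [Smooth 𝓝 A]

/-- I3: LEMMA H3, core form.  (Application: `n = 0`.) -/
theorem CyclicCover.res_injective_of (h : CyclicCover u σ m) {p : ℕ} (hp : p.Prime) (n : ℕ)
    (h1 : ∀ y ∈ pPrimary p (Hsm 𝓝 (IndMod X' A) (n + 2)),
      Hsm.map (IndMod.push A u) (n + 2) y = 0 →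
        ∃ y', Hsm.map (IndMod.sigmaSub A σ) (n + 2) y' = y)
    (h2 : ∀ z ∈ pPrimary p (Hsm 𝓝 (IndMod X A) (n + 1)),
      ∃ y, Hsm.map (GSub.rangeRestrict (IndMod.sigmaSub A σ)) (n + 2) y =
        Hsm.delta (h.shortExact_right (A := A)) (n + 1) z)
    (x : Hsm 𝓝 (IndMod X A) (n + 3)) (hx : x ∈ pPrimary p (Hsm 𝓝 (IndMod X A) (n + 3)))
    (hres : Hsm.map (IndMod.pull A u) (n + 3) x = 0) : x = 0 :=
  h3_core (h.shortExact_left (A := A)) (h.shortExact_right (A := A)) (fun _ => rfl) hp n h1 h2 x hx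
    hres

/-- I4: LEMMA H3, counting form: hypothesis (2) is
`|coker(cor_1)(p)| ≤ |Y(p)^σ / res H^2(A_X)(p)|`, the left side being finite. -/
theorem CyclicCover.res_injective_of_card (h : CyclicCover u σ m) {p : ℕ} (hp : p.Prime) (n : ℕ)
    (h1 : ∀ y ∈ pPrimary p (Hsm 𝓝 (IndMod X' A) (n + 2)),
      Hsm.map (IndMod.push A u) (n + 2) y = 0 →
        ∃ y', Hsm.map (IndMod.sigmaSub A σ) (n + 2) y' = y)
    (h2a : ((Hsm.map (𝓝 := 𝓝) (IndMod.push A u) (n + 1)).range).relIndex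
      (pPrimary p (Hsm 𝓝 (IndMod X A) (n + 1))) ≠ 0)
    (h2b : ((Hsm.map (𝓝 := 𝓝) (IndMod.push A u) (n + 1)).range).relIndex
        (pPrimary p (Hsm 𝓝 (IndMod X A) (n + 1))) ≤
      ((Hsm.map (𝓝 := 𝓝) (IndMod.pull A u) (n + 2)).range).relIndex
        (pPrimary p (Hsm 𝓝 (IndMod X' A) (n + 2)) ⊓
          (Hsm.map (𝓝 := 𝓝) (IndMod.sigmaSub A σ) (n + 2)).ker))
    (x : Hsm 𝓝 (IndMod X A) (n + 3)) (hx : x ∈ pPrimary p (Hsm 𝓝 (IndMod X A) (n + 3)))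
    (hres : Hsm.map (IndMod.pull A u) (n + 3) x = 0) : x = 0 :=
  h3_card (h.shortExact_left (A := A)) (h.shortExact_right (A := A)) (fun _ => rfl) hp n h1 h2a h2b
    x hx hres

end Isec

end Fermat.Agent.S55
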