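/-
S55 / block COH-2, section COH-F (F1, F2) : the Shapiro map is natural in the coefficients and
commutes with the connecting homomorphisms.
-/
import Fermat.Agent.S55.Coh.ShapiroDef
import Fermat.Agent.S55.Coh.ResApi
import Fermat.Agent.S55.Coh.ResDelta
import Fermat.Agent.S55.Coh.IndApi

set_option autoImplicit false

namespace Fermat.Agent.S55

variable {G H : Type} [Group G] [Group H]

section F

variable (𝓝 : LevelSys G) {X : Type} [MulAction G X]

variable {A B C : Type} [AddCommGroup A] [DistribMulAction G A] [AddCommGroup B]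
  [DistribMulAction G B] [AddCommGroup C] [DistribMulAction G C]

/-- F1: naturality in the coefficients. -/
theorem Hsm.shapiro_map (U : Subgroup G) (x0 : X) (hx0 : ∀ u ∈ U, u • x0 = x0) (φ : A →+[G] B)
    (n : ℕ) (x : Hsm 𝓝 (IndMod X A) n) :
    Hsm.shapiro 𝓝 B U x0 hx0 n (Hsm.map (IndMod.mapCoeff X φ) n x) =
      Hsm.map (ResMod.map U.subtype φ) n (Hsm.shapiro 𝓝 A U x0 hx0 n x) := by
  induction x using Hsm.induction_on with
  | h z => rfl

/-- F2 for arbitrary proofs of exactness of the two induced sequences. -/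
theorem Hsm.shapiro_delta' [Finite X] [SmoothSet 𝓝 X] [Smooth 𝓝 B] (U : Subgroup G) (x0 : X)
    (hx0 : ∀ u ∈ U, u • x0 = x0) {φ : A →+[G] B} {ψ : B →+[G] C}
    (h1 : ShortExact (ResMod.map U.subtype φ) (ResMod.map U.subtype ψ))
    (h2 : ShortExact (IndMod.mapCoeff X φ) (IndMod.mapCoeff X ψ))
    (n : ℕ) (y : Hsm 𝓝 (IndMod X C) n) :
    Hsm.delta h1 n (Hsm.shapiro 𝓝 C U x0 hx0 n y) =
      Hsm.shapiro 𝓝 A U x0 hx0 (n + 1) (Hsm.delta h2 n y) :=
  Hsm.delta_pmap U.subtype (LevelSys.Le.refl _) h2 h1 _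
    ((ResMod.toRes U.subtype : B ≃+ ResMod U.subtype B).toAddMonoidHom.comp (IndMod.eval x0)) _ _
    (fun u F => by
      show ResMod.toRes U.subtype ((U.subtype u • F) x0) = u • ResMod.toRes U.subtype (F x0)
      rw [ResMod.smul_def, IndMod.smul_apply]
      have : (U.subtype u)⁻¹ • x0 = x0 := hx0 _ (U.inv_mem u.2)
      rw [this]) _ (fun _ => rfl) (fun _ => rfl) n y

/-- F2: compatibility with the connecting homomorphisms. -/
theorem Hsm.shapiro_delta [Finite X] [SmoothSet 𝓝 X] [Smooth 𝓝 B] (U : Subgroup G) (x0 : X)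
    (hx0 : ∀ u ∈ U, u • x0 = x0) {φ : A →+[G] B} {ψ : B →+[G] C} (h : ShortExact φ ψ)
    (n : ℕ) (y : Hsm 𝓝 (IndMod X C) n) :
    Hsm.delta (ResMod.shortExact_map U.subtype h) n (Hsm.shapiro 𝓝 C U x0 hx0 n y) =
      Hsm.shapiro 𝓝 A U x0 hx0 (n + 1) (Hsm.delta (IndMod.shortExact_mapCoeff X h) n y) :=
  Hsm.shapiro_delta' 𝓝 U x0 hx0 _ _ n y

end F

end Fermat.Agent.S55
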