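/-
S55 / block COH-2, task COH-F3 : Shapiro's lemma in degree zero.
-/
import Fermat.Agent.S55.Coh.ShapiroDef
import Fermat.Agent.S55.Coh.H0

set_option autoImplicit false

namespace Fermat.Agent.S55

variable {G H : Type} [Group G] [Group H]

section F

variable (𝓝 : LevelSys G) {X : Type} [MulAction G X]

variable {A B C : Type} [AddCommGroup A] [DistribMulAction G A] [AddCommGroup B]
  [DistribMulAction G B] [AddCommGroup C] [DistribMulAction G C]

/-- the Shapiro map in degree zero, on invariants. -/
theorem Hsm.shapiroZero_H0equiv (U : Subgroup G) (x0 : X) (hx0 : ∀ u ∈ U, u • x0 = x0)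
    (x : Hsm 𝓝 (IndMod X A) 0) :
    ((Hsm.H0equiv (Hsm.shapiro 𝓝 A U x0 hx0 0 x) : inv0 U (ResMod U.subtype A)) :
      ResMod U.subtype A) =
      ResMod.toRes U.subtype (((Hsm.H0equiv x : inv0 G (IndMod X A)) : IndMod X A) x0) := by
  induction x using Hsm.induction_on with
  | h z =>
    rw [Hsm.shapiro, Hsm.pmap_mk, Hsm.H0equiv_mk, Hsm.H0equiv_mk, Zsm.coe_pmap, pcmap_apply]
    rw [Subsingleton.elim (fun i : Fin 0 => U.subtype ((default : Fin 0 → U) i)) default]
    rfl

/-- an invariant function is equivariant. -/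
theorem Hsm.shapiroZero_apply_smul {F : IndMod X A} (hF : F ∈ inv0 G (IndMod X A)) (g : G)
    (x : X) : F (g • x) = g • F x := by
  have h := congrArg (fun E : IndMod X A => E (g • x)) (hF g)
  simp only [IndMod.smul_apply, inv_smul_smul] at h
  exact h.symm

/-- F3: Shapiro in degree zero. -/
theorem Hsm.shapiro_bijective_zero [MulAction.IsPretransitive G X] (U : Subgroup G) (x0 : X)
    (hU : ∀ g, g ∈ U ↔ g • x0 = x0) :
    Function.Bijective (Hsm.shapiro 𝓝 A U x0 (fun u hu => (hU u).1 hu) 0) := by
  constructor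
  · rw [injective_iff_map_eq_zero]
    intro x hx
    have h1 := Hsm.shapiroZero_H0equiv 𝓝 (A := A) U x0 (fun u hu => (hU u).1 hu) x
    rw [hx, map_zero] at h1
    have h2 : ((Hsm.H0equiv x : inv0 G (IndMod X A)) : IndMod X A) x0 = 0 :=
      (ResMod.toRes U.subtype).injective (by rw [← h1, map_zero]; rfl)
    have h3 : Hsm.H0equiv x = 0 := by
      apply Subtype.ext
      ext y
      obtain ⟨g, rfl⟩ := MulAction.exists_smul_eq G x0 y
      rw [Hsm.shapiroZero_apply_smul (Hsm.H0equiv x).2, h2, smul_zero]
      rfl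
    exact (AddEquiv.map_eq_zero_iff _).1 h3
  · intro y
    set b : inv0 U (ResMod U.subtype A) := Hsm.H0equiv y with hb
    set a : A := (ResMod.toRes U.subtype).symm (b : ResMod U.subtype A) with ha
    have hab : ResMod.toRes U.subtype a = (b : ResMod U.subtype A) := by
      rw [ha, AddEquiv.apply_symm_apply]
    have hfix : ∀ u ∈ U, u • a = a := by
      intro u hu
      have h1 := b.2 ⟨u, hu⟩
      rw [← hab, ResMod.smul_def] at h1
      exact (ResMod.toRes U.subtype).injective h1
    have hwd : ∀ h1 h2 : G, h1 • x0 = h2 • x0 → h1 • a = h2 • a := by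
      intro h1 h2 h
      have hmem : h2⁻¹ * h1 ∈ U := by
        rw [hU, mul_smul, h, inv_smul_smul]
      have := hfix _ hmem
      rw [mul_smul, inv_smul_eq_iff] at this
      exact this
    choose γ hγ using fun x : X => MulAction.exists_smul_eq G x0 x
    let F : IndMod X A := IndMod.of fun x => γ x • a
    have hF : F ∈ inv0 G (IndMod X A) := by
      intro g
      ext x
      rw [IndMod.smul_apply]
      change g • γ (g⁻¹ • x) • a = γ x • a
      rw [← mul_smul]
      apply hwd
      rw [mul_smul, hγ, hγ, smul_inv_smul]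
    refine ⟨Hsm.H0equiv.symm ⟨F, hF⟩, ?_⟩
    apply Hsm.H0equiv.injective
    apply Subtype.ext
    rw [Hsm.shapiroZero_H0equiv, AddEquiv.apply_symm_apply, ← hb, ← hab]
    congr 1
    change γ x0 • a = a
    have := hwd (γ x0) 1 (by rw [hγ, one_smul])
    rw [this, one_smul]

end F

end Fermat.Agent.S55
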