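/-
S55 / block COH-2, node COH-T3 : base change and projection formula for `θ` along a morphism of
cyclic covers of the same degree.  Owner: helper159.
-/
import Fermat.Agent.S55.Coh.ThetaNat
import Fermat.Agent.S55.Coh.IndApi
import Fermat.Agent.S55.Coh.SetDefs2
import Fermat.Agent.S55.Coh.ThetaRes

set_option autoImplicit false

namespace Fermat.Agent.S55

variable {G : Type} [Group G] (𝓝 : LevelSys G)

section T3

variable {X' X Y' Y : Type} [MulAction G X'] [MulAction G X] [MulAction G Y'] [MulAction G Y]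
  {u : X' →[G] X} {σ : X' →[G] X'} {v : Y' →[G] Y} {τ : Y' →[G] Y'} {m : ℕ}
  {w' : Y' →[G] X'} {w : Y →[G] X}

/-- `w'` intertwines the iterates of the deck transformations. -/
theorem thetaBase_map_iterate (hσ : ∀ y, w' (τ y) = σ (w' y)) (k : ℕ) (z : Y') :
    w' (τ^[k] z) = σ^[k] (w' z) := by
  induction k with
  | zero => rfl
  | succ k ih => rw [Function.iterate_succ_apply', Function.iterate_succ_apply', hσ, ih]

/-- A morphism of cyclic covers of the same degree is cartesian: bijection on the fibres. -/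
theorem CyclicCover.fiber_bijective_of_morphism (hX : CyclicCover u σ m) (hY : CyclicCover v τ m)
    (hu : ∀ y, u (w' y) = w (v y)) (hσ : ∀ y, w' (τ y) = σ (w' y)) (y : Y) :
    Function.Bijective (fun z : {z : Y' // v z = y} =>
      (⟨w' z.1, by rw [hu, z.2]⟩ : {x : X' // u x = w y})) := by
  constructor
  · rintro ⟨z₁, h₁⟩ ⟨z₂, h₂⟩ h
    have h' : w' z₁ = w' z₂ := congrArg Subtype.val h
    obtain ⟨k, hk, hkz⟩ := hY.trans z₁ z₂ (h₁.trans h₂.symm)
    have h3 : σ^[k] (w' z₁) = w' z₁ := by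
      rw [← thetaBase_map_iterate hσ, hkz, h']
    have hk0 : k = 0 := by
      by_contra hne
      exact hX.free _ k (Nat.pos_of_ne_zero hne) hk h3
    subst hk0
    exact Subtype.ext hkz
  · rintro ⟨x, hx⟩
    obtain ⟨z₀, hz₀⟩ := hY.surj y
    obtain ⟨k, -, hkx⟩ := hX.trans (w' z₀) x (by rw [hu, hz₀, hx])
    refine ⟨⟨τ^[k] z₀, by rw [hY.map_iterate, hz₀]⟩, Subtype.ext ?_⟩
    show w' (τ^[k] z₀) = x
    rw [thetaBase_map_iterate hσ, hkx]

/-- The other direction of the cartesian square: `v` is a bijection between the fibres of `w'`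
and of `w`. -/
theorem thetaBase_fiber_bijective (hX : CyclicCover u σ m) (hY : CyclicCover v τ m)
    (hu : ∀ y, u (w' y) = w (v y)) (hσ : ∀ y, w' (τ y) = σ (w' y)) (x' : X') :
    Function.Bijective (fun z : {z : Y' // w' z = x'} =>
      (⟨v z.1, by rw [← hu, z.2]⟩ : {y : Y // w y = u x'})) := by
  constructor
  · rintro ⟨z₁, h₁⟩ ⟨z₂, h₂⟩ h
    have h' : v z₁ = v z₂ := congrArg Subtype.val h
    obtain ⟨k, hk, hkz⟩ := hY.trans z₁ z₂ h'
    have h3 : σ^[k] x' = x' := by
      conv_lhs => rw [← h₁]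
      rw [← thetaBase_map_iterate hσ, hkz, h₂]
    have hk0 : k = 0 := by
      by_contra hne
      exact hX.free _ k (Nat.pos_of_ne_zero hne) hk h3
    subst hk0
    exact Subtype.ext hkz
  · rintro ⟨y, hy⟩
    obtain ⟨z₀, hz₀⟩ := hY.surj y
    obtain ⟨k, -, hkx⟩ := hX.trans (w' z₀) x' (by rw [hu, hz₀, hy])
    refine ⟨⟨τ^[k] z₀, by rw [thetaBase_map_iterate hσ, hkx]⟩, Subtype.ext ?_⟩
    show v (τ^[k] z₀) = y
    rw [hY.map_iterate, hz₀]

/-- `τ` is a bijection from the fibre of `w'` over `x'` to the fibre over `σ x'`. -/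
theorem thetaBase_tau_bijective (hX : CyclicCover u σ m) (hY : CyclicCover v τ m)
    (hσ : ∀ y, w' (τ y) = σ (w' y)) (x' : X') :
    Function.Bijective (fun z : {z : Y' // w' z = x'} =>
      (⟨τ z.1, by rw [hσ, z.2]⟩ : {z : Y' // w' z = σ x'})) := by
  constructor
  · rintro ⟨z₁, h₁⟩ ⟨z₂, h₂⟩ h
    exact Subtype.ext (hY.sigma_bijective.1 (congrArg Subtype.val h))
  · rintro ⟨z, hz⟩
    obtain ⟨z₀, rfl⟩ := hY.sigma_bijective.2 z
    refine ⟨⟨z₀, hX.sigma_bijective.1 ?_⟩, rfl⟩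
    rw [← hσ, hz]

variable (A : Type) [AddCommGroup A] [DistribMulAction G A]
variable [Finite X'] [SmoothSet 𝓝 X'] [Finite Y'] [SmoothSet 𝓝 Y'] [Smooth 𝓝 A]

/-- BASE CHANGE: `θ_Y (w^* x) = w^* θ_X (x)`. -/
theorem CyclicCover.theta_pull (hX : CyclicCover u σ m) (hY : CyclicCover v τ m)
    (hu : ∀ y, u (w' y) = w (v y)) (hσ : ∀ y, w' (τ y) = σ (w' y)) (n : ℕ)
    (x : Hsm 𝓝 (IndMod X A) n) :
    hY.theta 𝓝 A n (Hsm.map (IndMod.pull A w) n x) =
      Hsm.map (IndMod.pull A w) (n + 2) (hX.theta 𝓝 A n x) := by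
  refine CyclicCover.theta_naturality₂ 𝓝 hX hY (IndMod.pull A w) (IndMod.pull A w)
    (IndMod.pull A w') (IndMod.pull A w') ?_ ?_ ?_ n x
  · intro a
    ext z
    simp only [IndMod.pull_apply, hu]
  · intro f
    ext z
    simp only [IndMod.pull_apply, IndMod.sigmaSub_apply, hσ]
  · intro f
    ext y
    obtain ⟨z, rfl⟩ := hY.surj y
    rw [IndMod.pull_apply, ← hu, hX.push_apply_map, hY.push_apply_map]
    refine Finset.sum_congr rfl fun k _ => ?_
    rw [IndMod.pull_apply, thetaBase_map_iterate hσ]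

/-- PROJECTION FORMULA: `θ_X (w_* y) = w_* θ_Y (y)`. -/
theorem CyclicCover.theta_push' [Finite Y] (hX : CyclicCover u σ m) (hY : CyclicCover v τ m)
    (hu : ∀ y, u (w' y) = w (v y)) (hσ : ∀ y, w' (τ y) = σ (w' y)) (n : ℕ)
    (y : Hsm 𝓝 (IndMod Y A) n) :
    hX.theta 𝓝 A n (Hsm.map (IndMod.push A w) n y) =
      Hsm.map (IndMod.push A w) (n + 2) (hY.theta 𝓝 A n y) := by
  refine CyclicCover.theta_naturality₂ 𝓝 hY hX (IndMod.push A w) (IndMod.push A w)
    (IndMod.push A w') (IndMod.push A w') ?_ ?_ ?_ n y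
  · intro a
    ext x'
    rw [IndMod.pull_apply, IndMod.push_apply, IndMod.push_apply]
    exact finsum_comp_equiv (Equiv.ofBijective _ (thetaBase_fiber_bijective hX hY hu hσ x'))
      (f := fun y : {y : Y // w y = u x'} => a y.1)
  · intro f
    ext x'
    rw [IndMod.sigmaSub_apply, IndMod.push_apply, IndMod.push_apply, IndMod.push_apply]
    simp only [IndMod.sigmaSub_apply]
    rw [finsum_sub_distrib (Set.toFinite _) (Set.toFinite _)]
    congr 1
    exact finsum_comp_equiv (Equiv.ofBijective _ (thetaBase_tau_bijective hX hY hσ x'))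
      (f := fun z : {z : Y' // w' z = σ x'} => f z.1)
  · intro f
    rw [← IndMod.push_comp, ← IndMod.push_comp]
    have : w.comp v = u.comp w' := by
      ext z
      exact (hu z).symm
    rw [this]

end T3

end Fermat.Agent.S55
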