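/-
S55 / block COH-2 : theta calculus, COH-T1 : change of generator `θ_σ = k • θ_{σ^k}`.
-/
import Fermat.Agent.S55.Coh.ThetaNat
import Fermat.Agent.S55.Coh.IndApi

set_option autoImplicit false

namespace Fermat.Agent.S55

variable {G : Type} [Group G] (𝓝 : LevelSys G)

section T1

variable {X' X : Type} [MulAction G X'] [MulAction G X] {u : X' →[G] X} {σ : X' →[G] X'} {m : ℕ}

namespace ThetaGen

theorem iterHom_iterate (σ : X' →[G] X') (k j : ℕ) (x : X') :
    (iterHom σ k)^[j] x = σ^[k * j] x := by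
  rw [Function.iterate_mul]
  rfl

theorem iterate_mul_left (h : CyclicCover u σ m) (j : ℕ) (x : X') : σ^[m * j] x = x := by
  rw [Function.iterate_mul]
  exact Function.iterate_fixed (h.pow x) j

theorem iterate_mod (h : CyclicCover u σ m) (a : ℕ) (x : X') : σ^[a] x = σ^[a % m] x := by
  conv_lhs => rw [← Nat.mod_add_div a m, Function.iterate_add_apply, iterate_mul_left h]

/-- Multiplication by `k` as an equivariant map. -/
def nsmulHom (M : Type) [AddCommGroup M] [DistribMulAction G M] (k : ℕ) : M →+[G] M where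
  toFun a := k • a
  map_smul' g a := (smul_comm g k a).symm
  map_zero' := smul_zero k
  map_add' a b := smul_add k a b

/-- `N_k f = ∑_{i<k} f ∘ σ^i`. -/
def iterSum (A : Type) [AddCommGroup A] [DistribMulAction G A] (σ : X' →[G] X') (k : ℕ) :
    IndMod X' A →+[G] IndMod X' A where
  toFun f := ∑ i ∈ Finset.range k, IndMod.pull A (iterHom σ i) f
  map_smul' g f := by
    simp only [map_smul, Finset.smul_sum, MonoidHom.id_apply]
  map_zero' := by simp
  map_add' f f' := by simp [Finset.sum_add_distrib]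

theorem iterSum_apply (A : Type) [AddCommGroup A] [DistribMulAction G A] (σ : X' →[G] X') (k : ℕ)
    (f : IndMod X' A) (x : X') :
    iterSum A σ k f x = ∑ i ∈ Finset.range k, f (σ^[i] x) := by
  show (∑ i ∈ Finset.range k, IndMod.pull A (iterHom σ i) f) x = _
  rw [IndMod.finset_sum_apply]
  rfl

end ThetaGen

open ThetaGen

/-- `σ^k` is again a generator when `k` is prime to `m`. -/
theorem CyclicCover.iter (h : CyclicCover u σ m) {k : ℕ} (hk : k.Coprime m) :
    CyclicCover u (iterHom σ k) m where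
  pos := h.pos
  surj := h.surj
  comm x := h.map_iterate k x
  pow x := by rw [iterHom_iterate, mul_comm, iterate_mul_left h]
  trans x y hxy := by
    obtain ⟨i, _, hi⟩ := h.trans x y hxy
    have : NeZero m := ⟨h.pos.ne'⟩
    let w : ZMod m := ((ZMod.unitOfCoprime k hk)⁻¹ : (ZMod m)ˣ) * (i : ZMod m)
    refine ⟨w.val, w.val_lt, ?_⟩
    rw [iterHom_iterate, iterate_mod h, ← hi, iterate_mod h i]
    have h1 : ((k * w.val : ℕ) : ZMod m) = (i : ZMod m) := by
      rw [Nat.cast_mul, ZMod.natCast_zmod_val, ← ZMod.coe_unitOfCoprime k hk, ← mul_assoc,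
        Units.mul_inv, one_mul]
    rw [(ZMod.natCast_eq_natCast_iff' _ _ _).mp h1]
  free x j hj0 hjm hx := by
    rw [iterHom_iterate, iterate_mod h] at hx
    have hr : k * j % m = 0 := by
      by_contra hne
      exact h.free x _ (Nat.pos_of_ne_zero hne) (Nat.mod_lt _ h.pos) hx
    have hdvd : m ∣ j := (Nat.Coprime.dvd_of_dvd_mul_left hk.symm (Nat.dvd_of_mod_eq_zero hr))
    exact absurd (Nat.le_of_dvd hj0 hdvd) (not_le.mpr hjm)

variable (A : Type) [AddCommGroup A] [DistribMulAction G A]
variable [Finite X'] [SmoothSet 𝓝 X'] [Smooth 𝓝 A]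

/-- `θ_σ = k • θ_{σ^k}`. -/
theorem CyclicCover.theta_pow (h : CyclicCover u σ m) {k : ℕ} (hk : k.Coprime m) (n : ℕ)
    (x : Hsm 𝓝 (IndMod X A) n) :
    h.theta 𝓝 A n x = k • (h.iter hk).theta 𝓝 A n x := by
  have key := CyclicCover.theta_naturality₂ 𝓝 (h.iter hk) h (nsmulHom (IndMod X A) k)
    (DistribMulActionHom.id G) (iterSum A σ k) (DistribMulActionHom.id G)
    (by
      intro a
      ext y
      rw [iterSum_apply]
      simp only [IndMod.pull_apply, h.map_iterate, Finset.sum_const, Finset.card_range]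
      rfl)
    (by
      intro f
      ext y
      rw [IndMod.sigmaSub_apply, iterSum_apply, iterSum_apply]
      simp only [← Function.iterate_succ_apply]
      rw [← Finset.sum_sub_distrib, Finset.sum_range_sub (fun i => f (σ^[i] y))]
      rfl)
    (by
      intro f
      rfl) n x
  rw [Hsm.map_id, Hsm.map_nsmul' k (fun a => rfl)] at key
  exact key

/-- `θ` only depends on the maps `u`, `σ` (not on the proofs), and on `σ` pointwise. -/
theorem CyclicCover.theta_congr {σ' : X' →[G] X'} (h : CyclicCover u σ m)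
    (h' : CyclicCover u σ' m) (hσ : ∀ x, σ x = σ' x) (n : ℕ) (x : Hsm 𝓝 (IndMod X A) n) :
    h.theta 𝓝 A n x = h'.theta 𝓝 A n x := by
  obtain rfl : σ = σ' := DFunLike.ext _ _ hσ
  rfl

end T1

end Fermat.Agent.S55
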