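/-
S55 / block COH-2, section COH-T4 : induced (non connected) covers have the same `θ` as the
connected piece; covers of degree one and split covers have `θ = 0`.   Owner: helper294.
-/
import Fermat.Agent.S55.Coh.ThetaNat
import Fermat.Agent.S55.Coh.IndApi

set_option autoImplicit false
set_option linter.unusedVariables false

namespace Fermat.Agent.S55

variable {G : Type} [Group G] (𝓝 : LevelSys G)

namespace ThetaInd

/-- `N_d = ∑_{i<d} (σ^i)^*`. -/
def iterSum {X' : Type} [MulAction G X'] (A : Type) [AddCommGroup A] [DistribMulAction G A]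
    (σ : X' →[G] X') (d : ℕ) : IndMod X' A →+[G] IndMod X' A where
  toFun f := IndMod.of fun x => ∑ i ∈ Finset.range d, f (σ^[i] x)
  map_smul' g f := by
    ext x
    show ∑ i ∈ Finset.range d, (g • f) (σ^[i] x) = g • ∑ i ∈ Finset.range d, f (σ^[i] (g⁻¹ • x))
    rw [Finset.smul_sum]
    refine Finset.sum_congr rfl fun i _ => ?_
    rw [IndMod.smul_apply, ← iterHom_apply σ i, ← iterHom_apply σ i, map_smul (iterHom σ i)]
  map_zero' := by
    ext x
    simp
  map_add' f f' := by
    ext x
    simp [Finset.sum_add_distrib]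

theorem iterSum_apply {X' : Type} [MulAction G X'] (A : Type) [AddCommGroup A]
    [DistribMulAction G A] (σ : X' →[G] X') (d : ℕ) (f : IndMod X' A) (x : X') :
    iterSum A σ d f x = ∑ i ∈ Finset.range d, f (σ^[i] x) := rfl

theorem sum_range_mul {M : Type} [AddCommMonoid M] (g : ℕ → M) (d m : ℕ) :
    ∑ k ∈ Finset.range (d * m), g k =
      ∑ l ∈ Finset.range m, ∑ i ∈ Finset.range d, g (i + d * l) := by
  induction m with
  | zero => simp
  | succ m ih =>
    rw [Nat.mul_succ, Finset.sum_range_add, ih, Finset.sum_range_succ]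
    congr 1
    refine Finset.sum_congr rfl fun i _ => ?_
    rw [add_comm]

end ThetaInd

section T4

variable {X₀ X' X : Type} [MulAction G X₀] [MulAction G X'] [MulAction G X]
  {u : X' →[G] X} {σ : X' →[G] X'} {j : X₀ →[G] X'} {τ : X₀ →[G] X₀} {d m₀ : ℕ}

variable (A : Type) [AddCommGroup A] [DistribMulAction G A]
variable [Finite X'] [SmoothSet 𝓝 X'] [Finite X₀] [SmoothSet 𝓝 X₀] [Smooth 𝓝 A]

/-- If `X₀ ⊆ X'` is stable under `σ^d` and `X₀ → X` is cyclic of degree `m₀` with generator
`τ = σ^d|X₀`, where `X' → X` has degree `d * m₀`, then `θ_{X'/X, σ} = θ_{X₀/X, τ}`. -/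
theorem CyclicCover.theta_induced (h : CyclicCover u σ (d * m₀))
    (h₀ : CyclicCover (u.comp j) τ m₀) (hj : Function.Injective j)
    (hτ : ∀ y, j (τ y) = σ^[d] (j y)) (n : ℕ) (x : Hsm 𝓝 (IndMod X A) n) :
    h.theta 𝓝 A n x = h₀.theta 𝓝 A n x := by
  have hτ' : ∀ (l : ℕ) (y : X₀), j (τ^[l] y) = σ^[d * l] (j y) := by
    intro l y
    induction l with
    | zero => rfl
    | succ l ih =>
      rw [Function.iterate_succ_apply', hτ, ih, ← Function.iterate_add_apply, Nat.mul_succ,
        add_comm]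
  have key := CyclicCover.theta_naturality₂ 𝓝 h h₀ (DistribMulActionHom.id G)
    (DistribMulActionHom.id G) (IndMod.pull A j)
    ((IndMod.pull A j).comp (ThetaInd.iterSum A σ d)) (fun a => rfl)
    (fun f => by
      ext y
      show ∑ i ∈ Finset.range d, (f (σ (σ^[i] (j y))) - f (σ^[i] (j y))) = f (j (τ y)) - f (j y)
      simp only [← Function.iterate_succ_apply' σ]
      rw [Finset.sum_range_sub (fun i => f (σ^[i] (j y))), hτ]
      rfl)
    (fun f => by
      ext x
      obtain ⟨y, rfl⟩ := h₀.surj x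
      rw [h₀.push_apply_map]
      show IndMod.push A u f (u (j y)) = ∑ l ∈ Finset.range m₀,
        ∑ i ∈ Finset.range d, f (σ^[i] (j (τ^[l] y)))
      rw [h.push_apply_map, ThetaInd.sum_range_mul]
      refine Finset.sum_congr rfl fun l _ => Finset.sum_congr rfl fun i _ => ?_
      rw [hτ', Function.iterate_add_apply]) n x
  rw [Hsm.map_id, Hsm.map_id] at key
  exact key.symm

omit [Finite X₀] [SmoothSet 𝓝 X₀] in
/-- A cover of degree one has `θ = 0`. -/
theorem CyclicCover.theta_eq_zero_of_degree_one (h : CyclicCover u σ 1) (n : ℕ)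
    (x : Hsm 𝓝 (IndMod X A) n) : h.theta 𝓝 A n x = 0 := by
  have := h.nsmul_theta 𝓝 A n x
  rwa [one_smul] at this

omit [Finite X₀] [SmoothSet 𝓝 X₀] in
/-- A cover with an equivariant section has `θ = 0`. -/
theorem CyclicCover.theta_eq_zero_of_section {m : ℕ} [Finite X] [SmoothSet 𝓝 X]
    (h : CyclicCover u σ m) (s : X →[G] X') (hs : ∀ x, u (s x) = x) (n : ℕ)
    (x : Hsm 𝓝 (IndMod X A) n) : h.theta 𝓝 A n x = 0 := by
  have h' : CyclicCover u σ (m * 1) := (mul_one m).symm ▸ h
  have h₀ : CyclicCover (u.comp s) (MulActionHom.id G) 1 :=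
    { pos := Nat.one_pos
      surj := fun x => ⟨x, hs x⟩
      comm := fun _ => rfl
      pow := fun _ => rfl
      trans := fun x y hxy => ⟨0, Nat.one_pos, by
        have h1 : u (s x) = u (s y) := hxy
        rw [hs, hs] at h1
        exact h1⟩
      free := fun _ k hk hk' => by omega }
  have hs' : Function.Injective s := fun a b hab => by
    rw [← hs a, ← hs b, hab]
  have e : h.theta 𝓝 A n x = h'.theta 𝓝 A n x := rfl
  rw [e, CyclicCover.theta_induced 𝓝 A h' h₀ hs' (fun y => (h.pow (s y)).symm) n x]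
  exact CyclicCover.theta_eq_zero_of_degree_one 𝓝 A h₀ n x

end T4

end Fermat.Agent.S55
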