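/-
S55 / block COH-2, section COH-T5 : cyclic torsors (cyclic covers of the point), `θ0` on `H^n(A)`,
product covers `X × Y → X`, projection formula `sum_* θ = θ0 sum_*`.
-/
import Fermat.Agent.S55.Coh.ThetaNat
import Fermat.Agent.S55.Coh.IndApi
import Fermat.Agent.S55.Coh.SetDefs2

set_option autoImplicit false

namespace Fermat.Agent.S55

variable {G : Type} [Group G] (𝓝 : LevelSys G)

/-! ### Module level identities for the two projections of a product -/

section prodApi

variable {X Y : Type} [MulAction G X] [MulAction G Y] {A : Type} [AddCommGroup A]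
  [DistribMulAction G A]

theorem IndMod.push_fst_apply [Finite (X × Y)] (b : IndMod (X × Y) A) (x : X) :
    IndMod.push A (MulActionHom.fst G X Y) b x = ∑ᶠ y : Y, b (x, y) := by
  let e : Y ≃ {z : X × Y // MulActionHom.fst G X Y z = x} :=
    { toFun := fun y => ⟨(x, y), rfl⟩
      invFun := fun z => z.1.2
      left_inv := fun _ => rfl
      right_inv := by rintro ⟨⟨x', y⟩, rfl⟩; rfl }
  rw [IndMod.push_apply]
  exact (finsum_comp_equiv e (f := fun z => b z.1)).symm

theorem IndMod.push_snd_apply [Finite (X × Y)] (b : IndMod (X × Y) A) (y : Y) :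
    IndMod.push A (MulActionHom.snd G X Y) b y = ∑ᶠ x : X, b (x, y) := by
  let e : X ≃ {z : X × Y // MulActionHom.snd G X Y z = y} :=
    { toFun := fun x => ⟨(x, y), rfl⟩
      invFun := fun z => z.1.1
      left_inv := fun _ => rfl
      right_inv := by rintro ⟨⟨x, y'⟩, rfl⟩; rfl }
  rw [IndMod.push_apply]
  exact (finsum_comp_equiv e (f := fun z => b z.1)).symm

end prodApi

section T5

variable {Y : Type} [MulAction G Y] {σ : Y →[G] Y} {m : ℕ}

/-- The map to the point. -/
def CyclicTorsor.ptHom (G : Type) [Group G] (Y : Type) [MulAction G Y] : Y →[G] PUnit.{1} where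
  toFun _ := PUnit.unit
  map_smul' _ _ := rfl

/-- A cyclic torsor is a cyclic cover of the point. -/
theorem CyclicTorsor.cover (h : CyclicTorsor σ m) : CyclicCover (CyclicTorsor.ptHom G Y) σ m where
  pos := h.pos
  surj := fun _ => h.nonempty.elim fun y => ⟨y, rfl⟩
  comm _ := rfl
  pow := h.pow
  trans x y _ := h.trans x y
  free := h.free

theorem CyclicTorsor.finite (h : CyclicTorsor σ m) : Finite Y := by
  obtain ⟨y₀⟩ := h.nonempty
  exact Finite.of_equiv (Fin m)
    ((h.cover.fibreEquiv y₀).trans (Equiv.subtypeUnivEquiv fun _ => rfl))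

theorem CyclicTorsor.card (h : CyclicTorsor σ m) : Nat.card Y = m := by
  rw [← h.cover.card_fiber PUnit.unit]
  exact (Nat.card_congr (Equiv.subtypeUnivEquiv fun _ => rfl)).symm

theorem CyclicTorsor.push_ptHom [Finite Y] {A : Type} [AddCommGroup A] [DistribMulAction G A]
    (f : IndMod Y A) (x : PUnit.{1}) :
    IndMod.push A (CyclicTorsor.ptHom G Y) f x = IndMod.sum (G := G) Y A f := by
  rw [IndMod.push_apply, IndMod.sum_def]
  exact finsum_comp_equiv
    (Equiv.subtypeUnivEquiv (p := fun y => CyclicTorsor.ptHom G Y y = x) fun _ => rfl)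
    (f := fun y => f y)

/-- The sum over a cyclic torsor as a sum over the powers of `σ`. -/
theorem CyclicTorsor.sum_eq (h : CyclicTorsor σ m) [Finite Y] {A : Type} [AddCommGroup A]
    [DistribMulAction G A] (f : IndMod Y A) (y : Y) :
    IndMod.sum (G := G) Y A f = ∑ k ∈ Finset.range m, f (σ^[k] y) := by
  rw [← CyclicTorsor.push_ptHom f (CyclicTorsor.ptHom G Y y), h.cover.push_apply_map]

/-- `0 → A → Map(Y, A) → Map(Y, A) → A → 0`. -/
theorem CyclicTorsor.fourTerm (h : CyclicTorsor σ m) [Finite Y] (A : Type) [AddCommGroup A]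
    [DistribMulAction G A] :
    FourTerm (IndMod.const Y A) (GSub.rangeRestrict (IndMod.sigmaSub A σ))
      (GSub.range (IndMod.sigmaSub A σ)).inclG (IndMod.sum Y A) where
  left :=
    { inj := by
        have := h.nonempty
        exact IndMod.const_injective
      exact := fun f => by
        rw [(h.cover.shortExact_left A).exact f]
        constructor
        · rintro ⟨a, rfl⟩
          exact ⟨a PUnit.unit, rfl⟩
        · rintro ⟨a, rfl⟩
          exact ⟨IndMod.const (G := G) PUnit A a, rfl⟩
      surj := GSub.rangeRestrict_surjective _ }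
  right :=
    { inj := GSub.inclG_injective _
      exact := fun f => by
        rw [← (h.cover.shortExact_right A).exact f]
        constructor
        · intro hf
          ext x
          rw [CyclicTorsor.push_ptHom, hf]
          rfl
        · intro hf
          rw [← CyclicTorsor.push_ptHom f PUnit.unit, hf]
          rfl
      surj := fun a => by
        obtain ⟨f, hf⟩ := h.cover.push_surjective (IndMod.const (G := G) PUnit A a)
        refine ⟨f, ?_⟩
        rw [← CyclicTorsor.push_ptHom f PUnit.unit, hf]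
        rfl }

theorem CyclicTorsor.iterate_prodMap (X : Type) [MulAction G X] (σ : Y →[G] Y) (k : ℕ) (x : X)
    (y : Y) :
    (MulActionHom.prodMap (MulActionHom.id G) σ : X × Y →[G] X × Y)^[k] (x, y) =
      (x, σ^[k] y) := by
  induction k generalizing y with
  | zero => rfl
  | succ k ih =>
    rw [Function.iterate_succ_apply, Function.iterate_succ_apply]
    exact ih (σ y)

/-- The product cover `X × Y → X`. -/
theorem CyclicTorsor.prod (h : CyclicTorsor σ m) (X : Type) [MulAction G X] :
    CyclicCover (MulActionHom.fst G X Y) (MulActionHom.prodMap (MulActionHom.id G) σ) m where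
  pos := h.pos
  surj := fun x => h.nonempty.elim fun y => ⟨(x, y), rfl⟩
  comm _ := rfl
  pow := by
    rintro ⟨x, y⟩
    rw [CyclicTorsor.iterate_prodMap, h.pow]
  trans := by
    rintro ⟨x, y⟩ ⟨x', y'⟩ hxy
    obtain rfl : x = x' := hxy
    obtain ⟨k, hk, hky⟩ := h.trans y y'
    exact ⟨k, hk, by rw [CyclicTorsor.iterate_prodMap, hky]⟩
  free := by
    rintro ⟨x, y⟩ k hk hkm hxy
    rw [CyclicTorsor.iterate_prodMap] at hxy
    exact h.free y k hk hkm (congrArg Prod.snd hxy)

variable (A : Type) [AddCommGroup A] [DistribMulAction G A]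

/-- `θ_σ : H^n(A) → H^(n+2)(A)` for a cyclic torsor. -/
noncomputable def CyclicTorsor.theta0 [Finite Y] [SmoothSet 𝓝 Y] [Smooth 𝓝 A]
    (h : CyclicTorsor σ m) (n : ℕ) : Hsm 𝓝 A n →+ Hsm 𝓝 A (n + 2) :=
  (h.fourTerm A).theta n

variable [Finite Y] [SmoothSet 𝓝 Y] [Smooth 𝓝 A]

/-- `θ_{X × Y / X} (const_* a) = const_* θ0 (a)`. -/
theorem CyclicTorsor.theta_const (h : CyclicTorsor σ m) (X : Type) [MulAction G X] [Finite X]
    [SmoothSet 𝓝 X] (n : ℕ) (a : Hsm 𝓝 A n) :
    (h.prod X).theta 𝓝 A n (Hsm.map (IndMod.const X A) n a) =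
      Hsm.map (IndMod.const X A) (n + 2) (h.theta0 𝓝 A n a) := by
  refine FourTerm.theta_naturality_range (h.fourTerm A) ((h.prod X).fourTerm A)
    (IndMod.const X A) (IndMod.const X A) (IndMod.pull A (MulActionHom.snd G X Y))
    (IndMod.pull A (MulActionHom.snd G X Y)) ?_ ?_ ?_ n a
  · intro a
    rfl
  · intro b
    rfl
  · intro b
    ext x
    rw [IndMod.push_fst_apply, IndMod.const_apply, IndMod.sum_def]
    rfl

/-- PROJECTION FORMULA: `θ0 (sum_* x) = sum_* θ_{X × Y / X} (x)`. -/
theorem CyclicTorsor.theta0_sum (h : CyclicTorsor σ m) (X : Type) [MulAction G X] [Finite X]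
    [SmoothSet 𝓝 X] (n : ℕ) (x : Hsm 𝓝 (IndMod X A) n) :
    h.theta0 𝓝 A n (Hsm.map (IndMod.sum X A) n x) =
      Hsm.map (IndMod.sum X A) (n + 2) ((h.prod X).theta 𝓝 A n x) := by
  refine FourTerm.theta_naturality_range ((h.prod X).fourTerm A) (h.fourTerm A)
    (IndMod.sum X A) (IndMod.sum X A) (IndMod.push A (MulActionHom.snd G X Y))
    (IndMod.push A (MulActionHom.snd G X Y)) ?_ ?_ ?_ n x
  · intro a
    ext y
    rw [IndMod.push_snd_apply, IndMod.const_apply, IndMod.sum_def]
    rfl
  · intro b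
    ext y
    rw [IndMod.sigmaSub_apply, IndMod.push_snd_apply, IndMod.push_snd_apply,
      IndMod.push_snd_apply, ← finsum_sub_distrib (Set.toFinite _) (Set.toFinite _)]
    rfl
  · intro b
    rw [IndMod.sum_push, IndMod.sum_push]

/-- Naturality of `θ0` in the coefficients. -/
theorem CyclicTorsor.theta0_map {B : Type} [AddCommGroup B] [DistribMulAction G B] [Smooth 𝓝 B]
    (h : CyclicTorsor σ m) (φ : A →+[G] B) (n : ℕ) (a : Hsm 𝓝 A n) :
    h.theta0 𝓝 B n (Hsm.map φ n a) = Hsm.map φ (n + 2) (h.theta0 𝓝 A n a) := by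
  refine FourTerm.theta_naturality_range (h.fourTerm A) (h.fourTerm B) φ φ
    (IndMod.mapCoeff Y φ) (IndMod.mapCoeff Y φ) ?_ ?_ ?_ n a
  · intro a
    rfl
  · intro b
    exact IndMod.mapCoeff_sigmaSub σ φ b
  · intro b
    exact IndMod.map_sum' φ b

end T5

end Fermat.Agent.S55
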