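/-
S55 / block COH-2, section COH-T6 : the pulled back cover `Y ×_X X' → Y` is cyclic; base change and
projection formula for it.   Owner: helper279.
-/
import Fermat.Agent.S55.Coh.ThetaBase

set_option autoImplicit false

namespace Fermat.Agent.S55

variable {G : Type} [Group G] (𝓝 : LevelSys G)

section T6

variable {X' X Y : Type} [MulAction G X'] [MulAction G X] [MulAction G Y]
  {u : X' →[G] X} {σ : X' →[G] X'} {m : ℕ}

theorem PullSet.fst_iterate_mapSnd (w : Y →[G] X) (hσ : ∀ x, u (σ x) = u x) (k : ℕ)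
    (p : PullSet w u) : ((PullSet.mapSnd w u σ hσ)^[k] p).fst = p.fst := by
  induction k with
  | zero => rfl
  | succ k ih => rw [Function.iterate_succ_apply', PullSet.fst_mapSnd, ih]

theorem PullSet.snd_iterate_mapSnd (w : Y →[G] X) (hσ : ∀ x, u (σ x) = u x) (k : ℕ)
    (p : PullSet w u) : ((PullSet.mapSnd w u σ hσ)^[k] p).snd = σ^[k] p.snd := by
  induction k with
  | zero => rfl
  | succ k ih => rw [Function.iterate_succ_apply', PullSet.snd_mapSnd, ih,
      Function.iterate_succ_apply']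

/-- The pulled back cover. -/
theorem CyclicCover.pullSet (h : CyclicCover u σ m) (w : Y →[G] X) :
    CyclicCover (PullSet.fstHom w u) (PullSet.mapSnd w u σ h.comm) m where
  pos := h.pos
  surj y := by
    obtain ⟨x', hx'⟩ := h.surj (w y)
    exact ⟨⟨y, x', hx'.symm⟩, rfl⟩
  comm _ := rfl
  pow p := PullSet.ext (PullSet.fst_iterate_mapSnd w h.comm m p)
    (by rw [PullSet.snd_iterate_mapSnd, h.pow])
  trans p q hpq := by
    have hpq' : p.fst = q.fst := hpq
    obtain ⟨k, hk, hkq⟩ := h.trans p.snd q.snd (by rw [← p.eq, ← q.eq, hpq'])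
    exact ⟨k, hk, PullSet.ext (by rw [PullSet.fst_iterate_mapSnd, hpq'])
      (by rw [PullSet.snd_iterate_mapSnd, hkq])⟩
  free p k hk hkm hp := by
    apply h.free p.snd k hk hkm
    rw [← PullSet.snd_iterate_mapSnd w h.comm, hp]

variable (A : Type) [AddCommGroup A] [DistribMulAction G A]
variable [Finite X'] [SmoothSet 𝓝 X'] [Finite Y] [SmoothSet 𝓝 Y] [Smooth 𝓝 A]

theorem CyclicCover.theta_pullSet (h : CyclicCover u σ m) (w : Y →[G] X) (n : ℕ)
    (x : Hsm 𝓝 (IndMod X A) n) :
    (h.pullSet w).theta 𝓝 A n (Hsm.map (IndMod.pull A w) n x) =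
      Hsm.map (IndMod.pull A w) (n + 2) (h.theta 𝓝 A n x) :=
  CyclicCover.theta_pull 𝓝 A (w' := PullSet.sndHom w u) h (h.pullSet w)
    (fun p => p.eq.symm) (fun _ => rfl) n x

theorem CyclicCover.theta_push_pullSet (h : CyclicCover u σ m) (w : Y →[G] X) (n : ℕ)
    (y : Hsm 𝓝 (IndMod Y A) n) :
    h.theta 𝓝 A n (Hsm.map (IndMod.push A w) n y) =
      Hsm.map (IndMod.push A w) (n + 2) ((h.pullSet w).theta 𝓝 A n y) :=
  CyclicCover.theta_push' 𝓝 A (w' := PullSet.sndHom w u) h (h.pullSet w)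
    (fun p => p.eq.symm) (fun _ => rfl) n y

end T6

end Fermat.Agent.S55
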