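/-
S55 / block COH-2, section COH-T2 : towers of cyclic covers, `θ_{X'/X} = m' • θ_{X''/X}` (helper111).
-/
import Fermat.Agent.S55.Coh.ThetaNat
import Fermat.Agent.S55.Coh.IndApi

set_option autoImplicit false

namespace Fermat.Agent.S55

variable {G : Type} [Group G] (𝓝 : LevelSys G)

section T2

variable {X'' X' X : Type} [MulAction G X''] [MulAction G X'] [MulAction G X]
  {u : X' →[G] X} {σ : X' →[G] X'} {v : X'' →[G] X'} {τ : X'' →[G] X''} {m m' : ℕ}

theorem iterHom_iterate {Y : Type} [MulAction G Y] (τ : Y →[G] Y) (a k : ℕ) (y : Y) :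
    (iterHom τ a)^[k] y = τ^[a * k] y := by
  rw [Function.iterate_mul]
  rfl

theorem tower_map_iterate (hv : ∀ y, v (τ y) = σ (v y)) (k : ℕ) (y : X'') :
    v (τ^[k] y) = σ^[k] (v y) := by
  induction k with
  | zero => rfl
  | succ k ih => rw [Function.iterate_succ_apply', Function.iterate_succ_apply', hv, ih]

theorem CyclicCover.iterate_mul_self (h : CyclicCover u σ m) (q : ℕ) (x : X') :
    σ^[m * q] x = x := by
  induction q with
  | zero => rfl
  | succ q ih => rw [Nat.mul_succ, Function.iterate_add_apply, h.pow, ih]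

theorem CyclicCover.dvd_of_iterate_eq (h : CyclicCover u σ m) {k : ℕ} {x : X'}
    (hk : σ^[k] x = x) : m ∣ k := by
  have h1 : σ^[k % m] x = x := by
    conv_lhs => rw [← h.iterate_mul_self (k / m) x]
    rw [← Function.iterate_add_apply, Nat.mod_add_div, hk]
  by_contra hdvd
  have h2 : 0 < k % m := Nat.pos_of_ne_zero fun h0 => hdvd (Nat.dvd_of_mod_eq_zero h0)
  exact h.free x (k % m) h2 (Nat.mod_lt _ h.pos) h1

theorem CyclicCover.tower_surjective (h' : CyclicCover u σ m)
    (h'' : CyclicCover (u.comp v) τ (m * m')) (hv : ∀ y, v (τ y) = σ (v y)) :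
    Function.Surjective v := by
  intro x
  obtain ⟨y, hy⟩ := h''.surj (u x)
  obtain ⟨k, -, hk⟩ := h'.trans (v y) x hy
  exact ⟨τ^[k] y, by rw [tower_map_iterate hv, hk]⟩

/-- The upper step of a tower is a cyclic cover with generator `τ^m`. -/
theorem CyclicCover.tower_upper (h' : CyclicCover u σ m)
    (h'' : CyclicCover (u.comp v) τ (m * m')) (hv : ∀ y, v (τ y) = σ (v y)) :
    CyclicCover v (iterHom τ m) m' where
  pos := Nat.pos_of_mul_pos_left h''.pos
  surj := h'.tower_surjective h'' hv
  comm y := by rw [iterHom_apply, tower_map_iterate hv, h'.pow]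
  pow y := by rw [iterHom_iterate, h''.pow]
  trans y y' hyy' := by
    obtain ⟨k, hk, hky⟩ := h''.trans y y' (congrArg u hyy')
    have h1 : σ^[k] (v y) = v y := by rw [← tower_map_iterate hv, hky, hyy']
    obtain ⟨q, rfl⟩ := h'.dvd_of_iterate_eq h1
    exact ⟨q, Nat.lt_of_mul_lt_mul_left hk, by rw [iterHom_iterate, hky]⟩
  free y k hk0 hk := by
    rw [iterHom_iterate]
    exact h''.free y (m * k) (Nat.mul_pos h'.pos hk0) (Nat.mul_lt_mul_of_pos_left hk h'.pos)

/-- In a tower `X'' → X' → X`, cyclic of degree `m * m'` with generator `τ` inducing `σ` on `X'`,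
the fibres of `X'' → X'` have `m'` elements. -/
theorem CyclicCover.tower_card_fiber (h' : CyclicCover u σ m)
    (h'' : CyclicCover (u.comp v) τ (m * m')) (hv : ∀ y, v (τ y) = σ (v y)) (x : X') :
    Nat.card {y // v y = x} = m' :=
  (h'.tower_upper h'' hv).card_fiber x

/-- multiplication by `k` as an equivariant map. -/
def towerNsmulHom (k : ℕ) (M : Type) [AddCommGroup M] [DistribMulAction G M] : M →+[G] M where
  toFun a := k • a
  map_smul' g a := smul_comm k g a
  map_zero' := smul_zero k
  map_add' a b := smul_add k a b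

variable (A : Type) [AddCommGroup A] [DistribMulAction G A]
variable [Finite X''] [SmoothSet 𝓝 X''] [Finite X'] [SmoothSet 𝓝 X'] [Smooth 𝓝 A]

/-- `θ_{X'/X, σ} = m' • θ_{X''/X, τ}`. -/
theorem CyclicCover.theta_tower (h' : CyclicCover u σ m)
    (h'' : CyclicCover (u.comp v) τ (m * m')) (hv : ∀ y, v (τ y) = σ (v y)) (n : ℕ)
    (x : Hsm 𝓝 (IndMod X A) n) :
    h'.theta 𝓝 A n x = m' • h''.theta 𝓝 A n x := by
  have key := CyclicCover.theta_naturality₂ 𝓝 h' h'' (DistribMulActionHom.id G)
    (towerNsmulHom m' (IndMod X A)) (IndMod.pull A v) (IndMod.pull A v)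
    (fun a => rfl)
    (fun f => by
      ext y
      simp only [IndMod.sigmaSub_apply, IndMod.pull_apply, hv])
    (fun f => by
      rw [IndMod.push_comp, IndMod.push_pull v m' (h'.tower_card_fiber h'' hv), map_nsmul]
      rfl) n x
  rw [Hsm.map_nsmul' m' (fun a => rfl), map_nsmul, Hsm.map_id' (fun a => rfl)] at key
  exact key.symm

end T2

end Fermat.Agent.S55
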