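/-
S55 / block COH : one import for consumers = every finished file of `Fermat/Agent/S55/Coh/`.
Also serves as a name-clash detector: keep it compiling.
-/
import Fermat.Agent.S55.Coh.Chain
import Fermat.Agent.S55.Coh.Complex
import Fermat.Agent.S55.Coh.Coset
import Fermat.Agent.S55.Coh.Cyclic
import Fermat.Agent.S55.Coh.Defs
import Fermat.Agent.S55.Coh.Efface
import Fermat.Agent.S55.Coh.EffaceRes
import Fermat.Agent.S55.Coh.FourTerm
import Fermat.Agent.S55.Coh.Functor
import Fermat.Agent.S55.Coh.H0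
import Fermat.Agent.S55.Coh.H3
import Fermat.Agent.S55.Coh.H3Abs
import Fermat.Agent.S55.Coh.IndApi
import Fermat.Agent.S55.Coh.IndMaps
import Fermat.Agent.S55.Coh.IndProd
import Fermat.Agent.S55.Coh.LES
import Fermat.Agent.S55.Coh.LESExact
import Fermat.Agent.S55.Coh.Modules
import Fermat.Agent.S55.Coh.PPrimary
import Fermat.Agent.S55.Coh.Res
import Fermat.Agent.S55.Coh.ResApi
import Fermat.Agent.S55.Coh.ResDelta
import Fermat.Agent.S55.Coh.SetDefs
import Fermat.Agent.S55.Coh.SetDefs2
import Fermat.Agent.S55.Coh.Shapiro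
import Fermat.Agent.S55.Coh.ShapiroDef
import Fermat.Agent.S55.Coh.ShapiroNat
import Fermat.Agent.S55.Coh.ShapiroZero
import Fermat.Agent.S55.Coh.SylowChain
import Fermat.Agent.S55.Coh.Theta
import Fermat.Agent.S55.Coh.ThetaBase
import Fermat.Agent.S55.Coh.ThetaGen
import Fermat.Agent.S55.Coh.ThetaInd
import Fermat.Agent.S55.Coh.ThetaLoc
import Fermat.Agent.S55.Coh.ThetaNat
import Fermat.Agent.S55.Coh.ThetaPt
import Fermat.Agent.S55.Coh.ThetaPull
import Fermat.Agent.S55.Coh.ThetaRes
import Fermat.Agent.S55.Coh.ThetaTower
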