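/-
S55 / block COH-2 : SHAPIRO'S LEMMA for smooth cohomology, by dimension shifting.
-/
import Fermat.Agent.S55.Coh.ShapiroNat
import Fermat.Agent.S55.Coh.ShapiroZero
import Fermat.Agent.S55.Coh.EffaceRes
import Fermat.Agent.S55.Coh.Efface
import Fermat.Agent.S55.Coh.IndApi
import Fermat.Agent.S55.Coh.LESExact

set_option autoImplicit false

namespace Fermat.Agent.S55

variable {G : Type} [Group G]

/-- SHAPIRO'S LEMMA: for a finite transitive smooth `G`-set `X` with base point `x0` of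
stabiliser `U`, restriction to `U` followed by evaluation at `x0` is an isomorphism
`H^n(G, Map(X, A)) ≃ H^n(U, A)`. -/
theorem Hsm.shapiro_bijective_aux (𝓝 : LevelSys G) {X : Type} [MulAction G X]
    [MulAction.IsPretransitive G X] [Finite X] [SmoothSet 𝓝 X]
    (U : Subgroup G) (x0 : X) (hU : ∀ g, g ∈ U ↔ g • x0 = x0) (n : ℕ) :
    ∀ (A : Type) [AddCommGroup A] [DistribMulAction G A] [Smooth 𝓝 A],
      Function.Bijective (Hsm.shapiro 𝓝 A U x0 (fun u hu => (hU u).1 hu) n) := by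
  induction n with
  | zero =>
    intro A _ _ _
    exact Hsm.shapiro_bijective_zero 𝓝 U x0 hU
  | succ n ih =>
    intro A _ _ _
    have hx0 : ∀ u ∈ U, u • x0 = x0 := fun u hu => (hU u).1 hu
    constructor
    · rw [injective_iff_map_eq_zero]
      intro t ht
      obtain ⟨N, hN, hNt⟩ := Hsm.efface_ind (𝓝 := 𝓝) X n t
      have : N.FiniteIndex := 𝓝.finiteIndex N hN
      have : SmoothSet 𝓝 (G ⧸ N) := SmoothSet.quotient 𝓝 (LevelSys.isOpen_of_mem hN)
      have hSES : ShortExact (IndMod.const (G := G) (G ⧸ N) A)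
          (GSub.range (IndMod.const (G := G) (G ⧸ N) A)).projG :=
        ShortExact.of_injective IndMod.const_injective
      obtain ⟨t'', rfl⟩ :=
        (Hsm.exact_delta_map (IndMod.shortExact_mapCoeff X hSES) n t).1 hNt
      rw [← Hsm.shapiro_delta 𝓝 U x0 hx0 hSES] at ht
      obtain ⟨s', hs'⟩ :=
        (Hsm.exact_map_delta (ResMod.shortExact_map U.subtype hSES) n _).1 ht
      obtain ⟨t', rfl⟩ := (ih (IndMod (G ⧸ N) A)).2 s'
      rw [← Hsm.shapiro_map] at hs'
      have := (ih _).1 hs'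
      rw [← this]
      exact Hsm.delta_map_eq_zero _ n t'
    · intro s
      obtain ⟨N, hN, hNs⟩ := Hsm.efface_res 𝓝 U.subtype n s
      have : N.FiniteIndex := 𝓝.finiteIndex N hN
      have : SmoothSet 𝓝 (G ⧸ N) := SmoothSet.quotient 𝓝 (LevelSys.isOpen_of_mem hN)
      have hSES : ShortExact (IndMod.const (G := G) (G ⧸ N) A)
          (GSub.range (IndMod.const (G := G) (G ⧸ N) A)).projG :=
        ShortExact.of_injective IndMod.const_injective
      obtain ⟨s'', rfl⟩ :=
        (Hsm.exact_delta_map (ResMod.shortExact_map U.subtype hSES) n s).1 hNs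
      obtain ⟨t'', rfl⟩ := (ih _).2 s''
      exact ⟨_, (Hsm.shapiro_delta 𝓝 U x0 hx0 hSES n t'').symm⟩

/-- SHAPIRO'S LEMMA. -/
theorem Hsm.shapiro_bijective (𝓝 : LevelSys G) {X : Type} [MulAction G X] {A : Type}
    [AddCommGroup A] [DistribMulAction G A] [MulAction.IsPretransitive G X] [Finite X]
    [SmoothSet 𝓝 X] [Smooth 𝓝 A] (U : Subgroup G) (x0 : X) (hU : ∀ g, g ∈ U ↔ g • x0 = x0)
    (n : ℕ) : Function.Bijective (Hsm.shapiro 𝓝 A U x0 (fun u hu => (hU u).1 hu) n) :=
  Hsm.shapiro_bijective_aux 𝓝 U x0 hU n A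

end Fermat.Agent.S55
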